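import Fermat.Agent.S33.Defs
import Mathlib

/-!
# S33 / Good / K0 : choice of the number field and of the cyclotomic exponent
-/

set_option autoImplicit false
set_option linter.unusedSectionVars false

open AlgebraicCurve ModularCurve

namespace Fermat.Agent.S33

open Fermat.Agent.ES Fermat.Agent.SS

/-- TASK `S33/Good-K0`.  A finite set of algebraic numbers lies in a number field stable under `G_ℚ`.
`K₁ := IntermediateField.adjoin ℚ T` is finite dimensional (`IntermediateField.finiteDimensional_adjoin`, as in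
`Crux.crux_of_coreKAt`); `K₀ := normalClosure ℚ K₁ Qb` (`normalClosure.is_finiteDimensional`, `normalClosure.normal`,
`IntermediateField.le_normalClosure`); stability: `IntermediateField.normal_iff_forall_map_le` (or
`Normal`: `σ x` is a root of `minpoly ℚ x`, which splits in `K₀`). -/
theorem exists_K₀ (T : Finset Qb) : ∃ K₀ : IntermediateField ℚ Qb, FiniteDimensional ℚ K₀ ∧
    (∀ σ : GQ, ∀ x ∈ K₀, σ x ∈ K₀) ∧ ∀ c ∈ T, c ∈ K₀ := by
  let K₁ : IntermediateField ℚ Qb := IntermediateField.adjoin ℚ (T : Set Qb)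
  have hfin : FiniteDimensional ℚ K₁ :=
    IntermediateField.finiteDimensional_adjoin fun x _ =>
      ((AlgebraicClosure.isAlgebraic ℚ).isAlgebraic x).isIntegral
  have hACl : IsAlgClosure ℚ Qb :=
    (inferInstance : @IsAlgClosure ℚ (AlgebraicClosure ℚ) _ _ (AlgebraicClosure.instAlgebra ℚ) _)
  have hnQ : Normal ℚ Qb := IsAlgClosure.normal ℚ Qb
  have hnorm : Normal ℚ (IntermediateField.normalClosure ℚ K₁ Qb) := normalClosure.normal ℚ _ Qb
  refine ⟨IntermediateField.normalClosure ℚ K₁ Qb, normalClosure.is_finiteDimensional ℚ _ Qb,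
    ?_, ?_⟩
  · intro σ x hx
    have h := IntermediateField.normal_iff_forall_map_le'.mp hnorm σ
    exact h ((IntermediateField.mem_map _).mpr ⟨x, hx, rfl⟩)
  · intro c hc
    exact IntermediateField.le_normalClosure K₁
      (IntermediateField.subset_adjoin _ _ (Finset.mem_coe.mpr hc))

/-- TASK `S33/Good-K0`.  `ES.exists_primitiveRoot_Qb p`; `σ ζ` is a `p`-th root of unity, so `σ ζ = ζ^a`
(`IsPrimitiveRoot.eq_pow_of_pow_eq_one`).  If `p ∣ a - 1` then `σ ζ = ζ` (`ζ^a = ζ`: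
`IsPrimitiveRoot.pow_eq_pow_iff_modEq`/`pow_eq_pow_iff...`), so `σ` fixes every `p`-th root of unity (a power of `ζ`),
contradicting `OmegaNe`. -/
theorem exists_cyc_ne {p : ℕ} (hp : p.Prime) (σ : GQ) (hω : OmegaNe p σ) :
    ∃ (ζ : Qb) (a : ℕ), IsPrimitiveRoot ζ p ∧ σ ζ = ζ ^ a ∧ ¬ (p : ℤ) ∣ (a : ℤ) - 1 := by
  have : NeZero p := ⟨hp.ne_zero⟩
  obtain ⟨ζ, hζ⟩ := exists_primitiveRoot_Qb p
  have h1 : (σ ζ) ^ p = 1 := by rw [← map_pow, hζ.pow_eq_one, map_one]
  obtain ⟨a, -, ha⟩ := hζ.eq_pow_of_pow_eq_one h1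
  refine ⟨ζ, a, hζ, ha.symm, ?_⟩
  intro hdvd
  obtain ⟨ξ, hξ, hne⟩ := hω
  apply hne
  obtain ⟨i, -, rfl⟩ := hζ.eq_pow_of_pow_eq_one hξ
  have h2 : ζ ^ a = ζ := by
    have h3 : ζ ^ ((a : ℤ) - 1) = 1 := (hζ.zpow_eq_one_iff_dvd _).mpr hdvd
    have hζ0 : ζ ≠ 0 := hζ.ne_zero hp.ne_zero
    rw [zpow_sub₀ hζ0, zpow_natCast, zpow_one, div_eq_one_iff_eq hζ0] at h3
    exact h3
  rw [map_pow, ← ha, h2]

end Fermat.Agent.S33
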