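import Fermat.Agent.S33.Good.Setup

/-!
# S33 / Good / ThetaZero : translation of the hypothesis `RedPow` into `θ (red W) = 0`
-/

set_option autoImplicit false
set_option linter.unusedSectionVars false

open AlgebraicCurve ModularCurve

namespace Fermat.Agent.S33

open Fermat.Agent.ES Fermat.Agent.SS Fermat.Agent.S33.Calc

theorem ThetaZero_der_pow {B : Type*} [CommRing B] (D : DerInt B) (p : ℕ) (hp : (p : B) = 0)
    (r : B) : D (r ^ p) = 0 := by
  rw [Derivation.leibniz_pow, nsmul_eq_mul, hp, zero_mul]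

theorem ThetaZero_der_mul {B : Type*} [CommRing B] (D : DerInt B) (a b : B) (ha : D a = 0) :
    D (a * b) = a * D b := by
  rw [Derivation.leibniz, ha, smul_zero, add_zero, smul_eq_mul]

theorem Setup.ThetaZero_redTo {p : ℕ} [Fact p.Prime] (S : Setup p) {W : LaurentSeries Qb}
    {r₁ : LaurentSeries (kR S.R)} (hW : Red0 S.ι W r₁) : RedTo S.A W (coeffMap S.kι r₁) := by
  obtain ⟨y₁, y₂, h0, h1, h2⟩ := hW
  have key : ∀ y : LaurentSeries S.R, coeffMap (resA S.A) (coeffMap S.toA y)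
      = coeffMap S.kι (coeffMap (rs S.R) y) := fun y => by
    rw [coeffMap_coeffMap, coeffMap_coeffMap, S.kι_comp_rs]
  have key2 : ∀ y : LaurentSeries S.R, coeffMap S.A.subtype (coeffMap S.toA y)
      = coeffMap S.ι y := fun y => by
    rw [coeffMap_coeffMap, S.subtype_comp_toA]
  refine ⟨coeffMap S.toA y₁, coeffMap S.toA y₂, ?_, ?_, ?_⟩
  · rw [key]
    intro h
    apply h0
    apply Red_coeffMap_injective S.kι S.kι.injective
    rw [h, map_zero]
  · rw [key2, key2, h1]
  · rw [key, key, h2, map_mul]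

/-- TASK `S33/Good-Theta`.  `Red0 S.ι W r₁` gives `RedTo S.A W (coeffMap S.kι r₁)` (push `y₁ y₂` to `A` by
`coeffMap S.toA`; `S.subtype_comp_toA`, `S.kι_comp_rs`, `coeffMap_coeffMap`; `S.kι` is injective).  `r₁ ≠ 0`.  Dividing:
`RedTo S.A (cst c) (r^p / coeffMap S.kι r₁)` (`RedTo.mul`, `RedTo.inv`), so by `RedTo.const`
`r^p = cstk b * coeffMap S.kι r₁`, `b ≠ 0`.  Apply `theta (kA A)`: `θ (r^p) = 0` (char `p`:
`Derivation.leibniz_pow`, `CharP (kA A) p`), `θ (cstk b) = 0` (`theta_single_zero`), so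
`θ (coeffMap S.kι r₁) = 0`, i.e. `coeffMap S.kι (θ r₁) = 0` (`coeffMap_theta`), and `coeffMap S.kι` is injective. -/
theorem Setup.theta_eq_zero {p : ℕ} [Fact p.Prime] (S : Setup p) {W : LaurentSeries Qb}
    {r₁ : LaurentSeries (kR S.R)} (hW : Red0 S.ι W r₁) (hr₁ : r₁ ≠ 0) {c : Qb}
    {r : LaurentSeries (kA S.A)} (hr : r ≠ 0) (h : RedTo S.A (cst c * W) (r ^ p)) :
    theta (kR S.R) r₁ = 0 := by
  have hinj := Red_coeffMap_injective S.kι S.kι.injective
  have hW' := S.ThetaZero_redTo hW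
  have hρ : coeffMap S.kι r₁ ≠ 0 := by
    intro h0
    apply hr₁
    apply hinj
    rw [h0, map_zero]
  have hW0 : W ≠ 0 := by
    rintro rfl
    have hz : RedTo S.A (0 : LaurentSeries Qb) 0 := by
      refine ⟨0, 1, ?_, ?_, ?_⟩
      · rw [map_one]; exact one_ne_zero
      · rw [map_zero, zero_mul]
      · rw [map_zero, zero_mul]
    exact hρ (hW'.unique hz)
  have h1 := h.mul (hW'.inv hρ)
  rw [mul_assoc, mul_inv_cancel₀ hW0, mul_one] at h1
  obtain ⟨a, -, ha⟩ := h1.const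
  have h2 : r ^ p = cstk S.A (resA S.A a) * coeffMap S.kι r₁ := by
    rw [← ha, mul_assoc, inv_mul_cancel₀ hρ, mul_one]
  have hb : cstk S.A (resA S.A a) ≠ 0 := by
    intro h0
    rw [h0, zero_mul] at h2
    exact hr (pow_eq_zero_iff (Fact.out : p.Prime).ne_zero |>.1 h2)
  have hchar : CharP (kA S.A) p := charP_kA (Fact.out : p.Prime) S.hA
  have hp0 : (p : LaurentSeries (kA S.A)) = 0 := by
    have : (p : LaurentSeries (kA S.A)) = HahnSeries.C ((p : ℕ) : kA S.A) := by rw [map_natCast]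
    rw [this, CharP.cast_eq_zero, map_zero]
  have h3 : theta (kA S.A) (r ^ p) = 0 := ThetaZero_der_pow _ p hp0 r
  have h4 : theta (kA S.A) (cstk S.A (resA S.A a)) = 0 := by
    rw [cstk, algebraMap_laurentSeries_eq_single]
    exact theta_single_zero _
  rw [h2, ThetaZero_der_mul _ _ _ h4] at h3
  have h5 : theta (kA S.A) (coeffMap S.kι r₁) = 0 := (mul_eq_zero.1 h3).resolve_left hb
  apply hinj
  rw [coeffMap_theta, h5, map_zero]

end Fermat.Agent.S33
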