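import Fermat.Agent.S33.Good.Inst
import Fermat.Agent.S33.Good.K0
import Fermat.Agent.S33.Good.ThetaZero

/-!
# S33 / Good : `RIG ⟹ GOOD`   (blueprint #1322, (C1)-(C5), SEP, DESC, (G0)-(G4))

The abstract core is `Good.Pkg.good` (`S33/Good/Abs.lean`), its instance `Setup.good_of_rep`
(`S33/Good/Inst.lean`).  Here: choice of the number field `K₀` and translation of the hypothesis `RedPow`.
-/

set_option autoImplicit false
set_option linter.unusedSectionVars false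

open AlgebraicCurve ModularCurve

namespace Fermat.Agent.S33

open Fermat.Agent.ES Fermat.Agent.SS Fermat.Agent.S33.Calc

/-- **GOOD.** -/
theorem good (M p : ℕ) [NeZero M] (hp : p.Prime) (hp2 : p ≠ 2) (hpM : ¬ p ∣ M) (hrig : Rig M p) :
    Good M p := by
  classical
  intro A hA σ hσ hω z hz hfix
  have : Fact p.Prime := ⟨hp⟩
  have : NeZero p := ⟨hp.ne_zero⟩
  obtain ⟨g, rfl, hg⟩ := res_galA_of_inertia hσ
  obtain ⟨u, a, r, rfl, ha, hr, hred⟩ := hz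
  obtain ⟨ζ, e, hζ, hζe, he⟩ := exists_cyc_ne hp (g : GQ) hω
  obtain ⟨P, Q, -, hPQ⟩ := S24.exists_phiF_div M ((u : (FF M)ˣ) : FF M)
  obtain ⟨K₀, hfin, hst, hT⟩ := exists_K₀ (P.coeffs ∪ Q.coeffs ∪ {ζ})
  let S : Setup p :=
    { A := A, hA := hA, K₀ := K₀, fin := hfin, g := g, hg := hg, stable := hst (g : GQ), ζ := ζ,
      hζ := hζ, ζ_mem := hT ζ (by simp), a := e, ha := hζe, ha1 := he }
  obtain ⟨u₀, hu₀, hu₀'⟩ := Crux.exists_model M K₀ _ P Q hPQ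
    (fun c hc => ⟨⟨c, hT c (by simp only [Finset.mem_union]; tauto)⟩, rfl⟩)
    (fun c hc => ⟨⟨c, hT c (by simp only [Finset.mem_union]; tauto)⟩, rfl⟩)
  have huF : (((u : (FF M)ˣ) : FF M) : LaurentSeries Qb) ∈ S.F M := S.mem_F.mpr ⟨u₀, hu₀, hu₀'⟩
  have hurep : S.Rep M (((u : (FF M)ˣ) : FF M) : LaurentSeries Qb) (Kum.mk u) := ⟨huF, u, rfl, rfl⟩
  have hu0 := Setup.Rep.ne S hurep
  obtain ⟨n, W, r₁, hr₁, hW, huW⟩ := S.pivot huF hu0
  have hπ0 : (HahnSeries.C (S.ι S.ϖ) : LaurentSeries Qb) ≠ 0 := (S.opPkg M).pi_ne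
  have hπC : (HahnSeries.C (S.ι S.ϖ) : LaurentSeries Qb) ∈ S.C := (S.opPkg M).pi_mem
  -- `W` represents the same class
  have hWrep : S.Rep M W (Kum.mk u) := by
    have h1 := Setup.Rep.mul S hurep (Setup.Rep.pow S (a := (HahnSeries.C (S.ι S.ϖ) ^ n)⁻¹) (g := 1)
      (inv_mem (zpow_mem hπC n)) (inv_ne_zero (zpow_ne_zero n hπ0)) (one_mem _) one_ne_zero)
    rw [add_zero, one_pow, mul_one, huW, mul_comm, inv_mul_cancel_left₀ (zpow_ne_zero n hπ0)] at h1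
    exact h1
  -- the reduction of `W` is killed by `θ`
  have hth : theta (kR S.R) r₁ = 0 := by
    refine S.theta_eq_zero hW hr₁ (c := a * (S.ι S.ϖ) ^ n) (r := r) hr ?_
    refine hred.congr ?_ rfl
    have e1 : (HahnSeries.C (S.ι S.ϖ) : LaurentSeries Qb) = cst (S.ι S.ϖ) :=
      (algebraMap_laurentSeries_eq_single _ (S.ι S.ϖ)).symm
    have e2 : cst (a * (S.ι S.ϖ) ^ n) = cst a * cst (S.ι S.ϖ) ^ n := by
      rw [cst, cst, cst, map_mul, map_zpow₀]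
    rw [huW, e1, e2, mul_assoc]
  exact S.good_of_rep M hpM hrig hWrep hW hr₁ hth hfix

end Fermat.Agent.S33
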