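import Mathlib

/-!
# S33 / Good / Pkg : the abstract calculus package behind `GOOD(M,p)` (blueprint v2, part 2)

Everything in `S33/Good/*` is PURE ALGEBRA: no modular objects.  The intended instance
(`S33/Calc`, `S33/GoodGlue`) is

* `𝒦 = ℚ̄((q))`, `κ = k_A((q))`, `K₀ ⊆ ℚ̄` a number field, Galois over `ℚ`, containing `ζ_p`,
  `A₀ = A ∩ K₀` (a DVR with uniformiser `π`), `k₀` its residue field;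
* `Red x r` : `x = y₁ / y₂` with `y₁ y₂ ∈ A₀((q))`, `ȳ₂ ≠ 0`, `ȳ₁ = r ȳ₂` (Gauss valuation);
* `C = K₀` (constants), `κ0 = k₀` (constants), `F = F_M ∩ K₀((q))`;
* `p = up * π ^ ((p-1) d)`, i.e. `d = v(ζ_p - 1)`, `j* = p d`;
* `V = (q ↦ q^p)`, `Nm = normSer p`, `th = q d/dq`, `Fr` = Frobenius on coefficients,
  `s` = coefficientwise action of `σ₀ ∈ I_A`, `θ = red (s π / π)`, `a = ω(σ₀)`;
* `𝒬 = Kum M p`, `Rep W z` : `W ∈ F` represents the class `z`, `T = T_p`, `σ = σ₀`.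
-/

set_option autoImplicit false

namespace Fermat.Agent.S33.Good

/-- The reduction relation of a discrete "Gauss valuation". -/
structure RedPkg (𝒦 κ : Type*) [Field 𝒦] [Field κ] where
  /-- `x` is integral, with reduction `r` -/
  Red : 𝒦 → κ → Prop
  red_one : Red 1 1
  red_add : ∀ {x y : 𝒦} {r s : κ}, Red x r → Red y s → Red (x + y) (r + s)
  red_neg : ∀ {x : 𝒦} {r : κ}, Red x r → Red (-x) (-r)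
  red_mul : ∀ {x y : 𝒦} {r s : κ}, Red x r → Red y s → Red (x * y) (r * s)
  red_inv : ∀ {x : 𝒦} {r : κ}, Red x r → r ≠ 0 → Red x⁻¹ r⁻¹
  red_unique : ∀ {x : 𝒦} {r s : κ}, Red x r → Red x s → r = s
  /-- the uniformiser -/
  π : 𝒦
  pi_ne : π ≠ 0
  red_pi : Red π 0
  red_zero : ∀ {x : 𝒦}, Red x 0 → ∃ (y : 𝒦) (s : κ), Red y s ∧ x = π * y

/-- Constants, function field, and the operators `V`, `Nm`, `θ = q d/dq`, `s`. -/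
structure OpPkg (𝒦 κ : Type*) [Field 𝒦] [Field κ] (p : ℕ) extends RedPkg 𝒦 κ where
  /-- constants `K₀` -/
  C : Subfield 𝒦
  /-- residue constants `k₀` -/
  κ0 : Subfield κ
  /-- the function field over `K₀` -/
  F : Subfield 𝒦
  C_le_F : C ≤ F
  pi_mem : π ∈ C
  red_C : ∀ {c : 𝒦} {r : κ}, c ∈ C → Red c r → r ∈ κ0
  lift_κ0 : ∀ {r : κ}, r ∈ κ0 → ∃ c ∈ C, Red c r
  perfect : ∀ {r : κ}, r ∈ κ0 → ∃ s ∈ κ0, s ^ p = r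
  pivot : ∀ {f : 𝒦}, f ∈ F → f ≠ 0 → ∃ (n : ℤ) (u : 𝒦) (r : κ), r ≠ 0 ∧ Red u r ∧ f = π ^ n * u
  /-- `d = v(ζ_p - 1)` -/
  d : ℕ
  d_pos : 0 < d
  /-- `p = up * π ^ ((p-1) d)` -/
  up : 𝒦
  upb : κ
  up_mem : up ∈ C
  red_up : Red up upb
  upb_ne : upb ≠ 0
  p_eq : (p : 𝒦) = up * π ^ ((p - 1) * d)
  /-- `q ↦ q^p` -/
  V : 𝒦 →+* 𝒦
  Vb : κ →+* κ
  red_V : ∀ {x : 𝒦} {r : κ}, Red x r → Red (V x) (Vb r)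
  V_pi : V π = π
  /-- Frobenius on the coefficients of `κ = k((q))` -/
  Fr : κ →+* κ
  Fr_surj : Function.Surjective Fr
  Vb_Fr : ∀ r : κ, Vb (Fr r) = r ^ p
  /-- `f ↦ ∏_{z^p = 1} f(z q^{1/p})` -/
  Nm : 𝒦 → 𝒦
  Nm_expand : ∀ {j : ℕ} {x : 𝒦} {r : κ}, 1 ≤ j → Red x r → ∃ (x' B : 𝒦) (b : κ),
    Red x' (Fr r) ∧ Red B b ∧ Nm (1 + π ^ j * x) = 1 + π ^ (p * j) * x' + (p : 𝒦) * π ^ j * B
  /-- `q d/dq` -/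
  th : Derivation ℤ 𝒦 𝒦
  thb : Derivation ℤ κ κ
  red_th : ∀ {x : 𝒦} {r : κ}, Red x r → Red (th x) (thb r)
  th_C : ∀ {c : 𝒦}, c ∈ C → th c = 0
  th_V : ∀ x : 𝒦, th (V x) = (p : 𝒦) * V (th x)
  thb_Fr : ∀ r : κ, thb (Fr r) = Fr (thb r)
  thb_κ0 : ∀ {r : κ}, r ∈ κ0 → thb r = 0
  KV : ∀ (n : ℕ) (r : κ), 1 ≤ n → (Vb^[n] r - r ∈ κ0) → r ∈ κ0
  KV0 : ∀ r : κ, Vb r ∈ κ0 → r ∈ κ0
  /-- (SEP) -/
  sep : ∀ {f : 𝒦} {r : κ}, f ∈ F → Red f r → thb r = 0 → ∃ h ∈ F, ∃ t : κ, Red h t ∧ t ^ p = r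
  /-- the inertia element -/
  s : 𝒦 →+* 𝒦
  red_s : ∀ {x : 𝒦} {r : κ}, Red x r → Red (s x) r
  /-- `s π = π * tπ` -/
  tπ : 𝒦
  θ : κ
  s_pi : s π = π * tπ
  red_tπ : Red tπ θ
  θ_mem : θ ∈ κ0
  /-- `ω(s)` -/
  a : ℕ
  θ_pow : θ ^ (p * d) = (a : κ)
  a_ne : (a : κ) ≠ 1

/-- The Kummer classes. -/
structure Pkg (𝒦 κ 𝒬 : Type*) [Field 𝒦] [Field κ] [AddCommGroup 𝒬] (p : ℕ)
    extends OpPkg 𝒦 κ p where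
  /-- `W ∈ F^×` represents the class `z` -/
  Rep : 𝒦 → 𝒬 → Prop
  rep_unique : ∀ {W : 𝒦} {z z' : 𝒬}, Rep W z → Rep W z' → z = z'
  rep_mul : ∀ {W W' : 𝒦} {z z' : 𝒬}, Rep W z → Rep W' z' → Rep (W * W') (z + z')
  rep_inv : ∀ {W : 𝒦} {z : 𝒬}, Rep W z → Rep W⁻¹ (-z)
  rep_mem : ∀ {W : 𝒦} {z : 𝒬}, Rep W z → W ∈ F
  rep_ne : ∀ {W : 𝒦} {z : 𝒬}, Rep W z → W ≠ 0
  /-- (DESC) -/
  rep_zero : ∀ {W : 𝒦}, Rep W 0 → ∃ a ∈ C, ∃ g ∈ F, W = a * g ^ p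
  rep_pow : ∀ {a g : 𝒦}, a ∈ C → a ≠ 0 → g ∈ F → g ≠ 0 → Rep (a * g ^ p) 0
  /-- `T_p` -/
  T : 𝒬 →+ 𝒬
  rep_T : ∀ {W : 𝒦} {z : 𝒬}, Rep W z → Rep (V W * Nm W) (T z)
  σ : 𝒬 →+ 𝒬
  rep_s : ∀ {W : 𝒦} {z : 𝒬}, Rep W z → Rep (s W) (σ z)
  T_σ : ∀ z : 𝒬, T (σ z) = σ (T z)
  /-- (RIG) -/
  J : ℕ
  rig : ∀ {W ξ : 𝒦} {r : κ} {z : 𝒬}, Rep W z → Red ξ r → W = 1 + π ^ J * ξ → z = 0

end Fermat.Agent.S33.Good
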