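import Fermat.Agent.S33.Good.G3Dlog

/-!
# S33 / Good / G3 : the kernel of `T` has no `σ`-invariants (the supersingular computation)

**(G3)**  `z ≠ 0`, `Fil 1 z`, `T z = 0`, `σ z = z` is impossible.

PROOF.  `e := (p-1) d`.
0. (`exists_max`) there is `j` with `1 ≤ j`, `Fil j z`, `¬ Fil (j+1) z` (otherwise `Fil (p d + 1) z`
   by induction, `G0`); `j ≤ p d` by `G0` + `Fil.mono`; `j ≠ p d` by `G1`.  `Rep W z`, `Lead j W r`.
1. `r ∉ κ0` (`improve_const`).  `Rep (V W * Nm W) 0`, so `V W * Nm W = a g^p` (`rep_zero`), and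
   `Lead j (a g^p) (Vb r)` (`lead_T`).  `lemmaP`: `Vb r ∈ κ0` is impossible (`KV0`).  So `j = p l`,
   `G := c g`, `Lead l G yb`, `yb ∉ κ0`, `Vb r - yb^p ∈ κ0`.  `1 ≤ l < d`.
   `thb r ≠ 0` (`improve_sep`).
2. (`G3_theta`) `Rep (s W) z`; `rep_eq`: `s W = W * (a' g'^p)`; `Lead j (a' g'^p) (θ^j r - r)`
   (`lead_s`, `Lead.div`); `lemmaP_thb`: `thb (θ^j r - r) = 0`, i.e. `(θ^j - 1) thb r = 0`
   (`thb θ = 0` by `thb_κ0`, Leibniz).  So `θ^j = 1`.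
3. (`thb_yb_ne`) `r = Fr f` (`Fr_surj`), `Vb r = f^p`; `f^p - yb^p = b^p` with `b ∈ κ0` (`perfect`),
   so `f - yb = b` (`sub_pow_char`/`frobenius_inj`), `thb yb = thb f`, and
   `Fr (thb f) = thb r ≠ 0`.
4. (`G3_dlog`) write `G = 1 + π^l y`, `W = 1 + π^j ξ`, `Nm W = 1 + π^(p j) x' + p π^j B`,
   `a'' := a / c^p ∈ C`, `a'' G^p = V W * Nm W`, `Red a'' 1`.  Apply `th`:
   `a'' p G^(p-1) π^l th y = p π^j V (th ξ) * Nm W + V W * (π^(p j) th x' + p π^j th B)`,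
   i.e. `π^(e+l) α = π^(e+j) β + π^(p j) γ` with `red α = upb * thb yb ≠ 0`,
   `red γ = thb (Fr r) = Fr (thb r) ≠ 0`, `β` integral, `l < j`.  `val_compare`: `e + l = p j`.
5. `(p-1) d + l = p^2 l` ⟹ `d = (p+1) l` ⟹ `p d = (p+1) j`; `θ^(p d) = (θ^j)^(p+1) = 1 ≠ a`.
-/

set_option autoImplicit false

namespace Fermat.Agent.S33.Good

variable {𝒦 κ 𝒬 : Type*} [Field 𝒦] [Field κ] [AddCommGroup 𝒬]

namespace Pkg

variable {p : ℕ} [Fact p.Prime] [CharP κ p] {P : Pkg 𝒦 κ 𝒬 p}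

theorem exists_max {z : 𝒬} (hz : z ≠ 0) (h1 : P.Fil 1 z) (hσ : P.σ z = z) :
    ∃ j, 1 ≤ j ∧ j < p * P.d ∧ P.Fil j z ∧ ¬ P.Fil (j + 1) z := by
  by_contra hcon
  push Not at hcon
  have hpd : 1 ≤ p * P.d := Nat.mul_pos (Fact.out : p.Prime).pos P.d_pos
  have key : ∀ j, 1 ≤ j → j ≤ p * P.d → P.Fil j z := by
    intro j hj
    induction j, hj using Nat.le_induction with
    | base => exact fun _ => h1
    | succ j hj ih =>
      intro hjd
      exact hcon j hj (by omega) (ih (by omega))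
  exact hz (G1 (key _ hpd le_rfl) hσ)

theorem G3_theta {z : 𝒬} {W : 𝒦} {r : κ} {j : ℕ} (hj : 1 ≤ j) (hjd : j < p * P.d)
    (hW : P.Rep W z) (hL : P.Lead j W r) (hr : P.thb r ≠ 0) (hσ : P.σ z = z) : P.θ ^ j = 1 := by
  have hsW : P.Rep (P.s W) z := rep_congr (P.rep_s hW) rfl hσ
  obtain ⟨a, ha, g, hg, e⟩ := rep_eq hW hsW
  have hW0 : W ≠ 0 := P.rep_ne hW
  have hL' : P.Lead j (a * g ^ p) (P.θ ^ j * r - r) := by
    refine ((P.lead_s hL).div hj hL).congr ?_ rfl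
    rw [e, mul_div_cancel_left₀ _ hW0]
  have h1 := P.lemmaP_thb hj hjd ha hg hL'
  have hθ : P.thb (P.θ ^ j) = 0 := P.thb_κ0 (pow_mem P.θ_mem j)
  rw [map_sub, Derivation.leibniz, hθ, smul_zero, add_zero, smul_eq_mul] at h1
  have h2 : (P.θ ^ j - 1) * P.thb r = 0 := by linear_combination h1
  rcases mul_eq_zero.1 h2 with h3 | h3
  · exact sub_eq_zero.1 h3
  · exact absurd h3 hr

theorem thb_yb_ne {r yb : κ} (hr : P.thb r ≠ 0) (h : P.Vb r - yb ^ p ∈ P.κ0) : P.thb yb ≠ 0 := by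
  obtain ⟨f, rfl⟩ := P.Fr_surj r
  rw [P.Vb_Fr] at h
  obtain ⟨b, hb, e⟩ := P.perfect h
  have h1 : b = f - yb := by
    apply frobenius_inj κ p
    simp only [frobenius_def]
    rw [e, sub_pow_char]
  have h2 : P.thb (f - yb) = 0 := h1 ▸ P.thb_κ0 hb
  rw [map_sub, sub_eq_zero] at h2
  rw [← h2]
  intro h3
  apply hr
  rw [P.thb_Fr, h3, map_zero]

/-- (G3) -/
theorem G3 {z : 𝒬} (hz : z ≠ 0) (h1 : P.Fil 1 z) (hT : P.T z = 0) (hσ : P.σ z = z) : False := by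
  have hp : p.Prime := Fact.out
  obtain ⟨j, hj1, hjd, ⟨W, r, hW, hL⟩, hmax⟩ := exists_max hz h1 hσ
  have hr0 : r ∉ P.κ0 := fun h => hmax (improve_const hj1 hW hL h)
  have hTW : P.Rep (P.V W * P.Nm W) 0 := rep_congr (P.rep_T hW) rfl hT
  obtain ⟨a, ha, g, hg, e⟩ := P.rep_zero hTW
  have hLT : P.Lead j (a * g ^ p) (P.Vb r) := (P.lead_T hj1 hL).congr e rfl
  rcases P.lemmaP hj1 hjd ha hg hLT with h | ⟨c, hc, hc0, l, yb, rfl, hG, hyb, hdiff⟩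
  · exact hr0 (P.KV0 r h)
  have hl1 : 1 ≤ l := by
    rcases Nat.eq_zero_or_pos l with rfl | h
    · simp at hj1
    · exact h
  have hld : l < P.d := lt_of_mul_lt_mul_left hjd (Nat.zero_le p)
  have hthr : P.thb r ≠ 0 := fun h => hmax (improve_sep hl1 hld hW hL h)
  have hθ := G3_theta hj1 hjd hW hL hthr hσ
  have hyb' := thb_yb_ne hthr hdiff
  have hdlog : (p - 1) * P.d + l = p * (p * l) :=
    OpPkg.G3_dlog hl1 hL hthr hG hyb' (a := a / c ^ p) (div_mem ha (pow_mem hc p)) (by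
      have hcp : c ^ p ≠ 0 := pow_ne_zero p hc0
      rw [e, mul_pow]
      field_simp)
  have hd : P.d = (p + 1) * l := by
    have hp1 : 0 < p - 1 := by have := hp.two_le; omega
    apply Nat.eq_of_mul_eq_mul_left hp1
    zify [hp.one_le] at hdlog ⊢
    linear_combination hdlog
  apply P.a_ne
  rw [← P.θ_pow, hd, show p * ((p + 1) * l) = (p * l) * (p + 1) by ring, pow_mul, hθ, one_pow]

end Pkg

end Fermat.Agent.S33.Good
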