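import Fermat.Agent.S33.Good.G2
import Fermat.Agent.S33.Good.G3

/-!
# S33 / Good / Abs : the abstract form of `GOOD(M,p)`

**(G4)**  `Z' := {z : Fil 1 z, σ z = z}` is a subgroup of the finite group `𝒬`, stable under `T`
(`Fil.T`, `T_σ`).  The chain `T^n Z'` is decreasing, so `T^(n+1) Z' = T^n Z' =: Y` for some `n`.
`T Y = Y`, `Y ⊆ Z' ⊆ Fil 1`: `Y ⊆ Fil (p d)` by (G2), so `Y = 0` by (G1).  So `T^n = 0` on `Z'`.
If `z ∈ Z'`, `z ≠ 0`: let `k` be minimal with `T^[k] z = 0` (`Nat.find`), `k ≥ 1`;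
`z' := T^[k-1] z ∈ Z'`, `z' ≠ 0`, `T z' = 0`: contradiction with (G3).

`good` : `sep` gives `h ∈ F` with `(red h)^p = red W`; `W' := W * (1 * (h⁻¹)^p)` reduces to `1`;
`Lead.of_red_one`; so `Fil 1 z`.
-/

set_option autoImplicit false
set_option linter.unusedSectionVars false

namespace Fermat.Agent.S33.Good

variable {𝒦 κ 𝒬 : Type*} [Field 𝒦] [Field κ] [AddCommGroup 𝒬]

namespace Pkg

variable {p : ℕ} [Fact p.Prime] [CharP κ p] [Finite 𝒬] (P : Pkg 𝒦 κ 𝒬 p)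

/-- `Z' = {z : Fil 1 z, σ z = z}`. -/
def Zinv : AddSubgroup 𝒬 where
  carrier := {z | P.Fil 1 z ∧ P.σ z = z}
  zero_mem' := ⟨Fil.zero 1, map_zero _⟩
  add_mem' := fun ha hb => ⟨Fil.add le_rfl ha.1 hb.1, by rw [map_add, ha.2, hb.2]⟩
  neg_mem' := fun ha => ⟨Fil.neg le_rfl ha.1, by rw [map_neg, ha.2]⟩

theorem T_mem_Zinv {z : 𝒬} (hz : z ∈ P.Zinv) : P.T z ∈ P.Zinv :=
  ⟨Fil.T le_rfl hz.1, by rw [← P.T_σ, hz.2]⟩

theorem iterate_T_mem_Zinv {z : 𝒬} (hz : z ∈ P.Zinv) (n : ℕ) : P.T^[n] z ∈ P.Zinv := by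
  induction n with
  | zero => exact hz
  | succ n ih => rw [Function.iterate_succ_apply']; exact P.T_mem_Zinv ih

/-- the chain `T^n Z'`. -/
def Zchain : ℕ → AddSubgroup 𝒬
  | 0 => P.Zinv
  | n + 1 => (Zchain n).map P.T

theorem Zchain_succ_le (n : ℕ) : P.Zchain (n + 1) ≤ P.Zchain n := by
  induction n with
  | zero =>
    rintro _ ⟨z, hz, rfl⟩
    exact P.T_mem_Zinv hz
  | succ n ih => exact AddSubgroup.map_mono ih

theorem Zchain_le (n : ℕ) : P.Zchain n ≤ P.Zinv := by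
  induction n with
  | zero => exact le_rfl
  | succ n ih => exact (P.Zchain_succ_le n).trans ih

theorem iterate_T_mem_Zchain {z : 𝒬} (hz : z ∈ P.Zinv) (n : ℕ) : P.T^[n] z ∈ P.Zchain n := by
  induction n with
  | zero => exact hz
  | succ n ih => rw [Function.iterate_succ_apply']; exact ⟨_, ih, rfl⟩

theorem Abs_exists_stable (f : ℕ → ℕ) (hf : ∀ n, f (n + 1) ≤ f n) : ∃ n, f (n + 1) = f n := by
  by_contra h
  have h : ∀ n, f (n + 1) ≠ f n := fun n hn => h ⟨n, hn⟩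
  have h1 : ∀ n, f n + n ≤ f 0 := by
    intro n
    induction n with
    | zero => simp
    | succ n ih =>
      have := lt_of_le_of_ne (hf n) (h n)
      omega
  have := h1 (f 0 + 1)
  omega

theorem exists_Zchain_eq_bot : ∃ n, P.Zchain n = ⊥ := by
  obtain ⟨n, hn⟩ := Abs_exists_stable (fun n => Nat.card (P.Zchain n))
    (fun n => AddSubgroup.card_le_of_le (P.Zchain_succ_le n))
  have heq : P.Zchain (n + 1) = P.Zchain n :=
    AddSubgroup.eq_of_le_of_card_ge (P.Zchain_succ_le n) hn.ge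
  refine ⟨n, (AddSubgroup.eq_bot_iff_forall _).mpr fun y hy => ?_⟩
  have hdeep := G2 (P.Zchain n) (fun y hy => (P.Zchain_le n hy).1)
    (fun y hy => by rw [← heq]; exact ⟨y, hy, rfl⟩)
    (fun y hy => by
      rw [← heq] at hy
      obtain ⟨y', hy', rfl⟩ := hy
      exact ⟨y', hy', rfl⟩)
  exact G1 (hdeep y hy) (P.Zchain_le n hy).2

/-- (G4) -/
theorem G4 {z : 𝒬} (h1 : P.Fil 1 z) (hσ : P.σ z = z) : z = 0 := by
  by_contra hz
  have hzZ : z ∈ P.Zinv := ⟨h1, hσ⟩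
  obtain ⟨n, hn⟩ := P.exists_Zchain_eq_bot
  have hex : ∃ k, P.T^[k] z = 0 := ⟨n, by
    have := P.iterate_T_mem_Zchain hzZ n
    rw [hn] at this
    exact (AddSubgroup.mem_bot).mp this⟩
  classical
  have hk := Nat.find_spec hex
  have hk0 : Nat.find hex ≠ 0 := by
    intro h0
    rw [h0] at hk
    exact hz hk
  obtain ⟨k, hk'⟩ := Nat.exists_eq_succ_of_ne_zero hk0
  have hmin : P.T^[k] z ≠ 0 := Nat.find_min hex (by omega)
  have hmem := P.iterate_T_mem_Zinv hzZ k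
  refine G3 hmin hmem.1 ?_ hmem.2
  have h2 : P.T (P.T^[k] z) = P.T^[k + 1] z := (Function.iterate_succ_apply' _ _ _).symm
  rw [h2, ← Nat.succ_eq_add_one, ← hk']
  exact hk

/-- **GOOD, abstract form.** -/
theorem good {W : 𝒦} {r : κ} {z : 𝒬} (hW : P.Rep W z) (hred : P.Red W r) (hr : r ≠ 0)
    (hth : P.thb r = 0) (hσ : P.σ z = z) : z = 0 := by
  obtain ⟨h, hh, t, ht, htp⟩ := P.sep (P.rep_mem hW) hred hth
  have ht0 : t ≠ 0 := by
    rintro rfl
    rw [zero_pow (Fact.out : p.Prime).ne_zero] at htp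
    exact hr htp.symm
  have hh0 : h ≠ 0 := P.ne_zero_of_red ht ht0
  have hW' : P.Rep (W * (1 * h⁻¹ ^ p)) z :=
    rep_mul_pow hW P.C.one_mem one_ne_zero (P.F.inv_mem hh) (inv_ne_zero hh0)
  have hred' : P.Red (W * (1 * h⁻¹ ^ p)) 1 := by
    have h1 := P.red_mul hred (P.red_mul P.red_one (P.red_pow (P.red_inv ht ht0) p))
    refine P.red_congr h1 rfl ?_
    rw [one_mul, inv_pow, htp, mul_inv_cancel₀ hr]
  obtain ⟨u, hu⟩ := RedPkg.Lead.of_red_one hred'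
  exact P.G4 ⟨_, u, hW', hu⟩ hσ

end Pkg

end Fermat.Agent.S33.Good
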