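import Fermat.Agent.Crux.Descent

/-!
# S33 / Good / Desc : (DESC) a function of `F_{ℚ̄}` with coefficients in `K` lies in `F_K`

**Theorem.**  `K` a field with `K → ℚ̄`, `f₀ ∈ K((q))`.  If the base change of `f₀` lies in
`modularFunctionFieldBar N` then `f₀ ∈ modularFunctionFieldFullC K N`.

PROOF (a `K`-linear functional trick; no Galois theory, no bases).
Let `i = algebraMap K ℚ̄`, `bc = coeffMap i`, `f = bc f₀`.
1. `S24.exists_phiF_div N ⟨f, h⟩` : `f * Q(j) = P(j)` with `P Q : MvPolynomial (S24.Dv N) ℚ̄`, `Q(j) ≠ 0`, where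
   `P(j) = MvPolynomial.aeval (fun d => S24.jSer d.1) P` (`S24.Gen.coe_phiF`), and
   `S24.jSer d = bc (qExpand K d (jqModC K))` (`Crux.coeffMap_jd`).
2. For a `K`-linear map `φ : ℚ̄ →ₗ[K] K` let `φ̃ x := x.map φ` (`HahnSeries.map`, coefficientwise).
   (`lin_mul`)  `φ̃ (x * bc y) = φ̃ x * y` for `y ∈ K((q))` : compare coefficients with
   `HahnSeries.coeff_mul_left'` / `coeff_mul_right'` over the supports of `x` and `y`
   (`(bc y).support = y.support`, `(φ̃ x).support ⊆ x.support`), `φ (a * i b) = φ a * b`.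
   `φ̃` is additive.
3. (`lin_aeval`)  `φ̃ (P(j)) = (φ P)(j₀)` where `φ P` is `P` with `φ` applied to the coefficients and
   `j₀ d = qExpand K d (jqModC K)`; in particular `φ̃ (P(j)) ∈ modularFunctionFieldFullC K N`
   (`Crux.aeval_mem_fullC`).  Proof: `P(j) = ∑_m C(P_m) * bc (j₀^m)` (`MvPolynomial.aeval_def`, `eval₂_eq'`
   or induction `MvPolynomial.induction_on'`), `lin_mul` with `x = C (P_m)`; it is enough to prove
   membership: `φ̃ (C c * bc y) = C (φ c) * y`.
4. `Q(j) ≠ 0` has a nonzero coefficient `c` at some `n`; choose `φ` with `φ c ≠ 0`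
   (`Module.forall_dual_apply_eq_zero_iff K c` / `exists_dual_map_eq_one`-type lemma for vector spaces:
   `Module.Dual`, `Module.Projective`; or: extend `{c}` to a basis `Basis.mk`/`Basis.extend` and take the coordinate).
   Then `φ̃ (Q(j)) ≠ 0`, and applying `φ̃` to `Q(j) * bc f₀ = P(j)`: `φ̃(Q(j)) * f₀ = φ̃(P(j))`.
   So `f₀ = φ̃(P(j)) / φ̃(Q(j)) ∈ modularFunctionFieldFullC K N`.
-/

set_option autoImplicit false

open AlgebraicCurve ModularCurve

namespace Fermat.Agent.S33

open Fermat.Agent.ES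

section DescAux

variable {K : Type*} [Field K] [Algebra K Qb]

/-- Coefficientwise application of a `K`-linear functional. -/
noncomputable def descMap (φ : Qb →ₗ[K] K) (x : LaurentSeries Qb) : LaurentSeries K := x.map φ

theorem descMap_coeff (φ : Qb →ₗ[K] K) (x : LaurentSeries Qb) (n : ℤ) :
    (descMap φ x).coeff n = φ (x.coeff n) := rfl

theorem descMap_add (φ : Qb →ₗ[K] K) (x y : LaurentSeries Qb) :
    descMap φ (x + y) = descMap φ x + descMap φ y := by
  ext n
  simp [descMap_coeff]

theorem descMap_support (φ : Qb →ₗ[K] K) (x : LaurentSeries Qb) :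
    (descMap φ x).support ⊆ x.support := by
  intro n hn
  rw [HahnSeries.mem_support] at hn ⊢
  intro h0
  exact hn (by rw [descMap_coeff, h0, map_zero])

theorem desc_coeffMap_support (y : LaurentSeries K) :
    (coeffMap (algebraMap K Qb) y).support ⊆ y.support := by
  intro n hn
  rw [HahnSeries.mem_support] at hn ⊢
  intro h0
  exact hn (by rw [coeffMap_coeff, h0, map_zero])

/-- `φ̃` is `K((q))`-linear. -/
theorem descMap_mul (φ : Qb →ₗ[K] K) (x : LaurentSeries Qb) (y : LaurentSeries K) :
    descMap φ (x * coeffMap (algebraMap K Qb) y) = descMap φ x * y := by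
  ext n
  rw [descMap_coeff, HahnSeries.coeff_mul_right' y.isPWO_support (desc_coeffMap_support y),
    HahnSeries.coeff_mul_left' x.isPWO_support (descMap_support φ x), map_sum]
  refine Finset.sum_congr rfl fun ij _ => ?_
  rw [coeffMap_coeff, descMap_coeff, mul_comm (x.coeff ij.1), ← Algebra.smul_def, map_smul,
    smul_eq_mul, mul_comm]

theorem descMap_algebraMap (φ : Qb →ₗ[K] K) (c : Qb) :
    descMap φ (algebraMap Qb (LaurentSeries Qb) c) = algebraMap K (LaurentSeries K) (φ c) := by
  rw [algebraMap_laurentSeries_eq_single, algebraMap_laurentSeries_eq_single]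
  ext m
  rw [descMap_coeff]
  rcases eq_or_ne m 0 with rfl | hm
  · simp [HahnSeries.coeff_single_same]
  · simp [HahnSeries.coeff_single_of_ne hm]

theorem descMap_aeval_mem (φ : Qb →ₗ[K] K) (N : ℕ) [NeZero N] (P : MvPolynomial (S24.Dv N) Qb) :
    descMap φ (MvPolynomial.aeval (fun d : S24.Dv N => S24.jSer d.1) P)
      ∈ modularFunctionFieldFullC K N := by
  induction P using MvPolynomial.induction_on' with
  | monomial u a =>
    have h1 : (MvPolynomial.monomial u a : MvPolynomial (S24.Dv N) Qb)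
        = MvPolynomial.C a * MvPolynomial.map (algebraMap K Qb) (MvPolynomial.monomial u 1) := by
      rw [MvPolynomial.map_monomial, map_one, MvPolynomial.C_mul_monomial, mul_one]
    rw [h1, map_mul, MvPolynomial.aeval_C, ← Crux.coeffMap_aeval_map, descMap_mul,
      descMap_algebraMap]
    exact mul_mem (IntermediateField.algebraMap_mem _ _) (Crux.aeval_mem_fullC K N _)
  | add p q hp hq =>
    rw [map_add, descMap_add]
    exact add_mem hp hq

end DescAux

/-- **(DESC)** -/
theorem desc (K : Type*) [Field K] [Algebra K Qb] (N : ℕ) [NeZero N] (f₀ : LaurentSeries K)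
    (h : coeffMap (algebraMap K Qb) f₀ ∈ modularFunctionFieldBar N) :
    f₀ ∈ modularFunctionFieldFullC K N := by
  obtain ⟨P, Q, hQ, hf⟩ := S24.exists_phiF_div N ⟨_, h⟩
  have hQ' : MvPolynomial.aeval (fun d : S24.Dv N => S24.jSer d.1) Q ≠ 0 := by
    rw [← S24.Gen.coe_phiF]
    intro h0
    exact hQ (Subtype.ext h0)
  have hf' : coeffMap (algebraMap K Qb) f₀
      = MvPolynomial.aeval (fun d : S24.Dv N => S24.jSer d.1) P /
        MvPolynomial.aeval (fun d : S24.Dv N => S24.jSer d.1) Q := by
    rw [← S24.Gen.coe_phiF, ← S24.Gen.coe_phiF]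
    exact congrArg Subtype.val hf
  have hmul : MvPolynomial.aeval (fun d : S24.Dv N => S24.jSer d.1) Q
      * coeffMap (algebraMap K Qb) f₀
      = MvPolynomial.aeval (fun d : S24.Dv N => S24.jSer d.1) P := by
    rw [hf', mul_div_cancel₀ _ hQ']
  obtain ⟨n, hn⟩ : ∃ n, (MvPolynomial.aeval (fun d : S24.Dv N => S24.jSer d.1) Q).coeff n ≠ 0 := by
    by_contra hcon
    push Not at hcon
    exact hQ' (HahnSeries.ext (funext hcon))
  obtain ⟨φ, hφ⟩ : ∃ φ : Qb →ₗ[K] K,
      φ ((MvPolynomial.aeval (fun d : S24.Dv N => S24.jSer d.1) Q).coeff n) ≠ 0 := by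
    by_contra hcon
    push Not at hcon
    exact hn ((Module.forall_dual_apply_eq_zero_iff K _).1 hcon)
  have hQφ : descMap φ (MvPolynomial.aeval (fun d : S24.Dv N => S24.jSer d.1) Q) ≠ 0 := by
    intro h0
    apply hφ
    rw [← descMap_coeff, h0]
    rfl
  have key := congrArg (descMap φ) hmul
  rw [descMap_mul] at key
  have : f₀ = descMap φ (MvPolynomial.aeval (fun d : S24.Dv N => S24.jSer d.1) P) /
      descMap φ (MvPolynomial.aeval (fun d : S24.Dv N => S24.jSer d.1) Q) := by
    rw [← key, mul_div_cancel_left₀ _ hQφ]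
  rw [this]
  exact div_mem (descMap_aeval_mem φ N P) (descMap_aeval_mem φ N Q)

end Fermat.Agent.S33
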