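import Fermat.Agent.S33.Calc.Red
import Fermat.Prelude.Def_ModularCurve_X0ModL

/-!
# S33 / Good / FieldAux : `F_K ≤ fracField` and the pivot in `F_K`  (`R` a DVR, `K = Frac R`)

Shared by `S33/Good/Field.lean` (`Setup.pivot`) and `S33/Good/ResF.lean` (step 2).
-/

set_option autoImplicit false

open AlgebraicCurve ModularCurve

namespace Fermat.Agent.S33

open Fermat.Agent.ES Fermat.Agent.S33.Calc

noncomputable section

variable {R K : Type*} [CommRing R] [IsDomain R] [IsDiscreteValuationRing R] [Field K]
  [Algebra R K] [IsFractionRing R K] {M : ℕ}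

/-- every element of `F_K` is a quotient of series over `R`. -/
theorem fullC_le_fracField {x : LaurentSeries K} (hx : x ∈ modularFunctionFieldFullC K M) :
    x ∈ fracField (algebraMap R K) (IsFractionRing.injective R K) := by
  have hx' : x ∈ Subfield.closure
      (Set.range (algebraMap K (LaurentSeries K)) ∪ divisorExpansionsC K M) := hx
  have hle : Subfield.closure
      (Set.range (algebraMap K (LaurentSeries K)) ∪ divisorExpansionsC K M) ≤
      fracField (algebraMap R K) (IsFractionRing.injective R K) := by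
    rw [Subfield.closure_le]
    rintro y (⟨c, rfl⟩ | ⟨d, hd0, hd, rfl⟩)
    · obtain ⟨a, b, hb, rfl⟩ := IsFractionRing.div_surjective (A := R) c
      have hb0 : b ≠ 0 := nonZeroDivisors.ne_zero hb
      have hb1 : algebraMap R K b ≠ 0 := by
        rw [Ne, map_eq_zero_iff _ (IsFractionRing.injective R K)]
        exact hb0
      refine ⟨HahnSeries.C a, HahnSeries.C b, ?_, ?_⟩
      · rw [Ne, map_eq_zero_iff _ HahnSeries.C_injective]
        exact hb0
      · rw [Red_coeffMap_C, Red_coeffMap_C, algebraMap_laurentSeries_eq_single, ← HahnSeries.C_apply,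
          ← map_mul, div_mul_cancel₀ _ hb1]
    · refine ⟨qExpand R d (jqModC R), 1, one_ne_zero, ?_⟩
      rw [map_one, mul_one, coeffMap_qExpand, coeffMap_jqModC]
  exact hle hx'

/-- every nonzero element of `F_K` is a power of `ϖ` times a Gauss unit. -/
theorem pivot_fullC {ϖ : R} (hϖ : Irreducible ϖ) {x : LaurentSeries K}
    (hx : x ∈ modularFunctionFieldFullC K M) (hx0 : x ≠ 0) :
    ∃ (n : ℤ) (u : LaurentSeries K) (s : LaurentSeries (kR R)), s ≠ 0 ∧
      Red0 (algebraMap R K) u s ∧ x = HahnSeries.C (algebraMap R K ϖ) ^ n * u := by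
  obtain ⟨y₁, y₂, h2, h⟩ := fullC_le_fracField (R := R) hx
  have h2' : coeffMap (algebraMap R K) y₂ ≠ 0 := fun h0 =>
    h2 (Red_coeffMap_injective _ (IsFractionRing.injective R K) (by rw [h0, map_zero]))
  have h1 : y₁ ≠ 0 := by
    rintro rfl
    rw [map_zero] at h
    exact mul_ne_zero hx0 h2' h
  exact Red0.pivot (IsFractionRing.injective R K) hϖ y₁ y₂ h1 h2 h

end

end Fermat.Agent.S33
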