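import Fermat.Agent.S33.Good.Setup
import Fermat.Agent.S33.Good.Desc
import Fermat.Agent.Crux.GM.Root
import Fermat.Agent.S33.Good.FieldAux

/-!
# S33 / Good / Field : the field `F = F_{K₀} ⊆ ℚ̄((q))`, constants, pivot, roots

`S : Setup p`.  `S.bc : K₀((q)) → ℚ̄((q))` the base change, `S.F M = bc (modularFunctionFieldFullC K₀ M)`,
`S.C = ` constants of `K₀`.

PROOF SKETCHES.
* `C_le_F` : `C c = bc (algebraMap K₀ _ c₀)` (`Crux.coeffMap_algebraMap'`, `algebraMap_laurentSeries_eq_single`,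
  `HahnSeries.C_apply`), `IntermediateField.algebraMap_mem`.
* `F_le_bar` : `Crux.coeffMap_mem_bar`.
* `mem_F_iff` : `→` `F_le_bar` and `coeffMap_coeff`; `←` build `x₀ ∈ K₀((q))` with `bc x₀ = x` (coefficients
  `⟨x.coeff n, hc n⟩`, same support) and apply `S33.desc`.
* `red0_bc` : `S.ι = (algebraMap K₀ ℚ̄).comp (algebraMap R K₀)`, `coeffMap_coeffMap`, `bc` is an injective ring hom.
* `pivot` : `F_{K₀} ≤ fracField` by `Subfield.closure`/`IntermediateField.adjoin` induction (constants are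
  `a / b`, `a b ∈ R`: `IsFractionRing.div_surjective`; generators `qExpand K₀ d (jqModC K₀)
  = coeffMap (algebraMap R K₀) (qExpand R d (jqModC R))`: `coeffMap_qExpand`, `coeffMap_jqModC`); then `Red0.pivot`.
  (The same statement is step 2 of `S33/Good/ResF.lean`: share the proof with its owner.)
* `gal_mem_F` : `mem_F_iff`, `ES.mem_FF_gal`, `S.stable`.
* `heckeSer_mem_F` : `mem_F_iff`; `ES.heckeSer_mem`; coefficients: `x = bc x₀`,
  `heckeSer p (bc x₀) = bc (heckeSer p x₀)` by `ES.coeffMap_heckeSer` (bijectivity on roots of unity: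
  `Calc.bijective_restrictRootsOfUnity` with the primitive root `⟨ζ, ζ_mem⟩ ∈ K₀`).
* `exists_root` (DESC 2) : `W ∈ F`, `W = g^p`, `g ∈ F_{ℚ̄}`, `W ≠ 0`.  `W = bc W₀`; `a₀ := W₀.leadingCoeff`,
  `W₁ := C a₀⁻¹ * W₀` has leading coefficient `1` and order `p * g.order`; `Crux.GM.exists_pow_eq_laurent` gives
  `w ∈ K₀((q))`, `w^p = W₁`.  Choose `b ∈ ℚ̄`, `b^p = a₀`.  `(bc w * C b)^p = W = g^p`, so
  `bc w * C b = C z * g` with `z^p = 1` (in the field `ℚ̄((q))`: `(x/g)^p = 1`, and the `p`-th roots of `1` in a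
  field containing the `p` constants `C z` are these constants: `IsPrimitiveRoot.eq_pow_of_pow_eq_one` for `C ζ`).
  So `bc w ∈ F_{ℚ̄}`, `bc w ∈ F` (`mem_F_iff`), and `W = C a₀ * (bc w)^p`.
-/

set_option autoImplicit false
set_option linter.unusedSectionVars false

open AlgebraicCurve ModularCurve

namespace Fermat.Agent.S33

open Fermat.Agent.ES Fermat.Agent.SS Fermat.Agent.S33.Calc

noncomputable section

namespace Setup

variable {p : ℕ} [hp : Fact p.Prime] (S : Setup p) (M : ℕ) [NeZero M]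

/-- base change `K₀((q)) → ℚ̄((q))`. -/
abbrev bc : LaurentSeries S.K₀ →+* LaurentSeries Qb := coeffMap (algebraMap S.K₀ Qb)

/-- the function field over `K₀`, inside `ℚ̄((q))`. -/
def F : Subfield (LaurentSeries Qb) := (modularFunctionFieldFullC S.K₀ M).toSubfield.map S.bc

/-- the constants of `K₀`. -/
def C : Subfield (LaurentSeries Qb) :=
  S.K₀.toSubfield.map (HahnSeries.C : Qb →+* LaurentSeries Qb)

variable {M}

theorem mem_F {x : LaurentSeries Qb} :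
    x ∈ S.F M ↔ ∃ x₀ ∈ modularFunctionFieldFullC S.K₀ M, S.bc x₀ = x := Iff.rfl

theorem mem_C {x : LaurentSeries Qb} : x ∈ S.C ↔ ∃ c ∈ S.K₀, HahnSeries.C c = x := Iff.rfl

theorem C_le_F : S.C ≤ S.F M := by
  rintro x ⟨c, hc, rfl⟩
  refine ⟨algebraMap S.K₀ (LaurentSeries S.K₀) ⟨c, hc⟩, IntermediateField.algebraMap_mem _ _, ?_⟩
  show S.bc _ = HahnSeries.C c
  rw [Crux.coeffMap_algebraMap', algebraMap_laurentSeries_eq_single, HahnSeries.C_apply]
  rfl

theorem F_le_bar {x : LaurentSeries Qb} (hx : x ∈ S.F M) : x ∈ modularFunctionFieldBar M := by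
  obtain ⟨x₀, hx₀, rfl⟩ := hx
  exact Crux.coeffMap_mem_bar S.K₀ M hx₀

/-- (DESC 1) -/
theorem mem_F_iff {x : LaurentSeries Qb} :
    x ∈ S.F M ↔ x ∈ modularFunctionFieldBar M ∧ ∀ n, x.coeff n ∈ S.K₀ := by
  constructor
  · intro hx
    refine ⟨S.F_le_bar hx, fun n => ?_⟩
    obtain ⟨x₀, -, rfl⟩ := hx
    show (S.bc x₀).coeff n ∈ S.K₀
    rw [coeffMap_coeff]
    exact (x₀.coeff n).2
  · rintro ⟨hx, hc⟩
    let x₀ : LaurentSeries S.K₀ :=
      { coeff := fun n => ⟨x.coeff n, hc n⟩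
        isPWO_support' := x.isPWO_support.mono fun n hn => by
          simp only [Function.mem_support, ne_eq] at hn
          rw [HahnSeries.mem_support]
          intro h0
          exact hn (Subtype.ext h0) }
    have hx₀ : S.bc x₀ = x := by
      ext n
      rw [coeffMap_coeff]
      rfl
    exact ⟨x₀, desc S.K₀ M x₀ (by rw [hx₀]; exact hx), hx₀⟩

theorem red0_bc {x₀ : LaurentSeries S.K₀} {r : LaurentSeries (kR S.R)} :
    Red0 S.ι (S.bc x₀) r ↔ Red0 (algebraMap S.R S.K₀) x₀ r := by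
  have hι : ∀ y : LaurentSeries S.R, coeffMap S.ι y = S.bc (coeffMap (algebraMap S.R S.K₀) y) := by
    intro y
    rw [coeffMap_coeffMap]
    rfl
  have hinj : Function.Injective S.bc :=
    Red_coeffMap_injective _ (algebraMap S.K₀ Qb).injective
  constructor
  · rintro ⟨y₁, y₂, h0, h1, h2⟩
    refine ⟨y₁, y₂, h0, hinj ?_, h2⟩
    rw [map_mul, ← hι, ← hι, h1]
  · rintro ⟨y₁, y₂, h0, h1, h2⟩
    refine ⟨y₁, y₂, h0, ?_, h2⟩
    rw [hι, hι, ← map_mul, h1]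

theorem pivot {f : LaurentSeries Qb} (hf : f ∈ S.F M) (hf0 : f ≠ 0) :
    ∃ (n : ℤ) (u : LaurentSeries Qb) (r : LaurentSeries (kR S.R)), r ≠ 0 ∧ Red0 S.ι u r ∧
      f = HahnSeries.C (S.ι S.ϖ) ^ n * u := by
  obtain ⟨f₀, hf₀, rfl⟩ := hf
  have hf₀0 : f₀ ≠ 0 := by
    rintro rfl
    exact hf0 (map_zero _)
  obtain ⟨n, u, s, hs, hu, hfu⟩ := pivot_fullC (R := S.R) S.hϖ hf₀ hf₀0
  refine ⟨n, S.bc u, s, hs, S.red0_bc.mpr hu, ?_⟩
  show S.bc f₀ = _
  rw [hfu, map_mul, map_zpow₀, Red_coeffMap_C]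
  rfl

theorem gal_mem_F {x : LaurentSeries Qb} (hx : x ∈ S.F M) :
    coeffMap (((S.g : GQ) : Qb →+* Qb)) x ∈ S.F M := by
  rw [mem_F_iff] at hx ⊢
  refine ⟨mem_FF_gal (S.g : GQ) hx.1, fun n => ?_⟩
  rw [coeffMap_coeff]
  exact S.stable _ (hx.2 n)

theorem heckeSer_mem_F [NeZero p] (hpM : ¬ p ∣ M) {x : LaurentSeries Qb} (hx : x ∈ S.F M) :
    heckeSer p x ∈ S.F M := by
  have hbar := S.F_le_bar hx
  obtain ⟨x₀, -, rfl⟩ := hx
  have hprim : IsPrimitiveRoot (⟨S.ζ, S.ζ_mem⟩ : S.K₀) p :=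
    IsPrimitiveRoot.of_map_of_injective (f := algebraMap S.K₀ Qb) S.hζ
      (algebraMap S.K₀ Qb).injective
  have hbij := bijective_restrictRootsOfUnity p (algebraMap S.K₀ Qb)
    (algebraMap S.K₀ Qb).injective hprim
  have h1 : heckeSer p (S.bc x₀) = S.bc (heckeSer p x₀) :=
    (coeffMap_heckeSer (algebraMap S.K₀ Qb) p hbij x₀).symm
  rw [mem_F_iff]
  refine ⟨heckeSer_mem M p hp.out hpM ⟨_, hbar⟩, fun n => ?_⟩
  show (heckeSer p (S.bc x₀)).coeff n ∈ S.K₀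
  rw [h1, coeffMap_coeff]
  exact ((heckeSer p x₀).coeff n).2

/-- (DESC 2) -/
theorem exists_root {W g : LaurentSeries Qb} (hW : W ∈ S.F M) (hW0 : W ≠ 0)
    (hg : g ∈ modularFunctionFieldBar M) (h : g ^ p = W) :
    ∃ a ∈ S.C, ∃ g₀ ∈ S.F M, W = a * g₀ ^ p := by
  have hp0 : 0 < p := hp.out.pos
  have hinj : Function.Injective (algebraMap S.K₀ Qb) := (algebraMap S.K₀ Qb).injective
  obtain ⟨W₀, -, rfl⟩ := hW
  have hW₀ : W₀ ≠ 0 := by
    rintro rfl
    exact hW0 (map_zero _)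
  have hg0 : g ≠ 0 := by
    rintro rfl
    rw [zero_pow hp0.ne'] at h
    exact hW0 h.symm
  set a₀ : S.K₀ := W₀.leadingCoeff with ha₀
  have ha₀0 : a₀ ≠ 0 := HahnSeries.leadingCoeff_ne_zero.mpr hW₀
  have hCa : (HahnSeries.C a₀⁻¹ : LaurentSeries S.K₀) ≠ 0 := by
    rw [Ne, map_eq_zero_iff _ HahnSeries.C_injective]
    exact inv_ne_zero ha₀0
  set W₁ : LaurentSeries S.K₀ := HahnSeries.C a₀⁻¹ * W₀ with hW₁
  have hW₁0 : W₁ ≠ 0 := mul_ne_zero hCa hW₀
  have hord : (p : ℤ) ∣ W₁.order := by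
    rw [hW₁, HahnSeries.order_mul hCa hW₀, HahnSeries.order_C, zero_add,
      ← Crux.order_coeffMap (algebraMap S.K₀ Qb) hinj W₀]
    have h1 : (S.bc W₀).order = p • g.order := by rw [← h, HahnSeries.order_pow]
    refine ⟨g.order, ?_⟩
    rw [show (coeffMap (algebraMap S.K₀ Qb) W₀) = S.bc W₀ from rfl, h1, nsmul_eq_mul]
  have hlead : ∃ u : S.K₀, u ^ p = W₁.leadingCoeff := by
    refine ⟨1, ?_⟩
    rw [hW₁, HahnSeries.leadingCoeff_mul, HahnSeries.C_apply, HahnSeries.leadingCoeff_of_single,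
      ← ha₀, inv_mul_cancel₀ ha₀0, one_pow]
  obtain ⟨w, hw⟩ := Crux.GM.exists_pow_eq_laurent p hp0 W₁ hW₁0 hord hlead
  obtain ⟨b, hb⟩ := IsAlgClosed.exists_pow_nat_eq (algebraMap S.K₀ Qb a₀) hp0
  have ha₀' : algebraMap S.K₀ Qb a₀ ≠ 0 := by
    rw [Ne, map_eq_zero_iff _ hinj]
    exact ha₀0
  have hb0 : b ≠ 0 := by
    rintro rfl
    rw [zero_pow hp0.ne'] at hb
    exact ha₀' hb.symm
  -- `(bc w)^p = C a₀⁻¹ * W`
  have hwp : (S.bc w) ^ p = HahnSeries.C (algebraMap S.K₀ Qb a₀)⁻¹ * S.bc W₀ := by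
    rw [← map_pow, hw, hW₁, map_mul, Red_coeffMap_C, map_inv₀]
  have hCa' : (HahnSeries.C (algebraMap S.K₀ Qb a₀) : LaurentSeries Qb) ≠ 0 := by
    rw [Ne, map_eq_zero_iff _ HahnSeries.C_injective]
    exact ha₀'
  have hWeq : S.bc W₀ = HahnSeries.C (algebraMap S.K₀ Qb a₀) * (S.bc w) ^ p := by
    rw [hwp, ← mul_assoc, ← map_mul, mul_inv_cancel₀ ha₀', map_one, one_mul]
  -- the quotient is a root of unity
  have hu : ((S.bc w * HahnSeries.C b) / g) ^ p = 1 := by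
    have hCb : (HahnSeries.C b : LaurentSeries Qb) ^ p = HahnSeries.C (algebraMap S.K₀ Qb a₀) := by
      rw [← map_pow, hb]
    rw [div_pow, mul_pow, hCb, mul_comm, ← hWeq, h, div_self hW0]
  have hζ' : IsPrimitiveRoot (HahnSeries.C S.ζ : LaurentSeries Qb) p :=
    S.hζ.map_of_injective HahnSeries.C_injective
  obtain ⟨i, -, hi⟩ := hζ'.eq_pow_of_pow_eq_one hu
  have hCb : (HahnSeries.C b : LaurentSeries Qb) ≠ 0 := by
    rw [Ne, map_eq_zero_iff _ HahnSeries.C_injective]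
    exact hb0
  have hbw : S.bc w = HahnSeries.C (S.ζ ^ i * b⁻¹) * g := by
    rw [map_mul, map_pow, hi, map_inv₀]
    field_simp
  have hCmem : ∀ c : Qb, (HahnSeries.C c : LaurentSeries Qb) ∈ modularFunctionFieldBar M := by
    intro c
    rw [HahnSeries.C_apply, ← algebraMap_laurentSeries_eq_single]
    exact IntermediateField.algebraMap_mem _ _
  refine ⟨HahnSeries.C (algebraMap S.K₀ Qb a₀), ⟨_, a₀.2, rfl⟩, S.bc w, ?_, hWeq⟩
  rw [mem_F_iff]
  refine ⟨by rw [hbw]; exact mul_mem (hCmem _) hg, fun n => ?_⟩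
  rw [coeffMap_coeff]
  exact (w.coeff n).2

end Setup

end

end Fermat.Agent.S33
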