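import Fermat.Agent.S33.Good.LemmaP

/-!
# S33 / Good / Fil : the depth filtration on classes; (C4) IMPROVE

`Fil j z` : the class `z` has a representative `W = 1 + π^j ξ`, `ξ` integral.

PROOF SKETCHES.
* `rep_one` : `rep_pow` with `a = g = 1`.   `p_nsmul` : `Rep (W^p) (p • z)` (induction with
  `rep_mul`) and `Rep (1 * W^p) 0` (`rep_pow`), `rep_unique`.
* `Fil.add/neg/zero/mono/T/σ` : `Lead.mul/inv/one/exists_of_le`, `lead_T`, `lead_s`.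
* `improve_const` : lift `b` to `c ∈ C`; `W' := W * ((1 + π^j c)⁻¹ * 1^p)`; `Rep W' (z + 0)`,
  `Lead j W' (b - b)`; `Lead.succ_of_zero`.
* `improve_pow` : `Y := 1 + π^l h ∈ F`, `Lead (p l) (Y^p) (t^p)` (`lead_pow_lt`);
  `W' := W * (1 * (Y⁻¹)^p)`.
* `improve_sep` : `lead_mem` gives `μ ∈ F`; `sep`; `improve_pow`.
-/

set_option autoImplicit false

namespace Fermat.Agent.S33.Good

variable {𝒦 κ 𝒬 : Type*} [Field 𝒦] [Field κ] [AddCommGroup 𝒬]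

namespace Pkg

variable {p : ℕ} (P : Pkg 𝒦 κ 𝒬 p)

/-- `z` has a representative `≡ 1 mod π^j`. -/
def Fil (j : ℕ) (z : 𝒬) : Prop := ∃ (W : 𝒦) (r : κ), P.Rep W z ∧ P.Lead j W r

variable {P} {W : 𝒦} {z z' : 𝒬} {j i l : ℕ}

theorem rep_one : P.Rep 1 0 := by
  have := P.rep_pow (one_mem _) one_ne_zero (one_mem _) one_ne_zero
  simpa using this

theorem rep_congr (h : P.Rep W z) {W' : 𝒦} (h1 : W = W') (h2 : z = z') : P.Rep W' z' := by
  subst h1; subst h2; exact h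

theorem rep_npow (h : P.Rep W z) (n : ℕ) : P.Rep (W ^ n) (n • z) := by
  induction n with
  | zero => simpa using rep_one (P := P)
  | succ n ih =>
    rw [pow_succ, succ_nsmul]
    exact P.rep_mul ih h

theorem p_nsmul (h : P.Rep W z) : p • z = 0 := by
  have h1 := rep_npow h p
  have h2 := P.rep_pow (one_mem _) one_ne_zero (P.rep_mem h) (P.rep_ne h)
  rw [one_mul] at h2
  exact P.rep_unique h1 h2

/-- multiplying a representative by `a g^p`. -/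
theorem rep_mul_pow (h : P.Rep W z) {a g : 𝒦} (ha : a ∈ P.C) (ha0 : a ≠ 0) (hg : g ∈ P.F)
    (hg0 : g ≠ 0) : P.Rep (W * (a * g ^ p)) z := by
  have := P.rep_mul h (P.rep_pow ha ha0 hg hg0)
  rwa [add_zero] at this

/-- two representatives of the same class. -/
theorem rep_eq (h : P.Rep W z) {W' : 𝒦} (h' : P.Rep W' z) :
    ∃ a ∈ P.C, ∃ g ∈ P.F, W' = W * (a * g ^ p) := by
  have h1 := P.rep_mul (P.rep_inv h) h'
  rw [neg_add_cancel] at h1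
  obtain ⟨a, ha, g, hg, e⟩ := P.rep_zero h1
  refine ⟨a, ha, g, hg, ?_⟩
  rw [← e, mul_inv_cancel_left₀ (P.rep_ne h)]

theorem Fil.zero (j : ℕ) : P.Fil j 0 := by
  exact ⟨1, 0, rep_one, RedPkg.Lead.one j⟩

theorem Fil.add (hj : 1 ≤ j) (h : P.Fil j z) (h' : P.Fil j z') : P.Fil j (z + z') := by
  obtain ⟨W, r, hW, hL⟩ := h
  obtain ⟨W', r', hW', hL'⟩ := h'
  exact ⟨W * W', r + r', P.rep_mul hW hW', hL.mul hj hL'⟩

theorem Fil.neg (hj : 1 ≤ j) (h : P.Fil j z) : P.Fil j (-z) := by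
  obtain ⟨W, r, hW, hL⟩ := h
  exact ⟨W⁻¹, -r, P.rep_inv hW, hL.inv hj⟩

theorem Fil.mono (hij : i ≤ j) (h : P.Fil j z) : P.Fil i z := by
  obtain ⟨W, r, hW, hL⟩ := h
  obtain ⟨t, ht⟩ := hL.exists_of_le hij
  exact ⟨W, t, hW, ht⟩

theorem Fil.σ (h : P.Fil j z) : P.Fil j (P.σ z) := by
  obtain ⟨W, r, hW, hL⟩ := h
  exact ⟨P.s W, _, P.rep_s hW, P.lead_s hL⟩

variable [Fact p.Prime]

theorem Fil.T (hj : 1 ≤ j) (h : P.Fil j z) : P.Fil j (P.T z) := by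
  obtain ⟨W, r, hW, hL⟩ := h
  exact ⟨_, _, P.rep_T hW, P.lead_T hj hL⟩

theorem improve_const {b : κ} (hj : 1 ≤ j) (hW : P.Rep W z) (h : P.Lead j W b) (hb : b ∈ P.κ0) :
    P.Fil (j + 1) z := by
  obtain ⟨c, hc, hcb⟩ := P.lift_κ0 hb
  have hu : P.Lead j (1 + P.π ^ j * c) b := RedPkg.lead_mk j hcb
  have hu0 := hu.ne_zero hj
  have huC : (1 + P.π ^ j * c) ∈ P.C := add_mem (one_mem _) (mul_mem (P.pi_pow_mem j) hc)
  have h1 := rep_mul_pow hW (inv_mem huC) (inv_ne_zero hu0) (one_mem P.F) one_ne_zero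
  have h2 : P.Lead j (W * ((1 + P.π ^ j * c)⁻¹ * 1 ^ p)) 0 :=
    (h.mul hj (hu.inv hj)).congr (by rw [one_pow, mul_one]) (by ring)
  obtain ⟨t, ht⟩ := h2.succ_of_zero
  exact ⟨_, t, h1, ht⟩

theorem improve_pow {h : 𝒦} {t : κ} (hl : 1 ≤ l) (hld : l < P.d) (hW : P.Rep W z) (hh : h ∈ P.F)
    (hred : P.Red h t) (hL : P.Lead (p * l) W (t ^ p)) : P.Fil (p * l + 1) z := by
  have hpl : 1 ≤ p * l := Nat.mul_pos (Fact.out : p.Prime).pos hl
  have hY : P.Lead l (1 + P.π ^ l * h) t := RedPkg.lead_mk l hred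
  have hY0 := hY.ne_zero hl
  have hYF : (1 + P.π ^ l * h) ∈ P.F :=
    add_mem (one_mem _) (mul_mem (pow_mem P.pi_mem_F l) hh)
  have hYp := P.lead_pow_lt hl hld hY
  have h1 := rep_mul_pow hW (one_mem P.C) one_ne_zero (inv_mem hYF) (inv_ne_zero hY0)
  have h2 : P.Lead (p * l) (W * (1 * ((1 + P.π ^ l * h)⁻¹) ^ p)) 0 :=
    (hL.mul hpl (hYp.inv hpl)).congr (by rw [one_mul, inv_pow]) (by ring)
  obtain ⟨t', ht'⟩ := h2.succ_of_zero
  exact ⟨_, t', h1, ht'⟩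

theorem improve_sep {r : κ} (hl : 1 ≤ l) (hld : l < P.d) (hW : P.Rep W z)
    (hL : P.Lead (p * l) W r) (hr : P.thb r = 0) : P.Fil (p * l + 1) z := by
  obtain ⟨μ, hμF, hμ, -⟩ := P.lead_mem P.F P.pi_mem_F (P.rep_mem hW) hL
  obtain ⟨h, hh, t, hred, ht⟩ := P.sep hμF hμ hr
  exact improve_pow hl hld hW hh hred (hL.congr rfl ht.symm)

end Pkg

end Fermat.Agent.S33.Good
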