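import Fermat.Agent.S33.Good.Fil

/-!
# S33 / Good / G01 : (G0) `Fil (p d + 1) = 0` and (G1) `Fil (p d)` has no `σ`-invariants

PROOF SKETCHES.
* `G0_step` : `W = 1 + π^(p d + i) ξ`; `Y := 1 + π^(d+i) (ξ / up)`, `ξ ∈ F` (`lead_mem`);
  `Lead ((p-1) d + (d+i)) (Y^p) (upb * (r / upb))` (`lead_pow_gt`); `W' := W * (1 * (Y⁻¹)^p)`.
* `G0` : iterate `G0_step` up to an exponent `≥ J`, `Lead.exists_of_le`, `rig`.
* `G1` : `W = 1 + π^(p d) ξ`; `W'' := s W * (W^a)⁻¹` represents `σ z - a • z` and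
  `Lead (p d) W'' (θ^(p d) r - a r) = 0` (`θ_pow`); so `Fil (p d + 1)`, `G0`: `σ z = a • z`.
  With `σ z = z`: `(a - 1) z = 0` (in `ℤ`-multiples), `p z = 0`, and `p ∤ a - 1` because
  `(a : κ) ≠ 1` (`CharP.intCast_eq_zero_iff`); Bezout (`Int.isCoprime_iff_gcd_eq_one`,
  `Nat.Prime.coprime_iff_not_dvd`).
-/

set_option autoImplicit false

namespace Fermat.Agent.S33.Good

variable {𝒦 κ 𝒬 : Type*} [Field 𝒦] [Field κ] [AddCommGroup 𝒬]

namespace Pkg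

variable {p : ℕ} [Fact p.Prime] {P : Pkg 𝒦 κ 𝒬 p} {z : 𝒬} {i : ℕ}

theorem G0_step (hi : 1 ≤ i) (h : P.Fil (p * P.d + i) z) : P.Fil (p * P.d + i + 1) z := by
  obtain ⟨W, r, hW, hL⟩ := h
  have hp1 : 1 ≤ p := (Fact.out : p.Prime).one_le
  have hj : 1 ≤ p * P.d + i := by omega
  obtain ⟨ξ, hξF, hξ, -⟩ := P.lead_mem P.F P.pi_mem_F (P.rep_mem hW) hL
  have hq : P.Red (ξ / P.up) (r / P.upb) := P.red_div hξ P.red_up P.upb_ne
  have hY : P.Lead (P.d + i) (1 + P.π ^ (P.d + i) * (ξ / P.up)) (r / P.upb) :=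
    RedPkg.lead_mk _ hq
  set Y : 𝒦 := 1 + P.π ^ (P.d + i) * (ξ / P.up) with hYdef
  have hYF : Y ∈ P.F :=
    add_mem (one_mem _) (mul_mem (pow_mem P.pi_mem_F _) (div_mem hξF (P.C_le_F P.up_mem)))
  have hY0 : Y ≠ 0 := hY.ne_zero (by omega)
  have hexp : (p - 1) * P.d + (P.d + i) = p * P.d + i := by
    obtain ⟨q, rfl⟩ : ∃ q, p = q + 1 := ⟨p - 1, by omega⟩
    simp only [Nat.add_sub_cancel]
    ring
  have hYp : P.Lead (p * P.d + i) (Y ^ p) (P.upb * (r / P.upb)) := by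
    have := P.lead_pow_gt (l := P.d + i) (by omega) hY
    rwa [hexp] at this
  have hRep : P.Rep (W * (1 * Y⁻¹ ^ p)) z :=
    rep_mul_pow hW (one_mem _) one_ne_zero (inv_mem hYF) (inv_ne_zero hY0)
  have hLead : P.Lead (p * P.d + i) (W * (1 * Y⁻¹ ^ p)) 0 :=
    (hL.mul hj (hYp.inv hj)).congr (by rw [one_mul, inv_pow])
      (by rw [mul_div_cancel₀ _ P.upb_ne, add_neg_cancel])
  obtain ⟨t, ht⟩ := hLead.succ_of_zero
  exact ⟨_, t, hRep, ht⟩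

/-- (G0) -/
theorem G0 (h : P.Fil (p * P.d + 1) z) : z = 0 := by
  have key : ∀ n : ℕ, P.Fil (p * P.d + (1 + n)) z := by
    intro n
    induction n with
    | zero => exact h
    | succ n ih => exact G0_step (i := 1 + n) (by omega) ih
  obtain ⟨W, r, hW, hL⟩ := key P.J
  obtain ⟨t, ξ, hξ, e⟩ := hL.exists_of_le (i := P.J) (by omega)
  exact P.rig hW hξ e

/-- (G1) -/
theorem G1 [CharP κ p] (h : P.Fil (p * P.d) z) (hσ : P.σ z = z) : z = 0 := by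
  obtain ⟨W, r, hW, hL⟩ := h
  have hpp : p.Prime := Fact.out
  have hj : 1 ≤ p * P.d := Nat.mul_pos hpp.pos P.d_pos
  have hRep : P.Rep (P.s W * (W ^ P.a)⁻¹) (P.σ z + -(P.a • z)) :=
    P.rep_mul (P.rep_s hW) (P.rep_inv (rep_npow hW P.a))
  have hLead : P.Lead (p * P.d) (P.s W * (W ^ P.a)⁻¹) 0 :=
    ((P.lead_s hL).mul hj ((hL.pow hj P.a).inv hj)).congr rfl
      (by rw [P.θ_pow, add_neg_cancel])
  obtain ⟨t, ht⟩ := hLead.succ_of_zero
  have h0 : P.σ z + -(P.a • z) = 0 := G0 ⟨_, t, hRep, ht⟩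
  have hpz : p • z = 0 := p_nsmul hW
  rw [hσ] at h0
  have h1 : ((P.a : ℤ) - 1) • z = 0 := by
    rw [sub_smul, one_smul, natCast_zsmul]
    have : z = P.a • z := by
      rw [← sub_eq_add_neg, sub_eq_zero] at h0
      exact h0
    rw [← this, sub_self]
  have h2 : ((p : ℤ)) • z = 0 := by
    rw [natCast_zsmul]; exact hpz
  have hnd : ¬ (p : ℤ) ∣ (P.a : ℤ) - 1 := by
    intro hd
    have h3 := (CharP.intCast_eq_zero_iff κ p ((P.a : ℤ) - 1)).2 hd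
    push_cast at h3
    exact P.a_ne (sub_eq_zero.1 h3)
  obtain ⟨u, v, huv⟩ := ((Nat.prime_iff_prime_int.1 hpp).coprime_iff_not_dvd).2 hnd
  calc z = (1 : ℤ) • z := (one_smul _ _).symm
    _ = (u * (p : ℤ) + v * ((P.a : ℤ) - 1)) • z := by rw [huv]
    _ = 0 := by rw [add_smul, mul_smul, mul_smul, h1, h2, smul_zero, smul_zero, add_zero]

end Pkg

end Fermat.Agent.S33.Good
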