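import Fermat.Agent.S33.Good.G01

/-!
# S33 / Good / G2 : the `T`-unit part is deep

**(G2)**  `Y ⊆ 𝒬` a subgroup, `Y ⊆ Fil 1`, `T Y = Y`.  Then `Y ⊆ Fil (p d)`.

PROOF.  Induction on `j` (`1 ≤ j ≤ p d`): `Y ⊆ Fil j`, `j < p d` ⟹ `Y ⊆ Fil (j+1)`.
* `p ∣ j`, `j = p l` (`1 ≤ l < d`): `y = T y'`, `y' ∈ Y ⊆ Fil j`, `Rep W y'`, `Lead j W r`; then
  `Rep (V W * Nm W) y`, `Lead j (V W * Nm W) (Vb r)` (`lead_T`), `thb (Vb r) = 0` (`thb_Vb`);
  `improve_sep`.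
* `p ∤ j`: `T` is a permutation of the finite set `Y`, so `T^[n] = id` on `Y` for some `n ≥ 1`
  (`exists_iterate_eq`).  `Rep W y`, `Lead j W r`; `W_n := Top^[n] W` represents `T^[n] y = y` and
  `Lead j W_n (Vb^[n] r)` (`rep_iter`, `lead_iter`).  `rep_eq`: `W_n = W * (a g^p)`, so
  `Lead j (a g^p) (Vb^[n] r - r)` (`Lead.div`); `lemmaP_of_not_dvd`: `Vb^[n] r - r ∈ κ0`;
  `KV`: `r ∈ κ0`; `improve_const`.
-/

set_option autoImplicit false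

namespace Fermat.Agent.S33.Good

variable {𝒦 κ 𝒬 : Type*} [Field 𝒦] [Field κ] [AddCommGroup 𝒬]

namespace Pkg

variable {p : ℕ} [Fact p.Prime] (P : Pkg 𝒦 κ 𝒬 p)

/-- the operator `W ↦ V W * Nm W` -/
def Top (W : 𝒦) : 𝒦 := P.V W * P.Nm W

variable {P}

theorem rep_iter {W : 𝒦} {z : 𝒬} (h : P.Rep W z) (n : ℕ) : P.Rep (P.Top^[n] W) (P.T^[n] z) := by
  induction n with
  | zero => exact h
  | succ n ih =>
    rw [Function.iterate_succ_apply', Function.iterate_succ_apply']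
    exact P.rep_T ih

theorem lead_iter {W : 𝒦} {r : κ} {j : ℕ} (hj : 1 ≤ j) (h : P.Lead j W r) (n : ℕ) :
    P.Lead j (P.Top^[n] W) (P.Vb^[n] r) := by
  induction n with
  | zero => exact h
  | succ n ih =>
    rw [Function.iterate_succ_apply', Function.iterate_succ_apply']
    exact P.toOpPkg.lead_T hj ih

theorem exists_iterate_eq [Finite 𝒬] (Y : AddSubgroup 𝒬) (hT : ∀ y ∈ Y, P.T y ∈ Y)
    (hsurj : ∀ y ∈ Y, ∃ y' ∈ Y, P.T y' = y) : ∃ n, 1 ≤ n ∧ ∀ y ∈ Y, P.T^[n] y = y := by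
  classical
  let g : Y → Y := fun y => ⟨P.T y, hT y y.2⟩
  have hgs : Function.Surjective g := by
    rintro ⟨y, hy⟩
    obtain ⟨y', hy', e⟩ := hsurj y hy
    exact ⟨⟨y', hy'⟩, Subtype.ext e⟩
  have hgb : Function.Bijective g := ⟨Finite.injective_iff_surjective.mpr hgs, hgs⟩
  let e : Equiv.Perm Y := Equiv.ofBijective g hgb
  have hiter : ∀ (n : ℕ) (y : Y), ((g^[n] y : Y) : 𝒬) = P.T^[n] (y : 𝒬) := by
    intro n y
    induction n with
    | zero => rfl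
    | succ n ih =>
      rw [Function.iterate_succ_apply', Function.iterate_succ_apply', ← ih]
  refine ⟨orderOf e, orderOf_pos e, fun y hy => ?_⟩
  have h1 : (e ^ orderOf e) ⟨y, hy⟩ = ⟨y, hy⟩ := by
    rw [pow_orderOf_eq_one]
    rfl
  rw [← Equiv.Perm.iterate_eq_pow] at h1
  have h2 := hiter (orderOf e) ⟨y, hy⟩
  have h3 : (g^[orderOf e] ⟨y, hy⟩ : Y) = ⟨y, hy⟩ := h1
  rw [h3] at h2
  exact h2.symm

theorem G2_step [CharP κ p] [Finite 𝒬] (Y : AddSubgroup 𝒬) (hT : ∀ y ∈ Y, P.T y ∈ Y)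
    (hsurj : ∀ y ∈ Y, ∃ y' ∈ Y, P.T y' = y) {j : ℕ} (hj : 1 ≤ j) (hjd : j < p * P.d)
    (h : ∀ y ∈ Y, P.Fil j y) : ∀ y ∈ Y, P.Fil (j + 1) y := by
  intro y hy
  by_cases hpj : p ∣ j
  · obtain ⟨l, rfl⟩ := hpj
    have hl : 1 ≤ l := by
      rcases Nat.eq_zero_or_pos l with rfl | hl
      · simp at hj
      · exact hl
    have hld : l < P.d := lt_of_mul_lt_mul_left hjd (Nat.zero_le p)
    obtain ⟨y', hy', rfl⟩ := hsurj y hy
    obtain ⟨W, r, hW, hL⟩ := h y' hy'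
    exact improve_sep hl hld (P.rep_T hW) (P.toOpPkg.lead_T hj hL) (P.toOpPkg.thb_Vb r)
  · obtain ⟨n, hn, hid⟩ := exists_iterate_eq Y hT hsurj
    obtain ⟨W, r, hW, hL⟩ := h y hy
    have hWn : P.Rep (P.Top^[n] W) y := by
      have := rep_iter hW n
      rwa [hid y hy] at this
    have hLn := lead_iter hj hL n
    obtain ⟨a, ha, g, hg, e⟩ := rep_eq hW hWn
    have hW0 : W ≠ 0 := P.rep_ne hW
    have hdiv : a * g ^ p = P.Top^[n] W / W := by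
      rw [e, mul_div_cancel_left₀ _ hW0]
    have hLd : P.Lead j (a * g ^ p) (P.Vb^[n] r - r) := by
      rw [hdiv]
      exact hLn.div hj hL
    have hmem : P.Vb^[n] r - r ∈ P.κ0 :=
      P.toOpPkg.lemmaP_of_not_dvd hj hjd hpj ha hg hLd
    exact improve_const hj hW hL (P.KV n r hn hmem)

/-- (G2) -/
theorem G2 [CharP κ p] [Finite 𝒬] (Y : AddSubgroup 𝒬) (h1 : ∀ y ∈ Y, P.Fil 1 y)
    (hT : ∀ y ∈ Y, P.T y ∈ Y) (hsurj : ∀ y ∈ Y, ∃ y' ∈ Y, P.T y' = y) :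
    ∀ y ∈ Y, P.Fil (p * P.d) y := by
  have hpd : 1 ≤ p * P.d := Nat.mul_pos (Fact.out : p.Prime).pos P.d_pos
  have key : ∀ j, 1 ≤ j → j ≤ p * P.d → ∀ y ∈ Y, P.Fil j y := by
    intro j hj
    induction j, hj using Nat.le_induction with
    | base => exact fun _ => h1
    | succ j hj ih =>
      intro hjd
      exact G2_step Y hT hsurj hj (by omega) (ih (by omega))
  exact key _ hpd le_rfl

end Pkg

end Fermat.Agent.S33.Good
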