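import Fermat.Agent.S33.Good.G01

/-!
# S33 / Good / G3Dlog : the logarithmic derivative computation of (G3)(ii)

`G = 1 + π^l y`, `W = 1 + π^j ξ` (`j = p l`), `Nm W = 1 + π^(p j) x' + p π^j B` (`Nm_expand`),
`a G^p = V W * Nm W`, `a ∈ C`.  `Red a 1` (`a = V W * Nm W / G^p`, all three reduce to `1`).
Apply `th` (`th a = 0`, `th π = 0` by `th_C`; `Derivation.leibniz`, `Derivation.leibniz_pow`,
`th_V`, `V_pi`):
  `a p G^(p-1) π^l th y = p π^j V (th ξ) * Nm W + V W * (π^(p j) th x' + p π^j th B)`.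
With `p = up π^e`, `e = (p-1) d`:
  `π^(e+l) α = π^(e+j) β + π^(p j) γ`,
  `α = up a G^(p-1) th y`,  `red α = upb * thb yb ≠ 0`,
  `β = up (V (th ξ) * Nm W + V W * th B)` integral,
  `γ = V W * th x'`, `red γ = thb (Fr r) = Fr (thb r) ≠ 0` (`thb_Fr`, `Fr` injective).
`l < j`, so `val_compare` gives `e + l = p j`.

`val_compare` : if `n₃ < n₁`: divide by `π^n₃`: `γ = π^(n₁-n₃) α - π^(n₂-n₃) β` reduces to `0`.
If `n₁ < n₃`: `α = π^(n₂-n₁) β + π^(n₃-n₁) γ` reduces to `0`.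
-/

set_option autoImplicit false

namespace Fermat.Agent.S33.Good

variable {𝒦 κ 𝒬 : Type*} [Field 𝒦] [Field κ] [AddCommGroup 𝒬]

/-- comparison of valuations -/
theorem RedPkg.val_compare (P : RedPkg 𝒦 κ) {α β γ : 𝒦} {αb βb γb : κ} {n₁ n₂ n₃ : ℕ}
    (hα : P.Red α αb) (hβ : P.Red β βb) (hγ : P.Red γ γb) (hα0 : αb ≠ 0) (hγ0 : γb ≠ 0)
    (h12 : n₁ < n₂) (h : P.π ^ n₁ * α = P.π ^ n₂ * β + P.π ^ n₃ * γ) : n₁ = n₃ := by
  rcases lt_trichotomy n₁ n₃ with h13 | h13 | h13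
  · exfalso
    have e : α = P.π ^ (n₂ - n₁) * β + P.π ^ (n₃ - n₁) * γ := by
      apply mul_left_cancel₀ (pow_ne_zero n₁ P.pi_ne)
      rw [h, mul_add, ← mul_assoc, ← mul_assoc, ← pow_add, ← pow_add,
        Nat.add_sub_cancel' h12.le, Nat.add_sub_cancel' h13.le]
    have h0 := P.red_add (P.red_pi_pow_mul (n := n₂ - n₁) (by omega) hβ)
      (P.red_pi_pow_mul (n := n₃ - n₁) (by omega) hγ)
    rw [← e, add_zero] at h0
    exact hα0 (P.red_unique hα h0)
  · exact h13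
  · exfalso
    have e : γ = P.π ^ (n₁ - n₃) * α - P.π ^ (n₂ - n₃) * β := by
      apply mul_left_cancel₀ (pow_ne_zero n₃ P.pi_ne)
      rw [mul_sub, ← mul_assoc, ← mul_assoc, ← pow_add, ← pow_add,
        Nat.add_sub_cancel' h13.le, Nat.add_sub_cancel' (h13.le.trans h12.le), h]
      ring
    have h0 := P.red_sub (P.red_pi_pow_mul (n := n₁ - n₃) (by omega) hα)
      (P.red_pi_pow_mul (n := n₂ - n₃) (by omega) hβ)
    rw [← e, sub_zero] at h0
    exact hγ0 (P.red_unique hγ h0)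

namespace OpPkg

variable {p : ℕ} [Fact p.Prime] [CharP κ p] {P : OpPkg 𝒦 κ p}

omit [Fact p.Prime] [CharP κ p] in
theorem G3Dlog_th_pi_pow_mul (n : ℕ) (x : 𝒦) : P.th (P.π ^ n * x) = P.π ^ n * P.th x := by
  rw [Derivation.leibniz, P.th_C (P.pi_pow_mem n), smul_zero, add_zero, smul_eq_mul]

theorem G3_dlog {W G a : 𝒦} {r yb : κ} {l : ℕ} (hl : 1 ≤ l) (hL : P.Lead (p * l) W r)
    (hr : P.thb r ≠ 0) (hG : P.Lead l G yb) (hyb : P.thb yb ≠ 0) (ha : a ∈ P.C)
    (h : a * G ^ p = P.V W * P.Nm W) : (p - 1) * P.d + l = p * (p * l) := by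
  have hp2 : 2 ≤ p := (Fact.out : p.Prime).two_le
  have hj : 1 ≤ p * l := Nat.mul_pos (by omega) hl
  have hVW : P.Red (P.V W) 1 := (P.lead_V hL).red hj
  have hNW : P.Red (P.Nm W) 1 := (P.lead_Nm hj hL).red hj
  have hG1 : P.Red G 1 := hG.red hl
  have hG0 : G ≠ 0 := hG.ne_zero hl
  have hGp : P.Red (G ^ p) 1 := by simpa using P.red_pow hG1 p
  have ha1 : P.Red a 1 := by
    have e : a = P.V W * P.Nm W / G ^ p := by
      rw [← h, mul_div_cancel_right₀ _ (pow_ne_zero p hG0)]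
    rw [e]
    simpa using P.red_div (P.red_mul hVW hNW) hGp one_ne_zero
  obtain ⟨ξ, hξ, hW⟩ := hL
  obtain ⟨y, hy, hGy⟩ := hG
  obtain ⟨x', B, b, hx', hB, hNm⟩ := P.Nm_expand hj hξ
  rw [← hW] at hNm
  -- derivatives
  have thG : P.th G = P.π ^ l * P.th y := by
    rw [hGy, map_add, Derivation.map_one_eq_zero, zero_add, G3Dlog_th_pi_pow_mul]
  have thW : P.th W = P.π ^ (p * l) * P.th ξ := by
    rw [hW, map_add, Derivation.map_one_eq_zero, zero_add, G3Dlog_th_pi_pow_mul]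
  have thVW : P.th (P.V W) = (p : 𝒦) * (P.π ^ (p * l) * P.V (P.th ξ)) := by
    rw [P.th_V, thW, map_mul, map_pow, P.V_pi]
  have thN : P.th (P.Nm W) = P.π ^ (p * (p * l)) * P.th x' + (p : 𝒦) * (P.π ^ (p * l) * P.th B) := by
    rw [hNm, map_add, map_add, Derivation.map_one_eq_zero, zero_add, G3Dlog_th_pi_pow_mul,
      mul_assoc, Derivation.leibniz, Derivation.map_natCast, smul_zero, add_zero, smul_eq_mul,
      G3Dlog_th_pi_pow_mul]
  have hth := congrArg P.th h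
  rw [Derivation.leibniz, P.th_C ha, smul_zero, add_zero, Derivation.leibniz_pow, thG,
    Derivation.leibniz, thVW, thN] at hth
  simp only [smul_eq_mul, nsmul_eq_mul] at hth
  set e := (p - 1) * P.d with he
  have key : P.π ^ (e + l) * (P.up * a * G ^ (p - 1) * P.th y) =
      P.π ^ (e + p * l) * (P.up * (P.V W * P.th B + P.Nm W * P.V (P.th ξ))) +
        P.π ^ (p * (p * l)) * (P.V W * P.th x') := by
    have hpe := P.p_eq
    rw [← he] at hpe
    rw [hpe] at hth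
    rw [pow_add, pow_add]
    linear_combination hth
  have hα : P.Red (P.up * a * G ^ (p - 1) * P.th y) (P.upb * 1 * 1 ^ (p - 1) * P.thb yb) :=
    P.red_mul (P.red_mul (P.red_mul P.red_up ha1) (P.red_pow hG1 _)) (P.red_th hy)
  have hβ := P.red_mul P.red_up (P.red_add (P.red_mul hVW (P.red_th hB))
    (P.red_mul hNW (P.red_V (P.red_th hξ))))
  have hγ : P.Red (P.V W * P.th x') (1 * P.thb (P.Fr r)) := P.red_mul hVW (P.red_th hx')
  refine P.val_compare hα hβ hγ ?_ ?_ ?_ key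
  · simpa using ⟨P.upb_ne, hyb⟩
  · rw [one_mul, P.thb_Fr]
    exact (map_ne_zero P.Fr).mpr hr
  · have : l < p * l := by nlinarith
    omega

end OpPkg

end Fermat.Agent.S33.Good
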