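import Fermat.Agent.S33.Good.Sep
import Fermat.Agent.S33.Good.Abs
import Fermat.Agent.ES.Glue.Iota

/-!
# S33 / Good / Inst : the instance of the abstract package `Good.Pkg`
-/

set_option autoImplicit false
set_option linter.unusedSectionVars false

open AlgebraicCurve ModularCurve

namespace Fermat.Agent.S33

open Fermat.Agent.ES Fermat.Agent.SS Fermat.Agent.S33.Calc

noncomputable section

namespace Setup

variable {p : ℕ} [hp : Fact p.Prime] [NeZero p] (S : Setup p) (M : ℕ) [NeZero M]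

/-- residue constants -/
def κ0 : Subfield (LaurentSeries (kR S.R)) :=
  (HahnSeries.C : kR S.R →+* LaurentSeries (kR S.R)).fieldRange

theorem mem_κ0 {r : LaurentSeries (kR S.R)} : r ∈ S.κ0 ↔ ∃ c : kR S.R, HahnSeries.C c = r :=
  RingHom.mem_fieldRange

/-- Frobenius on coefficients -/
def Fr : LaurentSeries (kR S.R) →+* LaurentSeries (kR S.R) := coeffMap (frobenius (kR S.R) p)

theorem Vq_C (c : Qb) : Vq Qb p (HahnSeries.C c) = HahnSeries.C c := by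
  show Vq Qb p (HahnSeries.single 0 c) = HahnSeries.single 0 c
  rw [qExpand_single, mul_zero]

theorem Fr_surjective : Function.Surjective S.Fr := by
  classical
  have := PerfectField.toPerfectRing (K := kR S.R) p
  have hf := surjective_frobenius (kR S.R) p
  intro y
  refine ⟨⟨fun n => if y.coeff n = 0 then 0 else Function.surjInv hf (y.coeff n),
    y.isPWO_support.mono ?_⟩, ?_⟩
  · intro n hn
    rw [Function.mem_support] at hn
    rw [HahnSeries.mem_support]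
    intro h0
    exact hn (if_pos h0)
  · ext n
    rw [Fr, coeffMap_coeff]
    show frobenius (kR S.R) p (if y.coeff n = 0 then 0 else Function.surjInv hf (y.coeff n))
      = y.coeff n
    split_ifs with h0
    · rw [map_zero, h0]
    · exact Function.surjInv_eq hf _

/-- **The operator package.** -/
def opPkg : Good.OpPkg (LaurentSeries Qb) (LaurentSeries (kR S.R)) p where
  toRedPkg := redPkg S.ι S.ι_injective S.ϖ S.hϖ
  C := S.C
  κ0 := S.κ0
  F := S.F M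
  C_le_F := S.C_le_F
  pi_mem := ⟨S.ι S.ϖ, S.ι_mem_K₀ _, rfl⟩
  red_C := by
    rintro _ r ⟨c, -, rfl⟩ h
    obtain ⟨a, -, rfl⟩ := Red0.const h
    exact S.mem_κ0.mpr ⟨_, rfl⟩
  lift_κ0 := by
    intro r hr
    obtain ⟨b, rfl⟩ := S.mem_κ0.mp hr
    obtain ⟨a, rfl⟩ := IsLocalRing.residue_surjective b
    exact ⟨HahnSeries.C (S.ι a), ⟨S.ι a, S.ι_mem_K₀ _, rfl⟩, Red0.C a⟩
  perfect := by
    intro r hr
    obtain ⟨b, rfl⟩ := S.mem_κ0.mp hr
    have := PerfectField.toPerfectRing (K := kR S.R) p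
    obtain ⟨b', rfl⟩ := surjective_frobenius (kR S.R) p b
    exact ⟨HahnSeries.C b', S.mem_κ0.mpr ⟨_, rfl⟩, by rw [← map_pow]; rfl⟩
  pivot := fun hf hf0 => S.pivot hf hf0
  d := S.d
  d_pos := S.d_pos
  up := HahnSeries.C (S.ι S.v)
  upb := HahnSeries.C (rs S.R S.v)
  up_mem := ⟨S.ι S.v, S.ι_mem_K₀ _, rfl⟩
  red_up := Red0.C _
  upb_ne := by
    rw [Ne, map_eq_zero_iff _ HahnSeries.C_injective, IsLocalRing.residue_eq_zero_iff,
      IsLocalRing.mem_maximalIdeal, mem_nonunits_iff, not_not]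
    exact S.v.isUnit
  p_eq := by
    have h := congrArg (fun x => (HahnSeries.C (S.ι x) : LaurentSeries Qb)) S.p_eq
    simp only [map_natCast, map_mul, map_pow] at h
    exact h
  V := Vq Qb p
  Vb := Vq (kR S.R) p
  red_V := fun h => Red0.vq p h
  V_pi := Vq_C _
  Fr := S.Fr
  Fr_surj := S.Fr_surjective
  Vb_Fr := fun r => (pow_char_eq p r).symm
  Nm := normSer p
  Nm_expand := fun _ h => Red0.normSer_expand p S.ι_injective S.hζ₀ S.ϖ h
  th := theta Qb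
  thb := theta (kR S.R)
  red_th := fun h => Red0.theta h
  th_C := by
    rintro _ ⟨c, -, rfl⟩
    exact theta_single_zero c
  th_V := fun x => theta_Vq p x
  thb_Fr := fun r => (coeffMap_theta _ r).symm
  thb_κ0 := by
    intro r hr
    obtain ⟨c, rfl⟩ := S.mem_κ0.mp hr
    exact theta_single_zero c
  KV := by
    intro n r hn h
    obtain ⟨c, hc⟩ := S.mem_κ0.mp h
    obtain ⟨c', rfl⟩ := eq_single_of_iterate_Vq_sub p hp.out.two_le n hn r c hc.symm
    exact S.mem_κ0.mpr ⟨c', rfl⟩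
  KV0 := by
    intro r h
    obtain ⟨c, hc⟩ := S.mem_κ0.mp h
    rw [eq_single_of_Vq_eq_single p r c hc.symm]
    exact S.mem_κ0.mpr ⟨c, rfl⟩
  sep := fun hf hred hth => S.sep hf hred hth
  s := coeffMap (((S.g : GQ) : Qb →+* Qb))
  red_s := fun h => Red0.map _ S.σ₀ S.gal_comp_ι S.rs_comp_σ₀ h
  tπ := HahnSeries.C (S.ι S.t)
  θ := HahnSeries.C (rs S.R S.t)
  s_pi := by
    show coeffMap _ (HahnSeries.single 0 (S.ι S.ϖ))
      = HahnSeries.C (S.ι S.ϖ) * HahnSeries.C (S.ι S.t)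
    rw [coeffMap_single, ← map_mul, ← map_mul, ← S.σ₀_ϖ]
    rfl
  red_tπ := Red0.C _
  θ_mem := S.mem_κ0.mpr ⟨_, rfl⟩
  a := S.a
  θ_pow := by rw [← map_pow, S.rs_t_pow, map_natCast]
  a_ne := by
    intro h
    apply S.a_ne_one
    apply HahnSeries.C_injective (Γ := ℤ)
    rw [map_natCast, map_one]
    exact h

/-- `W ∈ F` represents the class `z`. -/
def Rep (W : LaurentSeries Qb) (z : Kum M p) : Prop :=
  W ∈ S.F M ∧ ∃ u : Dm M p, (((u : (FF M)ˣ) : FF M) : LaurentSeries Qb) = W ∧ Kum.mk u = z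

variable {M} {W W' : LaurentSeries Qb} {z z' : Kum M p}

theorem Rep.unique (h : S.Rep M W z) (h' : S.Rep M W z') : z = z' := by
  obtain ⟨-, u, hu, rfl⟩ := h
  obtain ⟨-, u', hu', rfl⟩ := h'
  have : u = u' := Subtype.ext (Units.ext (Subtype.ext (hu.trans hu'.symm)))
  rw [this]

theorem Rep.mul (h : S.Rep M W z) (h' : S.Rep M W' z') : S.Rep M (W * W') (z + z') := by
  obtain ⟨hF, u, rfl, rfl⟩ := h
  obtain ⟨hF', u', rfl, rfl⟩ := h'
  exact ⟨mul_mem hF hF', u * u', rfl, Kum.mk_mul u u'⟩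

theorem Rep.inv (h : S.Rep M W z) : S.Rep M W⁻¹ (-z) := by
  obtain ⟨hF, u, rfl, rfl⟩ := h
  refine ⟨inv_mem hF, u⁻¹, ?_, Kum.mk_inv u⟩
  rw [Subgroup.coe_inv, Units.val_inv_eq_inv_val, IntermediateField.coe_inv]

theorem Rep.ne (h : S.Rep M W z) : W ≠ 0 := by
  obtain ⟨-, u, rfl, -⟩ := h
  intro h0
  exact (u : (FF M)ˣ).ne_zero (Subtype.ext h0)

/-- `Kum.mk_eq_zero_iff` and `Setup.exists_root`. -/
theorem Rep.zero (h : S.Rep M W 0) : ∃ a ∈ S.C, ∃ g ∈ S.F M, W = a * g ^ p := by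
  have hW0 := Rep.ne S h
  obtain ⟨hF, u, rfl, hu⟩ := h
  obtain ⟨g, hg⟩ := (Kum.mk_eq_zero_iff u).mp hu
  refine S.exists_root hF hW0 (g := ((g : FF M) : LaurentSeries Qb)) (SetLike.coe_mem _) ?_
  rw [← hg, Units.val_pow_eq_pow_val, IntermediateField.coe_pow]

/-- TASK `S33/Good-Rep`.  `a = C a₀`, `a₀ = b^p` in `ℚ̄` (`IsAlgClosed.exists_pow_nat_eq`);
`h := algebraMap ℚ̄ (FF M) b * ⟨g, F_le_bar hg⟩` is a unit of `FF M`; `u := ⟨h^p, Pw_le_Dm ..⟩`;
`Kum.mk_eq_zero_iff`.  (Compare the end of `ES.Kum.exists_rep`.) -/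
theorem Rep.pow {a g : LaurentSeries Qb} (ha : a ∈ S.C) (ha0 : a ≠ 0) (hg : g ∈ S.F M)
    (hg0 : g ≠ 0) : S.Rep M (a * g ^ p) 0 := by
  have hp0 : 0 < p := hp.out.pos
  refine ⟨mul_mem (S.C_le_F ha) (pow_mem hg p), ?_⟩
  obtain ⟨a₀, -, rfl⟩ := ha
  obtain ⟨b, hb⟩ := IsAlgClosed.exists_pow_nat_eq a₀ hp0
  have hb0 : b ≠ 0 := by
    rintro rfl
    rw [zero_pow hp0.ne'] at hb
    apply ha0
    change HahnSeries.C a₀ = 0
    rw [← hb, map_zero]
  have hgF0 : (⟨g, S.F_le_bar hg⟩ : FF M) ≠ 0 := fun h => hg0 (congrArg Subtype.val h)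
  have hh0 : algebraMap Qb (FF M) b * (⟨g, S.F_le_bar hg⟩ : FF M) ≠ 0 :=
    mul_ne_zero (by rw [Ne, map_eq_zero]; exact hb0) hgF0
  refine ⟨⟨(Units.mk0 _ hh0) ^ p, Pw_le_Dm M p ⟨Units.mk0 _ hh0, rfl⟩⟩, ?_,
    (Kum.mk_eq_zero_iff _).mpr ⟨Units.mk0 _ hh0, rfl⟩⟩
  change ((((Units.mk0 _ hh0) ^ p : (FF M)ˣ) : FF M) : LaurentSeries Qb) = HahnSeries.C a₀ * g ^ p
  rw [Units.val_pow_eq_pow_val, IntermediateField.coe_pow]
  change (algebraMap Qb (LaurentSeries Qb) b * g) ^ p = _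
  rw [mul_pow, ← map_pow, hb, algebraMap_laurentSeries_eq_single, HahnSeries.C_apply]

theorem Rep.T (hpM : ¬ p ∣ M) (h : S.Rep M W z) :
    S.Rep M (Vq Qb p W * normSer p W) (heckeKum M p hp.out hpM p z) := by
  obtain ⟨hF, u, rfl, rfl⟩ := h
  exact ⟨S.heckeSer_mem_F hpM hF, _, rfl, (heckeKum_mk M p hp.out hpM u).symm⟩

theorem Rep.s (h : S.Rep M W z) :
    S.Rep M (coeffMap (((S.g : GQ) : Qb →+* Qb)) W) (galKum M p (S.g : GQ) z) := by
  obtain ⟨hF, u, rfl, rfl⟩ := h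
  exact ⟨S.gal_mem_F hF, _, rfl, (galKum_mk (S.g : GQ) u).symm⟩

/-- TASK `S33/Good-Rep`.  `J = 2 (p-1) d`, so `C (ι ϖ)^J = C (ι (p^2 * v⁻²))` (`S.p_eq`).  `Red0 ξ r` gives
`ξ y₂ = y₁` over `R`.  Push to `A` with `S.toA`: `Y_i := coeffMap S.toA y_i`
(`coeffMap A.subtype Y_i = coeffMap S.ι y_i` by `coeffMap_coeffMap`, `S.subtype_comp_toA`;
`coeffMap (resA A) Y₂ = coeffMap S.kι (coeffMap (rs R) y₂) ≠ 0` by `S.kι_comp_rs` and injectivity of `S.kι`).
`W * Y₂ = Y₂ + C (p^2) * (C (toA v⁻²) * Y₁)`: this is `CongOne A (p^2) W`; `Deep` with constant `1`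
(`cst 1 * W = W`); `DeepCl`; `hrig A S.hA z`. -/
theorem Rep.rig (hrig : Rig M p) {ξ : LaurentSeries Qb} {r : LaurentSeries (kR S.R)}
    (h : S.Rep M W z) (hξ : Red0 S.ι ξ r)
    (hW : W = 1 + HahnSeries.C (S.ι S.ϖ) ^ (2 * ((p - 1) * S.d)) * ξ) : z = 0 := by
  obtain ⟨-, u, hu, huz⟩ := h
  obtain ⟨y₁, y₂, hy₂, hξy, -⟩ := hξ
  -- `ϖ ^ J = p ^ 2 * v⁻²`
  have hϖJ : S.ϖ ^ (2 * ((p - 1) * S.d)) = (p : S.R) ^ 2 * ((S.v⁻¹ : S.Rˣ) : S.R) ^ 2 := by
    rw [S.p_eq, mul_comm 2, pow_mul, mul_pow, mul_right_comm, ← mul_pow, Units.mul_inv, one_pow,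
      one_mul]
  have hC : ∀ (f : S.A →+* Qb) (c : S.A), coeffMap f (HahnSeries.C c : LaurentSeries S.A)
      = HahnSeries.C (f c) := fun f c => by
    rw [HahnSeries.C_apply, coeffMap_single, HahnSeries.C_apply]
  have hsub : ∀ y : LaurentSeries S.R, coeffMap S.A.subtype (coeffMap S.toA y) = coeffMap S.ι y :=
    fun y => by rw [coeffMap_coeffMap, S.subtype_comp_toA]
  have hcong : CongOne S.A ((p : S.A) ^ 2) W := by
    refine ⟨coeffMap S.toA y₂ + HahnSeries.C ((p : S.A) ^ 2) *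
        (HahnSeries.C (S.toA (((S.v⁻¹ : S.Rˣ) : S.R) ^ 2)) * coeffMap S.toA y₁),
      coeffMap S.toA y₂,
      HahnSeries.C (S.toA (((S.v⁻¹ : S.Rˣ) : S.R) ^ 2)) * coeffMap S.toA y₁, ?_, ?_, ?_⟩
    · rw [coeffMap_coeffMap, ← S.kι_comp_rs, ← coeffMap_coeffMap]
      intro h0
      apply hy₂
      apply Red_coeffMap_injective S.kι S.kι.injective
      rw [h0, map_zero]
    · rw [map_add, map_mul, map_mul, hsub, hsub, hC, hC, hW, add_mul, one_mul, mul_assoc, hξy,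
        ← map_pow, ← map_pow, hϖJ]
      have e1 : S.A.subtype ((p : S.A) ^ 2) = S.ι ((p : S.R) ^ 2) := by
        rw [map_pow, map_pow, map_natCast, map_natCast]
      have e2 : S.A.subtype (S.toA (((S.v⁻¹ : S.Rˣ) : S.R) ^ 2))
          = S.ι (((S.v⁻¹ : S.Rˣ) : S.R) ^ 2) := rfl
      rw [e1, e2, map_mul, map_mul, mul_assoc]
    · rw [add_sub_cancel_left]
  refine hrig S.A S.hA z ⟨u, huz, 1, one_ne_zero, ?_⟩
  rw [hu, cst, map_one, one_mul]
  exact hcong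

variable (M)

/-- **The package.** -/
def pkg (hpM : ¬ p ∣ M) (hrig : Rig M p) :
    Good.Pkg (LaurentSeries Qb) (LaurentSeries (kR S.R)) (Kum M p) p where
  toOpPkg := S.opPkg M
  Rep := S.Rep M
  rep_unique := Rep.unique S
  rep_mul := Rep.mul S
  rep_inv := Rep.inv S
  rep_mem := fun h => h.1
  rep_ne := Rep.ne S
  rep_zero := Rep.zero S
  rep_pow := Rep.pow S
  T := heckeKum M p hp.out hpM p
  rep_T := Rep.T S hpM
  σ := galKum M p (S.g : GQ)
  rep_s := Rep.s S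
  T_σ := fun z => (galKum_heckeKum M p hp.out hpM (S.g : GQ) z).symm
  J := 2 * ((p - 1) * S.d)
  rig := fun h hξ hW => Rep.rig S hrig h hξ hW

instance instCharPSeries : CharP (LaurentSeries (kR S.R)) p :=
  charP_of_injective_ringHom (HahnSeries.C_injective (Γ := ℤ) (R := kR S.R)) p

/-- **GOOD for a setup.** -/
theorem good_of_rep (hpM : ¬ p ∣ M) (hrig : Rig M p) {W : LaurentSeries Qb}
    {r : LaurentSeries (kR S.R)} {z : Kum M p} (hW : S.Rep M W z) (hred : Red0 S.ι W r)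
    (hr : r ≠ 0) (hth : theta (kR S.R) r = 0) (hσ : galKum M p (S.g : GQ) z = z) : z = 0 := by
  haveI : Finite (Kum M p) := ES.Glue.finite_Kum hp.out.pos
  exact (S.pkg M hpM hrig).good hW hred hr hth hσ

end Setup

end

end Fermat.Agent.S33
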