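import Fermat.Agent.S33.Good.Pkg

/-!
# S33 / Good / Lead : API for `Red` and for `Lead j x r`  (`x = 1 + π^j μ`, `red μ = r`)
-/

set_option autoImplicit false

namespace Fermat.Agent.S33.Good

variable {𝒦 κ : Type*} [Field 𝒦] [Field κ]

namespace RedPkg

variable (P : RedPkg 𝒦 κ) {x y : 𝒦} {r s : κ}

theorem red_zero' : P.Red 0 0 := by
  simpa using P.red_add P.red_one (P.red_neg P.red_one)

theorem red_sub (hx : P.Red x r) (hy : P.Red y s) : P.Red (x - y) (r - s) := by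
  rw [sub_eq_add_neg, sub_eq_add_neg]
  exact P.red_add hx (P.red_neg hy)

theorem red_pow (hx : P.Red x r) (n : ℕ) : P.Red (x ^ n) (r ^ n) := by
  induction n with
  | zero => simpa using P.red_one
  | succ n ih => rw [pow_succ, pow_succ]; exact P.red_mul ih hx

theorem red_natCast (n : ℕ) : P.Red (n : 𝒦) (n : κ) := by
  induction n with
  | zero => simpa using P.red_zero'
  | succ n ih => push_cast; exact P.red_add ih P.red_one

theorem red_congr (hx : P.Red x r) (h1 : x = y) (h2 : r = s) : P.Red y s := by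
  subst h1; subst h2; exact hx

theorem red_div (hx : P.Red x r) (hy : P.Red y s) (hs : s ≠ 0) : P.Red (x / y) (r / s) := by
  rw [div_eq_mul_inv, div_eq_mul_inv]
  exact P.red_mul hx (P.red_inv hy hs)

theorem red_pi_pow {n : ℕ} (hn : 1 ≤ n) : P.Red (P.π ^ n) 0 := by
  have := P.red_pow P.red_pi n
  rwa [zero_pow (by omega)] at this

theorem red_pi_pow_mul {n : ℕ} (hn : 1 ≤ n) (hx : P.Red x r) : P.Red (P.π ^ n * x) 0 := by
  have := P.red_mul (P.red_pi_pow hn) hx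
  rwa [zero_mul] at this

theorem exists_red_pi_pow_mul (n : ℕ) (hx : P.Red x r) : ∃ t, P.Red (P.π ^ n * x) t :=
  ⟨_, P.red_mul (P.red_pow P.red_pi n) hx⟩

theorem ne_zero_of_red (hx : P.Red x r) (hr : r ≠ 0) : x ≠ 0 := by
  rintro rfl
  exact hr (P.red_unique hx P.red_zero')

/-- two units cannot differ by a nontrivial power of `π`. -/
theorem zpow_eq_zero {k : ℤ} (hx : P.Red x r) (hr : r ≠ 0) (hy : P.Red y s) (hs : s ≠ 0)
    (h : P.π ^ k * x = y) : k = 0 := by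
  by_contra hk
  rcases lt_or_gt_of_ne hk with hk | hk
  · -- `x = π^(-k) y`
    obtain ⟨n, hn⟩ : ∃ n : ℕ, -k = n := ⟨(-k).toNat, by omega⟩
    have h1 : x = P.π ^ n * y := by
      rw [← h, ← mul_assoc, ← zpow_natCast, ← hn, ← zpow_add₀ P.pi_ne]
      simp
    have h2 := P.red_pi_pow_mul (n := n) (by omega) hy
    rw [← h1] at h2
    exact hr (P.red_unique hx h2)
  · obtain ⟨n, hn⟩ : ∃ n : ℕ, k = n := ⟨k.toNat, by omega⟩
    have h2 := P.red_pi_pow_mul (n := n) (by omega) hx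
    rw [← zpow_natCast, ← hn, h] at h2
    exact hs (P.red_unique hy h2)

/-- The ring of integral elements. -/
def O : Subring 𝒦 where
  carrier := {x | ∃ r, P.Red x r}
  mul_mem' := fun ⟨_, h⟩ ⟨_, h'⟩ => ⟨_, P.red_mul h h'⟩
  one_mem' := ⟨_, P.red_one⟩
  add_mem' := fun ⟨_, h⟩ ⟨_, h'⟩ => ⟨_, P.red_add h h'⟩
  zero_mem' := ⟨_, P.red_zero'⟩
  neg_mem' := fun ⟨_, h⟩ => ⟨_, P.red_neg h⟩

theorem mem_O : x ∈ P.O ↔ ∃ r, P.Red x r := Iff.rfl

/-- `x = 1 + π^j μ` with `red μ = r`. -/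
def Lead (j : ℕ) (x : 𝒦) (r : κ) : Prop := ∃ μ, P.Red μ r ∧ x = 1 + P.π ^ j * μ

variable {P} {j i : ℕ}

theorem lead_mk (j : ℕ) (hx : P.Red x r) : P.Lead j (1 + P.π ^ j * x) r := ⟨x, hx, rfl⟩

theorem Lead.congr (h : P.Lead j x r) (h1 : x = y) (h2 : r = s) : P.Lead j y s := by
  subst h1; subst h2; exact h

theorem Lead.red (hj : 1 ≤ j) (h : P.Lead j x r) : P.Red x 1 := by
  obtain ⟨μ, hμ, rfl⟩ := h
  simpa using P.red_add P.red_one (P.red_pi_pow_mul hj hμ)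

theorem Lead.ne_zero (hj : 1 ≤ j) (h : P.Lead j x r) : x ≠ 0 :=
  P.ne_zero_of_red (h.red hj) one_ne_zero

theorem Lead.unique (h : P.Lead j x r) (h' : P.Lead j x s) : r = s := by
  obtain ⟨μ, hμ, rfl⟩ := h
  obtain ⟨ν, hν, e⟩ := h'
  have : μ = ν := by
    have h1 : P.π ^ j * μ = P.π ^ j * ν := add_left_cancel e
    exact mul_left_cancel₀ (pow_ne_zero _ P.pi_ne) h1
  subst this
  exact P.red_unique hμ hν

theorem Lead.one (j : ℕ) : P.Lead j 1 0 := ⟨0, P.red_zero', by simp⟩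

theorem Lead.mul (hj : 1 ≤ j) (h : P.Lead j x r) (h' : P.Lead j y s) :
    P.Lead j (x * y) (r + s) := by
  obtain ⟨μ, hμ, rfl⟩ := h
  obtain ⟨ν, hν, rfl⟩ := h'
  refine ⟨μ + ν + P.π ^ j * (μ * ν), ?_, by ring⟩
  simpa using P.red_add (P.red_add hμ hν) (P.red_pi_pow_mul hj (P.red_mul hμ hν))

theorem Lead.inv (hj : 1 ≤ j) (h : P.Lead j x r) : P.Lead j x⁻¹ (-r) := by
  have hx1 := h.red hj
  have hx0 := h.ne_zero hj
  obtain ⟨μ, hμ, e⟩ := h
  refine ⟨-(μ * x⁻¹), ?_, ?_⟩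
  · have := P.red_neg (P.red_mul hμ (P.red_inv hx1 one_ne_zero))
    simpa using this
  · have h1 : x⁻¹ * (1 + P.π ^ j * μ) = 1 := by rw [← e, inv_mul_cancel₀ hx0]
    linear_combination h1

theorem Lead.div (hj : 1 ≤ j) (h : P.Lead j x r) (h' : P.Lead j y s) :
    P.Lead j (x / y) (r - s) := by
  rw [div_eq_mul_inv, sub_eq_add_neg]
  exact h.mul hj (h'.inv hj)

theorem Lead.pow (hj : 1 ≤ j) (h : P.Lead j x r) (n : ℕ) : P.Lead j (x ^ n) (n * r) := by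
  induction n with
  | zero => simpa using Lead.one (P := P) j
  | succ n ih =>
    rw [pow_succ]
    exact (ih.mul hj h).congr rfl (by push_cast; ring)

theorem Lead.succ_of_zero (h : P.Lead j x 0) : ∃ t, P.Lead (j + 1) x t := by
  obtain ⟨μ, hμ, rfl⟩ := h
  obtain ⟨ν, t, hν, rfl⟩ := P.red_zero hμ
  exact ⟨t, ν, hν, by ring⟩

theorem Lead.zero_of_lt (hij : i < j) (h : P.Lead j x r) : P.Lead i x 0 := by
  obtain ⟨μ, hμ, rfl⟩ := h
  refine ⟨P.π ^ (j - i) * μ, P.red_pi_pow_mul (by omega) hμ, ?_⟩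
  rw [← mul_assoc, ← pow_add]
  congr 3
  omega

theorem Lead.exists_of_le (hij : i ≤ j) (h : P.Lead j x r) : ∃ t, P.Lead i x t := by
  rcases hij.lt_or_eq with h1 | rfl
  · exact ⟨0, h.zero_of_lt h1⟩
  · exact ⟨r, h⟩

theorem Lead.of_red_one (h : P.Red x 1) : ∃ t, P.Lead 1 x t := by
  have h1 : P.Red (x - 1) 0 := by simpa using P.red_sub h P.red_one
  obtain ⟨ν, t, hν, e⟩ := P.red_zero h1
  exact ⟨t, ν, hν, by rw [pow_one, ← e]; ring⟩

end RedPkg

namespace OpPkg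

open RedPkg

variable {p : ℕ} (P : OpPkg 𝒦 κ p) {x y : 𝒦} {r s : κ} {j : ℕ}

theorem pi_pow_mem (n : ℕ) : P.π ^ n ∈ P.C := pow_mem P.pi_mem n

theorem pi_mem_F : P.π ∈ P.F := P.C_le_F P.pi_mem

/-- the coefficient `μ` of an element of a subfield containing `π`. -/
theorem lead_mem (L : Subfield 𝒦) (hπ : P.π ∈ L) (hx : x ∈ L) (h : P.Lead j x r) :
    ∃ μ ∈ L, P.Red μ r ∧ x = 1 + P.π ^ j * μ := by
  obtain ⟨μ, hμ, e⟩ := h
  refine ⟨μ, ?_, hμ, e⟩
  have h1 : μ = (x - 1) / P.π ^ j := by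
    rw [e, add_sub_cancel_left, mul_div_cancel_left₀ _ (pow_ne_zero _ P.pi_ne)]
  rw [h1]
  exact div_mem (sub_mem hx (one_mem _)) (pow_mem hπ _)

theorem lead_mem_κ0 (hx : x ∈ P.C) (h : P.Lead j x r) : r ∈ P.κ0 := by
  obtain ⟨μ, hμC, hμ, -⟩ := P.lead_mem P.C P.pi_mem hx h
  exact P.red_C hμC hμ

theorem lead_V (h : P.Lead j x r) : P.Lead j (P.V x) (P.Vb r) := by
  obtain ⟨μ, hμ, rfl⟩ := h
  exact ⟨P.V μ, P.red_V hμ, by simp [P.V_pi]⟩

theorem lead_s (h : P.Lead j x r) : P.Lead j (P.s x) (P.θ ^ j * r) := by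
  obtain ⟨μ, hμ, rfl⟩ := h
  refine ⟨P.tπ ^ j * P.s μ, P.red_mul (P.red_pow P.red_tπ j) (P.red_s hμ), ?_⟩
  simp only [map_add, map_one, map_mul, map_pow, P.s_pi]
  ring

section Prime

variable [hp : Fact p.Prime]

theorem one_le_e : 1 ≤ (p - 1) * P.d :=
  Nat.mul_pos (by have := hp.out.two_le; omega) P.d_pos

theorem red_p : P.Red (p : 𝒦) 0 := by
  rw [P.p_eq]
  simpa using P.red_mul P.red_up (P.red_pi_pow P.one_le_e)

theorem lead_Nm (hj : 1 ≤ j) (h : P.Lead j x r) : P.Lead j (P.Nm x) 0 := by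
  obtain ⟨μ, hμ, rfl⟩ := h
  obtain ⟨x', B, b, hx', hB, e⟩ := P.Nm_expand hj hμ
  refine ⟨P.π ^ (p * j - j) * x' + (p : 𝒦) * B, ?_, ?_⟩
  · have h2 : 1 ≤ p * j - j := by
      have := hp.out.two_le
      have : 2 * j ≤ p * j := Nat.mul_le_mul_right j this
      omega
    simpa using P.red_add (P.red_pi_pow_mul h2 hx') (P.red_mul P.red_p hB)
  · rw [e, mul_add, ← mul_assoc, ← pow_add]
    have : j + (p * j - j) = p * j := by
      have : j ≤ p * j := Nat.le_mul_of_pos_left j hp.out.pos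
      omega
    rw [this]
    ring

/-- `T W = V W * Nm W` on leading terms. -/
theorem lead_T (hj : 1 ≤ j) (h : P.Lead j x r) : P.Lead j (P.V x * P.Nm x) (P.Vb r) := by
  simpa using (P.lead_V h).mul hj (P.lead_Nm hj h)

variable [CharP κ p]

theorem mem_κ0_of_pow (h : r ^ p ∈ P.κ0) : r ∈ P.κ0 := by
  obtain ⟨t, ht, e⟩ := P.perfect h
  have : t = r := frobenius_inj κ p (by simpa [frobenius_def] using e)
  rwa [← this]

theorem thb_pow_p (r : κ) : P.thb (r ^ p) = 0 := by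
  rw [Derivation.leibniz_pow]
  simp [CharP.cast_eq_zero κ p, ← Nat.cast_smul_eq_nsmul κ]

theorem thb_Vb (r : κ) : P.thb (P.Vb r) = 0 := by
  obtain ⟨t, rfl⟩ := P.Fr_surj r
  rw [P.Vb_Fr, P.thb_pow_p]

end Prime

end OpPkg

end Fermat.Agent.S33.Good
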