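import Fermat.Agent.S33.Good.Pow

/-!
# S33 / Good / LemmaP : which `a g^p` are `≡ 1 mod π^j` (`0 < j < j* = p d`)

**LEMMA P.**  `a ∈ C`, `g ∈ F`, `a g^p = 1 + π^j μ`, `red μ = μb`, `0 < j < p d`.  Then either
`μb ∈ κ0`, or `j = p l` and, for some constant `c ≠ 0`, `c g = 1 + π^l y` with `red y = yb ∉ κ0`
and `μb - yb^p ∈ κ0`.

PROOF.
1. (`normalize`) `a, g ≠ 0` (`Lead.ne_zero`).  `pivot`: `g = π^n u`, `a = π^m a₀` with unit
   reductions `r`, `r₀` (`a₀ = a π^(-m) ∈ C`, so `r₀ ∈ κ0` by `red_C`).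
   `π^(m + p n) (a₀ u^p) = a g^p` reduces to `1`: `RedPkg.zpow_eq_zero` gives `m + p n = 0` and
   `r₀ r^p = 1`; so `r^p ∈ κ0`, `r ∈ κ0` (`mem_κ0_of_pow`); lift `r` to `c₁ ∈ C` (`lift_κ0`);
   `c := π^(-n) / c₁`; `Red (c g) 1`.
2. (`loop`) for `1 ≤ l ≤ j`: the conclusion holds, or there are `c ∈ C`, `c ≠ 0`, `yb` with
   `Lead l (c g) yb`.  Induction on `l` (`Nat.le_induction`); `l = 1` is `Lead.of_red_one`.
   Step `l → l+1` (`l < j`), `a' := a / c^p ∈ C`, `a' (c g)^p = a g^p`: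
   * `yb ∈ κ0`: lift to `b ∈ C`; `c' := c / (1 + π^l b)`; `Lead l (c' g) 0` (`Lead.div`),
     `Lead.succ_of_zero`.
   * `yb ∉ κ0`, `l < d`: `Lead (p l) ((c g)^p) (yb^p)` (`lead_pow_lt`).
       - `p l < j`: `Lead (p l) (a g^p) 0` (`Lead.zero_of_lt`), so `Lead (p l) a' (0 - yb^p)`
         (`Lead.div`), `lead_mem_κ0`, `mem_κ0_of_pow`: contradiction.
       - `p l = j`: `Lead j a' (μb - yb^p)`: second alternative.
       - `p l > j`: `Lead j ((c g)^p) 0`, `Lead j a' (μb - 0)`: `μb ∈ κ0`.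
   * `yb ∉ κ0`, `d ≤ l`: `lead_pow_ge`, `(p-1) d + l ≥ p d > j`: `Lead j ((c g)^p) 0`, `μb ∈ κ0`.
3. At `l = j`: `Lead j ((c g)^p) 0` (`lead_pow_succ`), so `Lead j a' μb`, `μb ∈ κ0`.
-/

set_option autoImplicit false

namespace Fermat.Agent.S33.Good

variable {𝒦 κ : Type*} [Field 𝒦] [Field κ]

namespace OpPkg

variable {p : ℕ} [Fact p.Prime] [CharP κ p] (P : OpPkg 𝒦 κ p)

theorem lemmaP_normalize {a g : 𝒦} (ha : a ∈ P.C) (hg : g ∈ P.F) (h : P.Red (a * g ^ p) 1) :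
    ∃ c ∈ P.C, c ≠ 0 ∧ P.Red (c * g) 1 := by
  have hne : a * g ^ p ≠ 0 := P.ne_zero_of_red h one_ne_zero
  have ha0 : a ≠ 0 := left_ne_zero_of_mul hne
  have hg0 : g ≠ 0 := fun h0 => by
    apply right_ne_zero_of_mul hne
    rw [h0, zero_pow (Fact.out : p.Prime).ne_zero]
  obtain ⟨n, u, r, hr, hu, hgu⟩ := P.pivot hg hg0
  obtain ⟨m, a₀, r₀, hr₀, ha₀, haa⟩ := P.pivot (P.C_le_F ha) ha0
  have hπz : ∀ k : ℤ, P.π ^ k ≠ 0 := fun k => zpow_ne_zero k P.pi_ne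
  have ha₀C : a₀ ∈ P.C := by
    have : a₀ = a / P.π ^ m := by rw [haa, mul_div_cancel_left₀ _ (hπz m)]
    rw [this]
    exact div_mem ha (zpow_mem P.pi_mem m)
  have hr₀κ : r₀ ∈ P.κ0 := P.red_C ha₀C ha₀
  have hprod : P.π ^ (m + p * n) * (a₀ * u ^ p) = a * g ^ p := by
    rw [haa, hgu, mul_pow, zpow_add₀ P.pi_ne, mul_comm (p : ℤ) n, zpow_mul, zpow_natCast]
    ring
  have hx : P.Red (a₀ * u ^ p) (r₀ * r ^ p) := P.red_mul ha₀ (P.red_pow hu p)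
  have hk : m + p * n = 0 :=
    P.zpow_eq_zero hx (mul_ne_zero hr₀ (pow_ne_zero p hr)) h one_ne_zero hprod
  rw [hk, zpow_zero, one_mul] at hprod
  have h1 : r₀ * r ^ p = 1 := P.red_unique (hprod ▸ hx) h
  have hrp : r ^ p ∈ P.κ0 := by
    have : r ^ p = r₀⁻¹ := eq_inv_of_mul_eq_one_right h1
    rw [this]
    exact inv_mem hr₀κ
  have hrκ : r ∈ P.κ0 := P.mem_κ0_of_pow hrp
  obtain ⟨c₁, hc₁C, hc₁⟩ := P.lift_κ0 hrκ
  have hc₁0 : c₁ ≠ 0 := P.ne_zero_of_red hc₁ hr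
  refine ⟨(P.π ^ n)⁻¹ / c₁, div_mem (inv_mem (zpow_mem P.pi_mem n)) hc₁C,
    div_ne_zero (inv_ne_zero (hπz n)) hc₁0, ?_⟩
  have e : (P.π ^ n)⁻¹ / c₁ * g = u / c₁ := by
    rw [hgu]
    field_simp [hπz n]
  rw [e]
  have := P.red_div hu hc₁ hr
  rwa [div_self hr] at this

omit [Fact p.Prime] [CharP κ p] in
theorem lemmaP_aux {i : ℕ} (hi : 1 ≤ i) {a g c : 𝒦} (ha : a ∈ P.C) (hc : c ∈ P.C) (hc0 : c ≠ 0)
    (hg0 : g ≠ 0) {s t : κ} (hX : P.Lead i (a * g ^ p) s) (hY : P.Lead i ((c * g) ^ p) t) :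
    s - t ∈ P.κ0 := by
  have e : a * g ^ p / (c * g) ^ p = a / c ^ p := by
    rw [mul_pow]
    field_simp
  have h := hX.div hi hY
  rw [e] at h
  exact P.lead_mem_κ0 (div_mem ha (pow_mem hc p)) h

theorem lemmaP {j : ℕ} (hj0 : 0 < j) (hj : j < p * P.d) {a g : 𝒦} {μb : κ} (ha : a ∈ P.C)
    (hg : g ∈ P.F) (h : P.Lead j (a * g ^ p) μb) :
    μb ∈ P.κ0 ∨ ∃ c ∈ P.C, c ≠ 0 ∧ ∃ (l : ℕ) (yb : κ), j = p * l ∧ P.Lead l (c * g) yb ∧
      yb ∉ P.κ0 ∧ μb - yb ^ p ∈ P.κ0 := by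
  have hp2 : 2 ≤ p := (Fact.out : p.Prime).two_le
  have hne : a * g ^ p ≠ 0 := h.ne_zero hj0
  have hg0 : g ≠ 0 := fun h0 => by
    apply right_ne_zero_of_mul hne
    rw [h0, zero_pow (Fact.out : p.Prime).ne_zero]
  have loop : ∀ l : ℕ, 1 ≤ l → l ≤ j →
      (μb ∈ P.κ0 ∨ ∃ c ∈ P.C, c ≠ 0 ∧ ∃ (l : ℕ) (yb : κ), j = p * l ∧ P.Lead l (c * g) yb ∧
        yb ∉ P.κ0 ∧ μb - yb ^ p ∈ P.κ0) ∨ ∃ c ∈ P.C, c ≠ 0 ∧ ∃ yb : κ, P.Lead l (c * g) yb := by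
    intro l hl
    induction l, hl using Nat.le_induction with
    | base =>
      intro _
      obtain ⟨c, hc, hc0, hred⟩ := P.lemmaP_normalize ha hg (h.red hj0)
      obtain ⟨t, ht⟩ := RedPkg.Lead.of_red_one hred
      exact Or.inr ⟨c, hc, hc0, t, ht⟩
    | succ l hl ih =>
      intro hlj
      rcases ih (by omega) with hC | ⟨c, hc, hc0, yb, hy⟩
      · exact Or.inl hC
      by_cases hyb : yb ∈ P.κ0
      · obtain ⟨b, hbC, hb⟩ := P.lift_κ0 hyb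
        have hL : P.Lead l (1 + P.π ^ l * b) yb := RedPkg.lead_mk l hb
        have hmem : 1 + P.π ^ l * b ∈ P.C := add_mem (one_mem _) (mul_mem (P.pi_pow_mem l) hbC)
        have hdiv := hy.div hl hL
        rw [sub_self] at hdiv
        obtain ⟨t, ht⟩ := hdiv.succ_of_zero
        refine Or.inr ⟨c / (1 + P.π ^ l * b), div_mem hc hmem,
          div_ne_zero hc0 (hL.ne_zero hl), t, ?_⟩
        rwa [div_mul_eq_mul_div]
      · left
        rcases lt_or_ge l P.d with hld | hld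
        · have hpow := P.lead_pow_lt hl hld hy
          have hpl : 1 ≤ p * l := Nat.mul_pos (by omega) hl
          rcases lt_trichotomy (p * l) j with h1 | h1 | h1
          · exfalso
            have h2 := P.lemmaP_aux hpl ha hc hc0 hg0 (h.zero_of_lt h1) hpow
            rw [zero_sub] at h2
            exact hyb (P.mem_κ0_of_pow (by simpa using neg_mem h2))
          · right
            refine ⟨c, hc, hc0, l, yb, h1.symm, hy, hyb, ?_⟩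
            exact P.lemmaP_aux hj0 ha hc hc0 hg0 h (h1 ▸ hpow)
          · left
            have h2 := P.lemmaP_aux hj0 ha hc hc0 hg0 h (hpow.zero_of_lt h1)
            rwa [sub_zero] at h2
        · left
          obtain ⟨t, ht⟩ := P.lead_pow_ge hld hy
          have hlt : j < (p - 1) * P.d + l := by
            have : (p - 1) * P.d + P.d = p * P.d := by
              obtain ⟨q, rfl⟩ : ∃ q, p = q + 1 := ⟨p - 1, by omega⟩
              simp [Nat.succ_mul]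
            omega
          have h2 := P.lemmaP_aux hj0 ha hc hc0 hg0 h (ht.zero_of_lt hlt)
          rwa [sub_zero] at h2
  rcases loop j hj0 le_rfl with hC | ⟨c, hc, hc0, yb, hy⟩
  · exact hC
  · left
    have h2 := P.lemmaP_aux hj0 ha hc hc0 hg0 h (P.lead_pow_succ hj0 hy)
    rwa [sub_zero] at h2

/-- In both cases `θ(μb) = 0`. -/
theorem lemmaP_thb {j : ℕ} (hj0 : 0 < j) (hj : j < p * P.d) {a g : 𝒦} {μb : κ} (ha : a ∈ P.C)
    (hg : g ∈ P.F) (h : P.Lead j (a * g ^ p) μb) : P.thb μb = 0 := by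
  rcases P.lemmaP hj0 hj ha hg h with h1 | ⟨c, -, -, l, yb, -, -, -, h1⟩
  · exact P.thb_κ0 h1
  · have h2 := P.thb_κ0 h1
    rwa [map_sub, P.thb_pow_p, sub_zero] at h2

/-- If `p ∤ j` then `μb` is a constant. -/
theorem lemmaP_of_not_dvd {j : ℕ} (hj0 : 0 < j) (hj : j < p * P.d) (hpj : ¬ p ∣ j) {a g : 𝒦}
    {μb : κ} (ha : a ∈ P.C) (hg : g ∈ P.F) (h : P.Lead j (a * g ^ p) μb) : μb ∈ P.κ0 := by
  rcases P.lemmaP hj0 hj ha hg h with h1 | ⟨c, -, -, l, yb, h1, -⟩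
  · exact h1
  · exact absurd ⟨l, h1⟩ hpj

end OpPkg

end Fermat.Agent.S33.Good
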