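import Fermat.Agent.S33.Good.Lead

/-!
# S33 / Good / Pow : `p`-th powers of `1 + π^l y`

`e = (p-1) d = v(p)`, `j* = p d`.

PROOF SKETCHES.
* `pow_p_expand_poly` : `exists_add_pow_prime_eq` in `ℤ[X]` gives `(1+X)^p = 1 + X^p + p*1*X*r`;
  comparing the coefficients of `X^1` (or: derivative at `0`) gives `r(0) = 1`, so `r = 1 + X g`
  (`Polynomial.X_dvd_sub_C` / `X_dvd_iff`).
* `pow_p_expand` : evaluate `pow_p_expand_poly` at `y` (`Polynomial.aeval`); `aeval y g` is integral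
  because `P.O` is a subring (`Polynomial.aeval_mem`-type induction, or evaluate in `↥P.O`).
* `lead_pow_lt`  : `x = 1 + π^l μ`; `x^p = 1 + π^(pl) μ^p + up π^(e+l) μ (1 + ..)`, `e + l > p l`.
* `lead_pow_gt`  : the same with `p l > e + l`; the leading term is `up μ`.
* `lead_pow_ge`  : `p l ≥ e + l`.
* `lead_pow_succ`: `Lead.pow` and `(p : κ) = 0`.
-/

set_option autoImplicit false

open Polynomial

namespace Fermat.Agent.S33.Good

theorem pow_p_expand_poly (p : ℕ) [Fact p.Prime] :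
    ∃ g : ℤ[X], (1 + X) ^ p = 1 + X ^ p + (p : ℤ[X]) * X * (1 + X * g) := by
  have hp : p.Prime := Fact.out
  obtain ⟨r, hr⟩ := exists_add_pow_prime_eq hp (1 : ℤ[X]) X
  have h1 := congrArg (fun f : ℤ[X] => f.coeff 1) hr
  have h2 : ((p : ℤ[X]) * 1 * X * r).coeff 1 = (p : ℤ) * r.coeff 0 := by
    have : (p : ℤ[X]) * 1 * X * r = C (p : ℤ) * (X * r) := by
      rw [mul_one, mul_assoc]
      simp
    rw [this, coeff_C_mul, show (1 : ℕ) = 0 + 1 from rfl, coeff_X_mul]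
  have h3 : ((1 : ℤ[X]) ^ p + X ^ p).coeff 1 = 0 := by
    rw [one_pow, coeff_add, coeff_one, coeff_X_pow, if_neg (by norm_num), if_neg hp.one_lt.ne,
      add_zero]
  have h4 : ((1 + X : ℤ[X]) ^ p).coeff 1 = (p : ℤ) := by
    rw [coeff_one_add_X_pow, Nat.choose_one_right]
  rw [coeff_add, h2, h3, h4, zero_add] at h1
  have hp0 : (p : ℤ) ≠ 0 := by exact_mod_cast hp.ne_zero
  have h5 : r.coeff 0 = 1 := by
    have : (p : ℤ) * r.coeff 0 = (p : ℤ) * 1 := by rw [← h1, mul_one]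
    exact mul_left_cancel₀ hp0 this
  refine ⟨r.divX, ?_⟩
  have h6 : r = 1 + X * r.divX := by
    conv_lhs => rw [← divX_mul_X_add r, h5]
    simp [add_comm, mul_comm]
  rw [hr, ← h6]
  ring

variable {𝒦 κ : Type*} [Field 𝒦] [Field κ]

theorem RedPkg.pow_p_expand (P : RedPkg 𝒦 κ) (p : ℕ) [Fact p.Prime] {y : 𝒦} {r : κ}
    (hy : P.Red y r) :
    ∃ (g : 𝒦) (t : κ), P.Red g t ∧ (1 + y) ^ p = 1 + y ^ p + (p : 𝒦) * y * (1 + y * g) := by
  obtain ⟨g, hg⟩ := pow_p_expand_poly p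
  let yO : P.O := ⟨y, r, hy⟩
  have h1 := congrArg (fun f : ℤ[X] => ((aeval yO f : P.O) : 𝒦)) hg
  obtain ⟨t, ht⟩ := (aeval yO g : P.O).2
  refine ⟨((aeval yO g : P.O) : 𝒦), t, ht, ?_⟩
  simpa [yO] using h1

namespace OpPkg

variable {p : ℕ} [Fact p.Prime] (P : OpPkg 𝒦 κ p) {x : 𝒦} {r : κ} {l : ℕ}

theorem pow_expand_aux (h : P.Lead l x r) :
    ∃ (μ g : 𝒦) (t : κ), P.Red μ r ∧ P.Red g t ∧
      x ^ p = 1 + P.π ^ (p * l) * μ ^ p +
        P.π ^ ((p - 1) * P.d + l) * (P.up * μ * (1 + P.π ^ l * μ * g)) := by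
  obtain ⟨μ, hμ, rfl⟩ := h
  obtain ⟨g, t, hg, e⟩ := P.toRedPkg.pow_p_expand p (P.red_mul (P.red_pow P.red_pi l) hμ)
  refine ⟨μ, g, t, hμ, hg, ?_⟩
  rw [e, P.p_eq, mul_pow, ← pow_mul, mul_comm l p, pow_add]
  ring

theorem lead_pow_lt (hl : 1 ≤ l) (hld : l < P.d) (h : P.Lead l x r) :
    P.Lead (p * l) (x ^ p) (r ^ p) := by
  have hp : p.Prime := Fact.out
  obtain ⟨μ, g, t, hμ, hg, e⟩ := P.pow_expand_aux h
  obtain ⟨q, hq⟩ : ∃ q, p = q + 1 := ⟨p - 1, by have := hp.two_le; omega⟩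
  have hq0 : 1 ≤ q := by have := hp.two_le; omega
  have hq1 : p - 1 = q := by omega
  have e2 : p * l = q * l + l := by rw [hq]; ring
  have e3 : q * (l + 1) ≤ q * P.d := Nat.mul_le_mul_left q hld
  have e4 : q * (l + 1) = q * l + q := by ring
  obtain ⟨k, hk, hk1⟩ : ∃ k, (p - 1) * P.d + l = p * l + k ∧ 1 ≤ k := by
    refine ⟨(p - 1) * P.d + l - p * l, ?_, ?_⟩
    · rw [hq1, e2]; omega
    · rw [hq1, e2]; omega
  refine ⟨μ ^ p + P.π ^ k * (P.up * μ * (1 + P.π ^ l * μ * g)), ?_, ?_⟩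
  · have h1 := P.red_mul (P.red_mul P.red_up hμ)
      (P.red_add P.red_one (P.red_mul (P.red_mul (P.red_pow P.red_pi l) hμ) hg))
    simpa using P.red_add (P.red_pow hμ p) (P.red_pi_pow_mul hk1 h1)
  · rw [e, hk, pow_add]
    ring

theorem lead_pow_gt (hld : P.d < l) (h : P.Lead l x r) :
    P.Lead ((p - 1) * P.d + l) (x ^ p) (P.upb * r) := by
  have hp : p.Prime := Fact.out
  have hl : 1 ≤ l := by omega
  obtain ⟨μ, g, t, hμ, hg, e⟩ := P.pow_expand_aux h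
  obtain ⟨q, hq⟩ : ∃ q, p = q + 1 := ⟨p - 1, by have := hp.two_le; omega⟩
  have hq0 : 1 ≤ q := by have := hp.two_le; omega
  have hq1 : p - 1 = q := by omega
  have e2 : p * l = q * l + l := by rw [hq]; ring
  have e3 : q * (P.d + 1) ≤ q * l := Nat.mul_le_mul_left q hld
  have e4 : q * (P.d + 1) = q * P.d + q := by ring
  obtain ⟨k, hk, hk1⟩ : ∃ k, p * l = (p - 1) * P.d + l + k ∧ 1 ≤ k := by
    refine ⟨p * l - ((p - 1) * P.d + l), ?_, ?_⟩
    · rw [hq1, e2]; omega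
    · rw [hq1, e2]; omega
  refine ⟨P.up * μ * (1 + P.π ^ l * μ * g) + P.π ^ k * μ ^ p, ?_, ?_⟩
  · have h1 := P.red_mul (P.red_mul P.red_up hμ)
      (P.red_add P.red_one (P.red_mul (P.red_pi_pow_mul hl hμ) hg))
    simpa using P.red_add h1 (P.red_pi_pow_mul hk1 (P.red_pow hμ p))
  · rw [e, hk, pow_add]
    ring

theorem lead_pow_ge (hld : P.d ≤ l) (h : P.Lead l x r) :
    ∃ t, P.Lead ((p - 1) * P.d + l) (x ^ p) t := by
  have hp : p.Prime := Fact.out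
  obtain ⟨μ, g, t, hμ, hg, e⟩ := P.pow_expand_aux h
  obtain ⟨q, hq⟩ : ∃ q, p = q + 1 := ⟨p - 1, by have := hp.two_le; omega⟩
  have hq1 : p - 1 = q := by omega
  have e2 : p * l = q * l + l := by rw [hq]; ring
  have e3 : q * P.d ≤ q * l := Nat.mul_le_mul_left q hld
  obtain ⟨k, hk⟩ : ∃ k, p * l = (p - 1) * P.d + l + k := by
    refine ⟨p * l - ((p - 1) * P.d + l), ?_⟩
    rw [hq1, e2]; omega
  have h1 := P.red_mul (P.red_mul P.red_up hμ)
    (P.red_add P.red_one (P.red_mul (P.red_mul (P.red_pow P.red_pi l) hμ) hg))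
  have h2 := P.red_mul (P.red_pow P.red_pi k) (P.red_pow hμ p)
  refine ⟨_, P.up * μ * (1 + P.π ^ l * μ * g) + P.π ^ k * μ ^ p, P.red_add h1 h2, ?_⟩
  rw [e, hk, pow_add]
  ring

theorem lead_pow_succ [CharP κ p] (hl : 1 ≤ l) (h : P.Lead l x r) : P.Lead l (x ^ p) 0 :=
  (RedPkg.Lead.pow hl h p).congr rfl (by rw [CharP.cast_eq_zero κ p, zero_mul])

end OpPkg

end Fermat.Agent.S33.Good
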