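import Mathlib

/-!
# S33 / Good / PthPower : `L ∩ D = L^p` for a function field `L` of one variable (pure field theory)

`κ` a field of characteristic `p`; `k₀ ⊆ E = k₀(x) ⊆ L ⊆ κ` subfields, `k₀` perfect, `L` spanned over `E`
by finitely many elements; `D ⊆ κ` a subfield containing all `p`-th powers, such that
`1, x, …, x^(p-1)` are linearly independent over `D`.  Then every `r ∈ L ∩ D` is a `p`-th power in `L`.
(In the application `κ = k((q))`, `D = ker (q d/dq)`, `x = j`.)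

PROOF.  `E₂ := {e^p : e ∈ E}` is a subfield of `κ` (image of `E` under Frobenius, `Subfield.map (frobenius κ p)`).
1. `E` is spanned over `E₂` by `1, x, …, x^(p-1)`:  the set `S = {∑_{k<p} c_k x^k : c_k ∈ E₂}` is a subring
   (`x^p ∈ E₂`), contains `k₀` (perfect: `c = b^p`) and `x`, and is a field (a domain which is a finite dimensional
   `E₂`-vector space; or: `x` is algebraic over `E₂`, `Algebra.adjoin E₂ {x}` is a field:
   `IntermediateField.adjoin_simple_toSubalgebra_of_integral`, and `Algebra.adjoin`-elements are polynomials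
   in `x`, reduce mod `X^p - x^p` by `Polynomial.modByMonic`).  So `E ⊆ S`.
2. Choose an `E`-basis `b_1..b_n` of `L` (extract from the spanning family; `L` as a `Submodule ↥E κ`).
   `{b_i x^k}` spans `L` over `E₂`, so `dim_{E₂} L ≤ n p`.
3. `{b_i^p x^k}` (`i ≤ n`, `k < p`) is linearly independent over `E₂`: if `∑ c_{ik} b_i^p x^k = 0`, `c_{ik} = e_{ik}^p`, then
   `∑_k (∑_i e_{ik} b_i)^p x^k = 0` (`sum_pow_char`), the coefficients are `p`-th powers, so lie in `D`;
   by `hind` they vanish; so `∑_i e_{ik} b_i = 0`, `e_{ik} = 0`.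
4. `n p` independent vectors in a space of dimension `≤ n p` span it
   (`LinearIndependent.span_eq_top_of_card_eq_finrank'` or `linearIndependent_iff_card_eq_finrank_span`).
   So `r = ∑_k t_k^p x^k`, `t_k = ∑_i e_{ik} b_i ∈ L`.
5. If `r ∈ D`: `(r - t_0^p) + ∑_{k ≥ 1} (-t_k^p) x^k = 0` with coefficients in `D`; `hind`: `r = t_0^p`.
-/

set_option autoImplicit false

namespace Fermat.Agent.S33

open Polynomial in
/-- Step 1: `E ⊆ ∑_{k<p} E₂ x^k` as soon as `E ⊆ E₂(x)` and `x^p ∈ E₂`. -/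
theorem PthPower_step1 {κ : Type*} [Field κ] (p : ℕ) (hp : p ≠ 0) (E₂ : Subfield κ) (x : κ)
    (hxp : x ^ p ∈ E₂) (e : κ) (he : e ∈ IntermediateField.adjoin E₂ {x}) :
    ∃ d : Fin p → κ, (∀ k, d k ∈ E₂) ∧ e = ∑ k, d k * x ^ (k : ℕ) := by
  set g : E₂[X] := X ^ p - C ⟨x ^ p, hxp⟩ with hg
  have hmon : g.Monic := monic_X_pow_sub_C _ hp
  have hroot : aeval x g = 0 := by
    rw [hg, map_sub, map_pow, aeval_X, aeval_C]
    exact sub_self _
  have hint : IsIntegral E₂ x := ⟨g, hmon, hroot⟩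
  have he' : e ∈ (IntermediateField.adjoin E₂ {x}).toSubalgebra := he
  rw [IntermediateField.adjoin_simple_toSubalgebra_of_isAlgebraic hint.isAlgebraic,
    Algebra.adjoin_singleton_eq_range_aeval] at he'
  obtain ⟨q, rfl⟩ := he'
  have hdeg : (q %ₘ g).natDegree < p := by
    have h1 : g.natDegree = p := natDegree_X_pow_sub_C
    have h2 : g ≠ 1 := by
      intro h
      rw [h, natDegree_one] at h1
      exact hp h1.symm
    have := natDegree_modByMonic_lt q hmon h2
    rwa [h1] at this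
  refine ⟨fun k => (((q %ₘ g).coeff k : E₂) : κ), fun k => Subtype.property _, ?_⟩
  have h3 : aeval x q = aeval x (q %ₘ g) := (aeval_modByMonic_eq_self_of_root hroot).symm
  show aeval x q = _
  rw [h3, aeval_eq_sum_range' hdeg, Finset.sum_range]
  rfl

/-- Steps 2-4 for an `E`-basis `b` of `L`. -/
theorem PthPower_span {κ : Type*} [Field κ] (p : ℕ) [Fact p.Prime] [CharP κ p]
    (E L D E₂ : Subfield κ) (x : κ) (hxE : x ∈ E) (hEL : E ≤ L)
    (memE₂ : ∀ c, c ∈ E₂ ↔ ∃ e ∈ E, e ^ p = c)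
    (step1 : ∀ e ∈ E, ∃ d : Fin p → κ, (∀ k, d k ∈ E₂) ∧ e = ∑ k, d k * x ^ (k : ℕ))
    (hD : ∀ y : κ, y ^ p ∈ D)
    (hind : ∀ c : Fin p → κ, (∀ i, c i ∈ D) → ∑ i, c i * x ^ (i : ℕ) = 0 → ∀ i, c i = 0)
    (n : ℕ) (b : Fin n → κ) (hbL : ∀ i, b i ∈ L) (hbind : LinearIndependent E b)
    (hbspan : ∀ y ∈ L, ∃ c : Fin n → κ, (∀ i, c i ∈ E) ∧ y = ∑ i, c i * b i)
    (r : κ) (hr : r ∈ L) :
    ∃ t : Fin p → κ, (∀ k, t k ∈ L) ∧ r = ∑ k, t k ^ p * x ^ (k : ℕ) := by
  classical
  set u : Fin n × Fin p → κ := fun ik => b ik.1 * x ^ (ik.2 : ℕ) with hu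
  set v : Fin n × Fin p → κ := fun ik => b ik.1 ^ p * x ^ (ik.2 : ℕ) with hv
  set W : Submodule E₂ κ := Submodule.span E₂ (Set.range u) with hW
  have hLW : ∀ y ∈ L, y ∈ W := by
    intro y hy
    obtain ⟨c, hc, rfl⟩ := hbspan y hy
    refine Submodule.sum_mem _ fun i _ => ?_
    obtain ⟨d, hd, hcd⟩ := step1 (c i) (hc i)
    rw [hcd, Finset.sum_mul]
    refine Submodule.sum_mem _ fun k _ => ?_
    have h1 : d k * x ^ (k : ℕ) * b i = (⟨d k, hd k⟩ : E₂) • u (i, k) := by
      rw [Subfield.smul_def, hu]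
      simp only [smul_eq_mul]
      ring
    rw [h1]
    exact Submodule.smul_mem _ _ (Submodule.subset_span ⟨(i, k), rfl⟩)
  have hvL : ∀ ik, v ik ∈ L := fun ik =>
    L.mul_mem (L.pow_mem (hbL ik.1) p) (L.pow_mem (hEL hxE) _)
  have hvind : LinearIndependent E₂ v := by
    rw [Fintype.linearIndependent_iff]
    intro g hg
    have hch : ∀ ik, ∃ e ∈ E, e ^ p = (g ik : κ) := fun ik => (memE₂ _).1 (g ik).2
    choose e heE he using hch
    have h1 : ∑ k : Fin p, (∑ i : Fin n, e (i, k) * b i) ^ p * x ^ (k : ℕ) = 0 := by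
      rw [← hg, Fintype.sum_prod_type_right]
      refine Finset.sum_congr rfl fun k _ => ?_
      rw [sum_pow_char, Finset.sum_mul]
      refine Finset.sum_congr rfl fun i _ => ?_
      rw [Subfield.smul_def, ← he, hv]
      simp only [smul_eq_mul]
      ring
    have h2 := hind (fun k => (∑ i : Fin n, e (i, k) * b i) ^ p) (fun k => hD _) h1
    intro ik
    have h3 : ∑ i : Fin n, e (i, ik.2) * b i = 0 := pow_eq_zero_iff (Fact.out : p.Prime).ne_zero |>.1 (h2 ik.2)
    have h4 := Fintype.linearIndependent_iff.1 hbind (fun i => (⟨e (i, ik.2), heE _⟩ : E)) (by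
      rw [← h3]
      refine Finset.sum_congr rfl fun i _ => ?_
      rw [Subfield.smul_def]
      rfl) ik.1
    have h5 : e (ik.1, ik.2) = 0 := congrArg Subtype.val h4
    apply Subtype.ext
    rw [← he, show ik = (ik.1, ik.2) from rfl, h5, zero_pow (Fact.out : p.Prime).ne_zero]
    rfl
  have hfd : FiniteDimensional E₂ W := FiniteDimensional.span_of_finite E₂ (Set.finite_range u)
  have hle : Submodule.span E₂ (Set.range v) ≤ W := by
    rw [Submodule.span_le]
    rintro _ ⟨ik, rfl⟩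
    exact hLW _ (hvL ik)
  have hrank : Module.finrank E₂ W ≤ Module.finrank E₂ (Submodule.span E₂ (Set.range v)) := by
    rw [finrank_span_eq_card hvind]
    exact finrank_range_le_card u
  have heq := Submodule.eq_of_le_of_finrank_le hle hrank
  have hrW : r ∈ Submodule.span E₂ (Set.range v) := by
    rw [heq]
    exact hLW r hr
  obtain ⟨g, hg⟩ := (Submodule.mem_span_range_iff_exists_fun E₂).1 hrW
  have hch : ∀ ik, ∃ e ∈ E, e ^ p = (g ik : κ) := fun ik => (memE₂ _).1 (g ik).2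
  choose e heE he using hch
  refine ⟨fun k => ∑ i : Fin n, e (i, k) * b i,
    fun k => L.sum_mem fun i _ => L.mul_mem (hEL (heE _)) (hbL i), ?_⟩
  rw [← hg, Fintype.sum_prod_type_right]
  refine Finset.sum_congr rfl fun k _ => ?_
  rw [sum_pow_char, Finset.sum_mul]
  refine Finset.sum_congr rfl fun i _ => ?_
  rw [Subfield.smul_def, ← he, hv]
  simp only [smul_eq_mul]
  ring

theorem pth_power {κ : Type*} [Field κ] (p : ℕ) [Fact p.Prime] [CharP κ p]
    (k₀ E L D : Subfield κ) (x : κ)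
    (hperf : ∀ c ∈ k₀, ∃ b ∈ k₀, b ^ p = c)
    (hE : E = Subfield.closure ((k₀ : Set κ) ∪ {x}))
    (hEL : E ≤ L)
    (hD : ∀ y : κ, y ^ p ∈ D)
    (hind : ∀ c : Fin p → κ, (∀ i, c i ∈ D) → ∑ i, c i * x ^ (i : ℕ) = 0 → ∀ i, c i = 0)
    (hfin : ∃ (n : ℕ) (b : Fin n → κ), (∀ i, b i ∈ L) ∧
      ∀ y ∈ L, ∃ c : Fin n → κ, (∀ i, c i ∈ E) ∧ y = ∑ i, c i * b i) :
    ∀ r ∈ L, r ∈ D → ∃ t ∈ L, t ^ p = r := by
  classical
  have hp : p.Prime := Fact.out
  have hxE : x ∈ E := by
    rw [hE]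
    exact Subfield.subset_closure (Or.inr rfl)
  have hk₀E : ∀ c ∈ k₀, c ∈ E := by
    intro c hc
    rw [hE]
    exact Subfield.subset_closure (Or.inl hc)
  set E₂ : Subfield κ := E.map (frobenius κ p) with hE₂
  have memE₂ : ∀ c, c ∈ E₂ ↔ ∃ e ∈ E, e ^ p = c := by
    intro c
    rw [hE₂, Subfield.mem_map]
    rfl
  have hxp : x ^ p ∈ E₂ := (memE₂ _).2 ⟨x, hxE, rfl⟩
  have hle : E ≤ (IntermediateField.adjoin E₂ {x}).toSubfield := by
    rw [hE, Subfield.closure_le]
    rintro y (hy | rfl)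
    · obtain ⟨b, hb, rfl⟩ := hperf y hy
      exact IntermediateField.algebraMap_mem _ (⟨b ^ p, (memE₂ _).2 ⟨b, hk₀E b hb, rfl⟩⟩ : E₂)
    · exact IntermediateField.mem_adjoin_simple_self _ _
  have step1 : ∀ e ∈ E, ∃ d : Fin p → κ, (∀ k, d k ∈ E₂) ∧ e = ∑ k, d k * x ^ (k : ℕ) :=
    fun e he => PthPower_step1 p hp.ne_zero E₂ x hxp e (hle he)
  -- an `E`-basis of `L`
  obtain ⟨n₀, b₀, hb₀L, hb₀⟩ := hfin
  let LL : Submodule E κ :=
    { carrier := L
      add_mem' := fun ha hb => L.add_mem ha hb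
      zero_mem' := L.zero_mem
      smul_mem' := fun c y hy => L.mul_mem (hEL c.2) hy }
  have hLL : LL = Submodule.span E (Set.range b₀) := by
    apply le_antisymm
    · intro y hy
      obtain ⟨c, hc, rfl⟩ := hb₀ y hy
      refine Submodule.sum_mem _ fun i _ => ?_
      have : c i * b₀ i = (⟨c i, hc i⟩ : E) • b₀ i := by
        rw [Subfield.smul_def]
        rfl
      rw [this]
      exact Submodule.smul_mem _ _ (Submodule.subset_span ⟨i, rfl⟩)
    · rw [Submodule.span_le]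
      rintro _ ⟨i, rfl⟩
      exact hb₀L i
  have hfd : FiniteDimensional E LL := by
    rw [hLL]
    exact FiniteDimensional.span_of_finite E (Set.finite_range b₀)
  let B := Module.finBasis E LL
  have hbind : LinearIndependent E (fun i => ((B i : LL) : κ)) :=
    B.linearIndependent.map' LL.subtype (Submodule.ker_subtype _)
  have hbspan : ∀ y ∈ L, ∃ c : Fin (Module.finrank E LL) → κ, (∀ i, c i ∈ E) ∧
      y = ∑ i, c i * ((B i : LL) : κ) := by
    intro y hy
    refine ⟨fun i => ((B.repr ⟨y, hy⟩ i : E) : κ), fun i => Subtype.property _, ?_⟩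
    have h1 := congrArg LL.subtype (B.sum_repr ⟨y, hy⟩)
    rw [map_sum] at h1
    exact h1.symm
  intro r hr hrD
  obtain ⟨t, htL, hrt⟩ := PthPower_span p E L D E₂ x hxE hEL memE₂ step1 hD hind _
    (fun i => ((B i : LL) : κ)) (fun i => (B i).2) hbind hbspan r hr
  have h0 : (0 : ℕ) < p := hp.pos
  refine ⟨t ⟨0, h0⟩, htL _, ?_⟩
  have h2 := hind (fun k => t k ^ p - if k = ⟨0, h0⟩ then r else 0) (fun k => by
    refine D.sub_mem (hD _) ?_
    split_ifs
    · exact hrD
    · exact D.zero_mem) (by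
    simp only [sub_mul, Finset.sum_sub_distrib, ite_mul, zero_mul, Finset.sum_ite_eq',
      Finset.mem_univ, if_true, pow_zero, mul_one]
    rw [← hrt, sub_self]) ⟨0, h0⟩
  simp only [if_true] at h2
  exact sub_eq_zero.1 h2

end Fermat.Agent.S33
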