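import Fermat.Agent.S33.Calc.Red
import Fermat.Agent.S33.Good.Lead
import Fermat.Agent.S17.Curve.IsFF

/-!
# S33 / Good / ResF : the residue field of the Gauss valuation on `F_K` is finite over `k(j)`

`R` a DVR, `K = Frac R`, `k` the residue field, `F_K = modularFunctionFieldFullC K M ⊆ K((q))`.
`resF M = {red f : f ∈ F_K Gauss-integral} ⊆ k((q))`.

**Theorem (`resF_fin`, fundamental inequality).**  `resF M` is spanned over `k(j̄)` by finitely many elements.

PROOF.  Write `ι = algebraMap R K`, `E = K(j) ⊆ F_K`, `Ē = k(j̄) = Subfield.closure (range C ∪ {jqModC k})`.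
0. `n := [F_K : K(j)] < ∞` : the proof of `S17.isFF_fullC` shows `FiniteDimensional K⟮y⟯ F_K` for
   `y = ⟨jqModC K, _⟩` (copy it: `IsFFAux.finiteDimensional_of_generators`, `IsFFAux.isIntegral_jd`).
1. (`gauss_E`)  if `c ∈ K(j)` and `Red0 ι c r` then `r ∈ Ē`.   `c = P(j)/Q(j)`, `P Q ∈ K[X]`
   (`IntermediateField.mem_adjoin_simple_iff`); scale: `P = a P₁`, `Q = b Q₁`, `a b ∈ K^×`, `P₁ Q₁ ∈ R[X]` with
   nonzero reduction mod `ϖ` (clear denominators, divide by the content; DVR).  `P₁(j) = coeffMap ι (P₁(j_R))`,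
   `j_R = jqModC R`, with reduction `P̄₁(j̄) ≠ 0` (`S28.transcendental_jqModC`, `coeffMap_jqModC`).  So
   `Red0 ι (P₁(j)/Q₁(j)) (P̄₁(j̄)/Q̄₁(j̄))`, a nonzero element of `Ē`; `c = (a/b) * that`, so `Red0 ι (C (a/b)) (..)`,
   `Red0.const`: `a/b = ι a'`, `r = C (rs a') * P̄₁(j̄)/Q̄₁(j̄) ∈ Ē`.
2. (`pivot_F`)  every `f ∈ F_K`, `f ≠ 0`, is `C (ι ϖ)^m * u` with `Red0 ι u s`, `s ≠ 0`:  `F_K ≤ fracField ι`
   (closure induction: constants are `ι a / ι b`, `IsFractionRing.div_surjective`; the generators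
   `qExpand K d (jqModC K) = coeffMap ι (qExpand R d (jqModC R))`), then `Red0.pivot`.
3. If `r_0, …, r_n ∈ resF` then they are linearly dependent over `Ē`:  lift to `f_i ∈ F_K`, `Red0 ι f_i r_i`; there are
   `c_i ∈ K(j)`, not all zero, with `∑ c_i f_i = 0`; write the nonzero `c_i = ϖ^{m_i} u_i` (step 2), divide by
   `ϖ^{min m_i}`: now all `c_i` are Gauss-integral, `Red0 ι c_i s_i`, some `s_i ≠ 0`, `s_i ∈ Ē` (step 1); reduce
   (`Red0.add`, `Red0.mul`, `Red0.unique` against `Red0 0 0`): `∑ s_i r_i = 0`.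
4. Linear algebra: view `resF` as a `Submodule ↥Ē (k((q)))`; `rank ≤ n` by `rank_le` (step 3), so it is finite dimensional;
   take a finite basis / spanning family.
-/

set_option autoImplicit false

open AlgebraicCurve ModularCurve

namespace Fermat.Agent.S33

open Fermat.Agent.ES Fermat.Agent.S33.Calc

noncomputable section

/-! ### the abstract fundamental inequality -/

section AbstractFI

variable {𝕂 κ : Type*} [Field 𝕂] [Field κ] (P : Good.RedPkg 𝕂 κ)

theorem ResF_red_sum {ι : Type*} (s : Finset ι) (f : ι → 𝕂) (r : ι → κ)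
    (h : ∀ i ∈ s, P.Red (f i) (r i)) : P.Red (∑ i ∈ s, f i) (∑ i ∈ s, r i) := by
  classical
  induction s using Finset.induction_on with
  | empty => simpa using P.red_zero'
  | insert a s ha ih =>
    rw [Finset.sum_insert ha, Finset.sum_insert ha]
    exact P.red_add (h a (Finset.mem_insert_self a s))
      (ih fun i hi => h i (Finset.mem_insert_of_mem hi))

/-- a linear relation over `E` between integral elements reduces to a nontrivial linear relation. -/
theorem ResF_dependent (E : Subfield 𝕂) (Eb : Subfield κ) (hπ : P.π ∈ E)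
    (hpiv : ∀ c ∈ E, c ≠ 0 → ∃ (m : ℤ) (u : 𝕂) (s : κ), s ≠ 0 ∧ P.Red u s ∧ c = P.π ^ m * u)
    (hEb : ∀ c ∈ E, ∀ r, P.Red c r → r ∈ Eb)
    {ι : Type*} [Fintype ι] (f : ι → 𝕂) (r : ι → κ) (hfr : ∀ i, P.Red (f i) (r i))
    (c : ι → 𝕂) (hc : ∀ i, c i ∈ E) (i₀ : ι) (hc0 : c i₀ ≠ 0) (hsum : ∑ i, c i * f i = 0) :
    ∃ s : ι → κ, (∀ i, s i ∈ Eb) ∧ (∃ i, s i ≠ 0) ∧ ∑ i, s i * r i = 0 := by
  classical
  have hex : ∀ i, ∃ (m : ℤ) (u : 𝕂) (t : κ), c i ≠ 0 → (t ≠ 0 ∧ P.Red u t ∧ c i = P.π ^ m * u) := by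
    intro i
    by_cases h : c i = 0
    · exact ⟨0, 0, 0, fun h' => absurd h h'⟩
    · obtain ⟨m, u, t, h1⟩ := hpiv (c i) (hc i) h
      exact ⟨m, u, t, fun _ => h1⟩
  choose m u t hmut using hex
  obtain ⟨i₁, hi₁, hmin⟩ := Finset.exists_min_image (Finset.univ.filter fun i => c i ≠ 0) m
    ⟨i₀, by simp [hc0]⟩
  have hi₁' : c i₁ ≠ 0 := by simpa using hi₁
  have key : ∀ i, ∃ s : κ, P.Red (P.π ^ (-(m i₁)) * c i) s ∧ (i = i₁ → s ≠ 0) := by
    intro i
    by_cases h : c i = 0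
    · refine ⟨0, by rw [h, mul_zero]; exact P.red_zero', ?_⟩
      rintro rfl
      exact absurd h hi₁'
    · obtain ⟨h1, h2, h3⟩ := hmut i h
      have hle : m i₁ ≤ m i := hmin i (by simp [h])
      obtain ⟨k, hk⟩ : ∃ k : ℕ, m i - m i₁ = k := ⟨(m i - m i₁).toNat, by omega⟩
      have e : P.π ^ (-(m i₁)) * c i = P.π ^ k * u i := by
        rw [h3, ← mul_assoc, ← zpow_add₀ P.pi_ne, ← zpow_natCast, ← hk]
        congr 2
        ring
      refine ⟨0 ^ k * t i, by rw [e]; exact P.red_mul (P.red_pow P.red_pi k) h2, ?_⟩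
      rintro rfl
      have hk0 : k = 0 := by omega
      rw [hk0, pow_zero, one_mul]
      exact h1
  choose s hs hs' using key
  refine ⟨s, fun i => hEb _ (mul_mem (zpow_mem hπ _) (hc i)) _ (hs i), ⟨i₁, hs' i₁ rfl⟩, ?_⟩
  have h1 : P.Red (∑ i, P.π ^ (-(m i₁)) * c i * f i) (∑ i, s i * r i) :=
    ResF_red_sum P _ _ _ fun i _ => P.red_mul (hs i) (hfr i)
  have h2 : ∑ i, P.π ^ (-(m i₁)) * c i * f i = 0 := by
    simp_rw [mul_assoc]
    rw [← Finset.mul_sum, hsum, mul_zero]
  rw [h2] at h1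
  exact P.red_unique h1 P.red_zero'

/-- linear algebra: a subfield `L ⊇ Eb` in which more than `n` elements are always dependent over `Eb`
is spanned by finitely many elements. -/
theorem ResF_span (Eb L : Subfield κ) (hle : Eb ≤ L) (n : ℕ)
    (hdep : ∀ (ι : Type) [Fintype ι] (r : ι → κ), (∀ i, r i ∈ L) → n < Fintype.card ι →
      ∃ s : ι → κ, (∀ i, s i ∈ Eb) ∧ (∃ i, s i ≠ 0) ∧ ∑ i, s i * r i = 0) :
    ∃ (n' : ℕ) (b : Fin n' → κ), (∀ i, b i ∈ L) ∧
      ∀ y ∈ L, ∃ c : Fin n' → κ, (∀ i, c i ∈ Eb) ∧ y = ∑ i, c i * b i := by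
  classical
  let V : Submodule Eb κ :=
    { carrier := L
      add_mem' := fun ha hb => add_mem ha hb
      zero_mem' := zero_mem L
      smul_mem' := fun c x hx => by
        show (c : κ) * x ∈ L
        exact mul_mem (hle c.2) hx }
  have hrank : Module.rank Eb V ≤ n := by
    apply rank_le
    intro T hT
    by_contra hcon
    push Not at hcon
    obtain ⟨s, hs, ⟨i, hi⟩, hsum⟩ := hdep (ULift.{0} (Fin T.card))
      (fun i => ((T.equivFin.symm i.down : T) : V)) (fun i => ((T.equivFin.symm i.down : T) : V).2)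
      (by simpa using hcon)
    have hT' : LinearIndependent Eb (fun i : ULift.{0} (Fin T.card) =>
        (((T.equivFin.symm i.down : T) : V))) :=
      hT.comp (fun i : ULift.{0} (Fin T.card) => T.equivFin.symm i.down)
        (T.equivFin.symm.injective.comp ULift.down_injective)
    have h0 := Fintype.linearIndependent_iff.1 hT' (fun i => ⟨s i, hs i⟩) (by
      apply Subtype.ext
      rw [Submodule.coe_sum, Submodule.coe_zero, ← hsum]
      rfl) i
    exact hi (congrArg Subtype.val h0)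
  have hfin : Module.Finite Eb V :=
    Module.rank_lt_aleph0_iff.1 (lt_of_le_of_lt hrank (Cardinal.natCast_lt_aleph0))
  let B := Module.finBasis Eb V
  refine ⟨_, fun i => (B i : κ), fun i => (B i).2, fun y hy => ?_⟩
  refine ⟨fun i => (B.repr ⟨y, hy⟩ i : κ), fun i => (B.repr ⟨y, hy⟩ i).2, ?_⟩
  have h := congrArg Subtype.val (B.sum_repr ⟨y, hy⟩)
  rw [Submodule.coe_sum] at h
  exact h.symm

/-- field theory: a field generated by finitely many elements integral over `E0`: more than `n` elements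
are linearly dependent over `E0`. -/
theorem ResF_dep_of_integral {K 𝕃 : Type*} [Field K] [Field 𝕃] [Algebra K 𝕃]
    (E0 F : IntermediateField K 𝕃) {J : Type*} [Finite J] (s : J → 𝕃)
    (hint : ∀ j, IsIntegral E0 (s j)) (hF : F ≤ IntermediateField.adjoin K (Set.range s)) :
    ∃ n : ℕ, ∀ (ι : Type) [Fintype ι] (f : ι → 𝕃), (∀ i, f i ∈ F) → n < Fintype.card ι →
      ∃ c : ι → 𝕃, (∀ i, c i ∈ E0) ∧ (∃ i, c i ≠ 0) ∧ ∑ i, c i * f i = 0 := by
  classical
  have hfd : FiniteDimensional E0 (IntermediateField.adjoin E0 (Set.range s)) := by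
    apply IntermediateField.finiteDimensional_adjoin
    rintro _ ⟨j, rfl⟩
    exact hint j
  have hle : ∀ x ∈ F, x ∈ IntermediateField.adjoin E0 (Set.range s) := by
    have h1 : IntermediateField.adjoin K (Set.range s) ≤
        (IntermediateField.adjoin E0 (Set.range s)).restrictScalars K := by
      rw [IntermediateField.adjoin_le_iff]
      intro x hx
      exact (IntermediateField.mem_restrictScalars K).2 (IntermediateField.subset_adjoin _ _ hx)
    intro x hx
    exact (IntermediateField.mem_restrictScalars K).1 (h1 (hF hx))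
  refine ⟨Module.finrank E0 (IntermediateField.adjoin E0 (Set.range s)), ?_⟩
  intro ι _ f hf hcard
  have hnot : ¬ LinearIndependent E0
      (fun i => (⟨f i, hle _ (hf i)⟩ : IntermediateField.adjoin E0 (Set.range s))) := fun h =>
    absurd h.fintype_card_le_finrank (not_le.2 hcard)
  obtain ⟨g, hg, i₀, hi₀⟩ := Fintype.not_linearIndependent_iff.1 hnot
  refine ⟨fun i => ((g i : E0) : 𝕃), fun i => (g i).2, ⟨i₀, fun h => hi₀ (Subtype.ext h)⟩, ?_⟩
  have h := congrArg (fun x : IntermediateField.adjoin E0 (Set.range s) => (x : 𝕃)) hg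
  simp only [AddSubmonoidClass.coe_finsetSum, ZeroMemClass.coe_zero] at h
  exact h

end AbstractFI

variable (R K : Type) [CommRing R] [IsDomain R] [IsDiscreteValuationRing R] [Field K]
  [Algebra R K] [IsFractionRing R K] (M : ℕ) [NeZero M]

/-- the residue field of the Gauss valuation on `F_K`. -/
def resF : Subfield (LaurentSeries (kR R)) where
  carrier := {r | ∃ f ∈ modularFunctionFieldFullC K M, Red0 (algebraMap R K) f r}
  mul_mem' := fun ⟨f, hf, h⟩ ⟨f', hf', h'⟩ => ⟨f * f', mul_mem hf hf', h.mul h'⟩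
  one_mem' := ⟨1, one_mem _, Red0.one⟩
  add_mem' := fun ⟨f, hf, h⟩ ⟨f', hf', h'⟩ => ⟨f + f', add_mem hf hf', h.add h'⟩
  zero_mem' := ⟨0, zero_mem _, by simpa using (Red0.one (ι := algebraMap R K)).add Red0.one.neg⟩
  neg_mem' := fun ⟨f, hf, h⟩ => ⟨-f, neg_mem hf, h.neg⟩
  inv_mem' := fun r ⟨f, hf, h⟩ => by
    by_cases hr : r = 0
    · subst hr
      exact ⟨0, zero_mem _, by
        simpa using (Red0.one (ι := algebraMap R K)).add Red0.one.neg⟩
    · exact ⟨f⁻¹, inv_mem hf, h.inv (IsFractionRing.injective R K) hr⟩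

variable {R K M}

theorem mem_resF {r : LaurentSeries (kR R)} :
    r ∈ resF R K M ↔ ∃ f ∈ modularFunctionFieldFullC K M, Red0 (algebraMap R K) f r := Iff.rfl

variable (R K M)

/-- `k(j̄)` -/
def resE : Subfield (LaurentSeries (kR R)) :=
  Subfield.closure (Set.range (HahnSeries.C : kR R →+* LaurentSeries (kR R)) ∪ {jqModC (kR R)})

theorem resE_le_resF : resE R ≤ resF R K M := by
  rw [resE, Subfield.closure_le]
  rintro x (⟨c, rfl⟩ | rfl)
  · obtain ⟨a, rfl⟩ := IsLocalRing.residue_surjective c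
    refine ⟨HahnSeries.C (algebraMap R K a), ?_, Red0.C a⟩
    have h := IntermediateField.algebraMap_mem (modularFunctionFieldFullC K M) (algebraMap R K a)
    rwa [algebraMap_laurentSeries_eq_single, ← HahnSeries.C_apply] at h
  · refine ⟨jqModC K, jqModC_mem_full K M, ?_⟩
    have h := Red0.of_series (ι := algebraMap R K) (jqModC R)
    rwa [coeffMap_jqModC, coeffMap_jqModC] at h

section Concrete

open Polynomial IntermediateField

variable {R K}

/-- primitive part of a polynomial over `K = Frac R`. -/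
theorem ResF_exists_prim (P : K[X]) (hP : P ≠ 0) :
    ∃ (a : K) (P₁ : R[X]), a ≠ 0 ∧ P₁.map (rs R) ≠ 0 ∧ P = C a * P₁.map (algebraMap R K) := by
  obtain ⟨ϖ, hϖ⟩ := IsDiscreteValuationRing.exists_irreducible R
  obtain ⟨b, hbm, hb⟩ := IsLocalization.integerNormalization_spec (nonZeroDivisors R) P
  set P₀ := IsLocalization.integerNormalization (nonZeroDivisors R) P
  have hb0 : algebraMap R K b ≠ 0 := by
    rw [Ne, map_eq_zero_iff _ (IsFractionRing.injective R K)]
    exact nonZeroDivisors.ne_zero hbm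
  have hb' : P₀.map (algebraMap R K) = C (algebraMap R K b) * P := by
    rw [hb, ← IsScalarTower.algebraMap_smul K b P, smul_eq_C_mul]
  have hP₀ : P₀ ≠ 0 := by
    intro h
    rw [h, Polynomial.map_zero] at hb'
    exact mul_ne_zero (C_ne_zero.2 hb0) hP hb'.symm
  obtain ⟨n, P₁, hP₁, e⟩ := WfDvdMonoid.max_power_factor hP₀
    (Polynomial.prime_C_iff.2 hϖ.prime).irreducible
  have hϖ0 : algebraMap R K ϖ ≠ 0 := by
    rw [Ne, map_eq_zero_iff _ (IsFractionRing.injective R K)]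
    exact hϖ.ne_zero
  refine ⟨(algebraMap R K b)⁻¹ * algebraMap R K ϖ ^ n, P₁,
    mul_ne_zero (inv_ne_zero hb0) (pow_ne_zero n hϖ0), ?_, ?_⟩
  · intro h
    apply hP₁
    rw [C_dvd_iff_dvd_coeff]
    intro i
    have h1 := congrArg (fun Q => Q.coeff i) h
    simp only [coeff_map, coeff_zero] at h1
    rw [IsLocalRing.residue_eq_zero_iff, hϖ.maximalIdeal_eq, Ideal.mem_span_singleton] at h1
    exact h1
  · rw [e, Polynomial.map_mul, Polynomial.map_pow, map_C] at hb'
    rw [C_mul, C_pow, mul_assoc, hb', ← mul_assoc, ← C_mul, inv_mul_cancel₀ hb0, C_1, one_mul]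

theorem ResF_coeffMap_eval₂ {S : Type} [Field S] (f : R →+* S) (P₁ : R[X]) :
    coeffMap f (eval₂ HahnSeries.C (jqModC R) P₁) = aeval (jqModC S) (P₁.map f) := by
  rw [Polynomial.hom_eval₂, coeffMap_jqModC, aeval_def, eval₂_map]
  congr 1
  ext a : 1
  rw [RingHom.comp_apply, RingHom.comp_apply, Red_coeffMap_C, algebraMap_laurentSeries_eq_single,
    HahnSeries.C_apply]

theorem ResF_red_aeval (P₁ : R[X]) :
    Red0 (algebraMap R K) (aeval (jqModC K) (P₁.map (algebraMap R K)))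
      (aeval (jqModC (kR R)) (P₁.map (rs R))) := by
  have h := Red0.of_series (ι := algebraMap R K) (eval₂ HahnSeries.C (jqModC R) P₁)
  rwa [ResF_coeffMap_eval₂, ResF_coeffMap_eval₂] at h

theorem ResF_aeval_mem (Q : (kR R)[X]) : aeval (jqModC (kR R)) Q ∈ resE R := by
  rw [aeval_eq_sum_range]
  refine sum_mem fun i _ => ?_
  rw [Algebra.smul_def, algebraMap_laurentSeries_eq_single, ← HahnSeries.C_apply]
  have h1 : (HahnSeries.C (Q.coeff i) : LaurentSeries (kR R)) ∈ resE R :=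
    Subfield.subset_closure (Or.inl ⟨_, rfl⟩)
  have h2 : jqModC (kR R) ∈ resE R := Subfield.subset_closure (Or.inr rfl)
  exact mul_mem h1 (pow_mem h2 _)

theorem ResF_aeval_ne_zero {k : Type} [Field k] (Q : k[X]) (hQ : Q ≠ 0) :
    aeval (jqModC k) Q ≠ 0 := fun h =>
  hQ ((transcendental_iff.1 (Fermat.Agent.S28.transcendental_jqModC k)) Q h)

/-- a nonzero element of `K(j)` is a constant times a Gauss unit with reduction in `k(j̄)`. -/
theorem ResF_frac (c : LaurentSeries K) (hc : c ∈ K⟮jqModC K⟯) (hc0 : c ≠ 0) :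
    ∃ (a : K) (w : LaurentSeries K) (s : LaurentSeries (kR R)), a ≠ 0 ∧ s ≠ 0 ∧ s ∈ resE R ∧
      Red0 (algebraMap R K) w s ∧ c = HahnSeries.C a * w := by
  obtain ⟨P, Q, rfl⟩ := (IntermediateField.mem_adjoin_simple_iff K c).1 hc
  have hP : P ≠ 0 := by
    rintro rfl
    simp at hc0
  have hQ : Q ≠ 0 := by
    rintro rfl
    simp at hc0
  obtain ⟨a₁, P₁, ha₁, hP₁, rfl⟩ := ResF_exists_prim (R := R) P hP
  obtain ⟨a₂, Q₁, ha₂, hQ₁, rfl⟩ := ResF_exists_prim (R := R) Q hQ
  have hQs := ResF_aeval_ne_zero _ hQ₁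
  refine ⟨a₁ / a₂, aeval (jqModC K) (P₁.map (algebraMap R K)) /
      aeval (jqModC K) (Q₁.map (algebraMap R K)), _, div_ne_zero ha₁ ha₂,
    div_ne_zero (ResF_aeval_ne_zero _ hP₁) hQs,
    div_mem (ResF_aeval_mem _) (ResF_aeval_mem _),
    ?_, ?_⟩
  · have h := (ResF_red_aeval (K := K) P₁).mul
      ((ResF_red_aeval (K := K) Q₁).inv (IsFractionRing.injective R K) hQs)
    rw [← div_eq_mul_inv, ← div_eq_mul_inv] at h
    exact h
  · rw [map_mul, map_mul, aeval_C, aeval_C, algebraMap_laurentSeries_eq_single,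
      algebraMap_laurentSeries_eq_single, ← HahnSeries.C_apply, ← HahnSeries.C_apply, map_div₀,
      mul_div_mul_comm]

/-- (`gauss_E`) -/
theorem ResF_gauss (c : LaurentSeries K) (hc : c ∈ K⟮jqModC K⟯) (r : LaurentSeries (kR R))
    (h : Red0 (algebraMap R K) c r) : r ∈ resE R := by
  have hι := IsFractionRing.injective R K
  by_cases hc0 : c = 0
  · subst hc0
    have h0 : Red0 (algebraMap R K) (0 : LaurentSeries K) 0 := by
      simpa using (Red0.one (ι := algebraMap R K)).add Red0.one.neg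
    rw [h.unique hι h0]
    exact zero_mem _
  · obtain ⟨a, w, s, ha, hs, hsE, hw, rfl⟩ := ResF_frac (R := R) c hc hc0
    have hw0 : w ≠ 0 := right_ne_zero_of_mul hc0
    have h1 := h.mul (hw.inv hι hs)
    rw [mul_assoc, mul_inv_cancel₀ hw0, mul_one] at h1
    obtain ⟨a', -, e⟩ := h1.const
    have e2 : r = HahnSeries.C (rs R a') * s := by
      rw [← e, mul_assoc, inv_mul_cancel₀ hs, mul_one]
    rw [e2]
    have h3 : (HahnSeries.C (rs R a') : LaurentSeries (kR R)) ∈ resE R :=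
      Subfield.subset_closure (Or.inl ⟨_, rfl⟩)
    exact mul_mem h3 hsE

/-- (`pivot`) on `K(j)`. -/
theorem ResF_pivot {ϖ : R} (hϖ : Irreducible ϖ) (c : LaurentSeries K) (hc : c ∈ K⟮jqModC K⟯)
    (hc0 : c ≠ 0) :
    ∃ (m : ℤ) (u : LaurentSeries K) (s : LaurentSeries (kR R)), s ≠ 0 ∧
      Red0 (algebraMap R K) u s ∧ c = HahnSeries.C (algebraMap R K ϖ) ^ m * u := by
  have hι := IsFractionRing.injective R K
  obtain ⟨a, w, s, ha, hs, -, hw, rfl⟩ := ResF_frac (R := R) c hc hc0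
  obtain ⟨a₁, a₂, ha₂, rfl⟩ := IsFractionRing.div_surjective (A := R) a
  have ha₂0 : a₂ ≠ 0 := nonZeroDivisors.ne_zero ha₂
  have ha₂' : algebraMap R K a₂ ≠ 0 := by rwa [Ne, map_eq_zero_iff _ hι]
  have ha₁0 : a₁ ≠ 0 := by
    rintro rfl
    simp at ha
  obtain ⟨m, u, t, ht, hu, e⟩ := Red0.pivot (ι := algebraMap R K)
    (x := HahnSeries.C (algebraMap R K a₁ / algebraMap R K a₂)) hι hϖ
    (HahnSeries.C a₁) (HahnSeries.C a₂)
    (by rwa [Ne, map_eq_zero_iff _ HahnSeries.C_injective])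
    (by rwa [Ne, map_eq_zero_iff _ HahnSeries.C_injective])
    (by rw [Red_coeffMap_C, Red_coeffMap_C, ← map_mul, div_mul_cancel₀ _ ha₂'])
  exact ⟨m, u * w, t * s, mul_ne_zero ht hs, hu.mul hw, by rw [e, mul_assoc]⟩

end Concrete

open IntermediateField Fermat.Agent.S28 in
/-- **fundamental inequality** -/
theorem resF_fin : ∃ (n : ℕ) (b : Fin n → LaurentSeries (kR R)), (∀ i, b i ∈ resF R K M) ∧
    ∀ y ∈ resF R K M, ∃ c : Fin n → LaurentSeries (kR R), (∀ i, c i ∈ resE R) ∧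
      y = ∑ i, c i * b i := by
  classical
  have hι := IsFractionRing.injective R K
  obtain ⟨ϖ, hϖ⟩ := IsDiscreteValuationRing.exists_irreducible R
  have hfinD : Finite {d : ℕ // d ∣ M} :=
    Set.Finite.subset (Set.finite_Iic M)
      (fun d (hd : d ∣ M) => Nat.le_of_dvd (Nat.pos_of_ne_zero (NeZero.ne M)) hd)
  have hd0 : ∀ d : {d : ℕ // d ∣ M}, d.1 ≠ 0 := fun d h =>
    NeZero.ne M (Nat.eq_zero_of_zero_dvd (h ▸ d.2))
  obtain ⟨n, hn⟩ := ResF_dep_of_integral K⟮jqModC K⟯ (modularFunctionFieldFullC K M)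
    (fun d : {d : ℕ // d ∣ M} => jd K d.1)
    (fun d => Fermat.Agent.S17.IsFFAux.isIntegral_jd (L := K) K⟮jqModC K⟯
      ⟨jqModC K, IntermediateField.mem_adjoin_simple_self K _⟩ rfl d.1 (hd0 d))
    (by
      rw [full_le_iff]
      intro d hd hdM
      exact IntermediateField.subset_adjoin _ _ ⟨⟨d, hdM⟩, rfl⟩)
  refine ResF_span (resE R) (resF R K M) (resE_le_resF R K M) n ?_
  intro ι _ r hr hcard
  choose f hfF hfr using hr
  obtain ⟨c, hc, ⟨i₀, hi₀⟩, hsum⟩ := hn ι f hfF hcard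
  refine ResF_dependent (redPkg (algebraMap R K) hι ϖ hϖ) (K⟮jqModC K⟯).toSubfield (resE R) ?_ ?_ ?_
    f r hfr c hc i₀ hi₀ hsum
  · show HahnSeries.C (algebraMap R K ϖ) ∈ K⟮jqModC K⟯
    have h := IntermediateField.algebraMap_mem K⟮jqModC K⟯ (algebraMap R K ϖ)
    rwa [algebraMap_laurentSeries_eq_single, ← HahnSeries.C_apply] at h
  · intro c hc hc0
    exact ResF_pivot hϖ c hc hc0
  · intro c hc r' h
    exact ResF_gauss c hc r' h

end

end Fermat.Agent.S33
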