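import Fermat.Agent.S33.Good.Field
import Fermat.Agent.S33.Good.ResF
import Fermat.Agent.S33.Good.PthPower

/-!
# S33 / Good / Sep : (SEP) a reduction killed by `θ` is a `p`-th power of a reduction

PROOF SKETCHES.
* `kerD` : the kernel of a derivation of a field is a subfield (`Derivation.leibniz`, `Derivation.leibniz_inv`,
  `Derivation.map_one_eq_zero`).
* `indep_of_derivation` : induction on `m ≤ p`:  `∑_{i<m+1} c_i x^i = 0`, `δ c_i = 0`.  Apply `δ`:
  `(∑_{i<m} (i+1) c_{i+1} x^i) * δ x = 0`; `δ x ≠ 0`; induction hypothesis for `c'_i = (i+1) c_{i+1}`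
  (`δ c'_i = 0`): `(i+1) c_{i+1} = 0`, and `(i+1 : κ) ≠ 0` since `0 < i+1 < p` (`CharP.cast_eq_zero_iff`).
  Then `c_0 = 0`.   (`Finset.sum_range_succ'`, or `Fin.sum_univ_succ`.)
* `theta_j_ne` : the coefficient of `q^(-1)` of `θ j̄` is `-1` (`coeff_jqModC_neg_one`).
* `sep` : `f = bc f₀` (`mem_F`), `Red0 (algebraMap R K₀) f₀ r` (`red0_bc`), so `r ∈ resF`.  Apply `pth_power` with
  `κ = k((q))`, `k₀ = (C).fieldRange`, `E = resE`, `L = resF`, `D = kerD θ`, `x = jqModC k`:
  `hperf` from `PerfectField k` + `CharP k p` (`PerfectRing`/`surjective_frobenius`), `hE` is `rfl` up to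
  `RingHom.coe_fieldRange`, `hEL = resE_le_resF`, `hD y` : `θ (y^p) = p y^(p-1) θ y = 0`, `hind` from
  `indep_of_derivation`, `hfin = resF_fin`.  Get `t ∈ resF`, `t^p = r`; `t = red h₀`, `h := bc h₀`.
-/

set_option autoImplicit false
set_option linter.unusedSectionVars false

open AlgebraicCurve ModularCurve

namespace Fermat.Agent.S33

open Fermat.Agent.ES Fermat.Agent.SS Fermat.Agent.S33.Calc

noncomputable section

/-- the kernel of a derivation of a field. -/
def kerD {κ : Type*} [Field κ] (δ : Derivation ℤ κ κ) : Subfield κ where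
  carrier := {y | δ y = 0}
  mul_mem' := by
    intro a b ha hb
    show δ (a * b) = 0
    rw [Derivation.leibniz, show δ a = 0 from ha, show δ b = 0 from hb, smul_zero, smul_zero,
      add_zero]
  one_mem' := by
    exact δ.map_one_eq_zero
  add_mem' := by
    intro a b ha hb
    show δ (a + b) = 0
    rw [map_add, show δ a = 0 from ha, show δ b = 0 from hb, add_zero]
  zero_mem' := by
    exact map_zero δ
  neg_mem' := by
    intro a ha
    show δ (-a) = 0
    rw [map_neg, show δ a = 0 from ha, neg_zero]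
  inv_mem' := by
    intro a ha
    show δ a⁻¹ = 0
    rw [Derivation.leibniz_inv, show δ a = 0 from ha, smul_zero]

theorem Sep_indep_aux {κ : Type*} [Field κ] (p : ℕ) [Fact p.Prime] [CharP κ p]
    (δ : Derivation ℤ κ κ) (x : κ) (hx : δ x ≠ 0) (m : ℕ) :
    m ≤ p → ∀ c : ℕ → κ, (∀ i, δ (c i) = 0) → ∑ i ∈ Finset.range m, c i * x ^ i = 0 →
      ∀ i < m, c i = 0 := by
  induction m with
  | zero => intro _ c _ _ i hi; exact absurd hi (Nat.not_lt_zero i)
  | succ m ih =>
    intro hm c hc h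
    have h1 := congrArg δ h
    rw [map_zero, map_sum, Finset.sum_range_succ'] at h1
    have h2 : δ (c 0 * x ^ 0) = 0 := by rw [pow_zero, mul_one, hc 0]
    have h3 : ∀ i, δ (c (i + 1) * x ^ (i + 1)) = (((i + 1 : ℕ) : κ) * c (i + 1) * x ^ i) * δ x := by
      intro i
      rw [Derivation.leibniz, hc (i + 1), smul_zero, add_zero, Derivation.leibniz_pow,
        Nat.add_sub_cancel, smul_eq_mul, smul_eq_mul, nsmul_eq_mul]
      ring
    rw [h2, add_zero, Finset.sum_congr rfl (fun i _ => h3 i), ← Finset.sum_mul] at h1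
    have h4 := (mul_eq_zero.1 h1).resolve_right hx
    have h5 := ih (by omega) (fun i => ((i + 1 : ℕ) : κ) * c (i + 1)) (fun i => by
      rw [Derivation.leibniz, hc (i + 1), smul_zero, Derivation.map_natCast, smul_zero, add_zero]) h4
    have h6 : ∀ i < m, c (i + 1) = 0 := by
      intro i hi
      have h7 := h5 i hi
      have h8 : ((i + 1 : ℕ) : κ) ≠ 0 := by
        rw [Ne, CharP.cast_eq_zero_iff κ p]
        intro hdvd
        have := Nat.le_of_dvd (Nat.succ_pos i) hdvd
        omega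
      exact (mul_eq_zero.1 h7).resolve_left h8
    have h9 : c 0 = 0 := by
      rw [Finset.sum_range_succ', Finset.sum_eq_zero (fun i hi => by
        rw [h6 i (Finset.mem_range.1 hi), zero_mul]), zero_add, pow_zero, mul_one] at h
      exact h
    intro i hi
    rcases Nat.eq_zero_or_pos i with rfl | hpos
    · exact h9
    · obtain ⟨k, rfl⟩ : ∃ k, i = k + 1 := ⟨i - 1, by omega⟩
      exact h6 k (by omega)

theorem indep_of_derivation {κ : Type*} [Field κ] (p : ℕ) [Fact p.Prime] [CharP κ p]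
    (δ : Derivation ℤ κ κ) (x : κ) (hx : δ x ≠ 0) (c : Fin p → κ) (hc : ∀ i, δ (c i) = 0)
    (h : ∑ i, c i * x ^ (i : ℕ) = 0) : ∀ i, c i = 0 := by
  intro i
  have key := Sep_indep_aux p δ x hx p le_rfl (fun n => if hn : n < p then c ⟨n, hn⟩ else 0)
    (fun n => by
      by_cases hn : n < p
      · simp only [dif_pos hn]; exact hc _
      · simp only [dif_neg hn]; exact map_zero δ)
    (by
      rw [← Fin.sum_univ_eq_sum_range (fun n => (if hn : n < p then c ⟨n, hn⟩ else 0) * x ^ n) p,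
        ← h]
      refine Finset.sum_congr rfl fun j _ => ?_
      simp only [dif_pos j.2])
    i i.2
  simpa only [dif_pos i.2] using key

theorem Sep_der_pow_p {κ : Type*} [Field κ] (p : ℕ) [CharP κ p] (δ : Derivation ℤ κ κ) (y : κ) :
    δ (y ^ p) = 0 := by
  rw [Derivation.leibniz_pow]
  simp [CharP.cast_eq_zero κ p, ← Nat.cast_smul_eq_nsmul κ]

theorem theta_j_ne (k : Type*) [Field k] : theta k (jqModC k) ≠ 0 := by
  intro h
  have h1 := congrArg (fun y => y.coeff (-1)) h
  simp only [theta_coeff, HahnSeries.coeff_zero, coeff_jqModC_neg_one] at h1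
  simp at h1

namespace Setup

variable {p : ℕ} [hp : Fact p.Prime] (S : Setup p) {M : ℕ} [NeZero M]

/-- **(SEP)** -/
theorem sep {f : LaurentSeries Qb} {r : LaurentSeries (kR S.R)} (hf : f ∈ S.F M)
    (hred : Red0 S.ι f r) (hth : theta (kR S.R) r = 0) :
    ∃ h ∈ S.F M, ∃ t : LaurentSeries (kR S.R), Red0 S.ι h t ∧ t ^ p = r := by
  obtain ⟨f₀, hf₀, rfl⟩ := S.mem_F.1 hf
  have hr : r ∈ resF S.R S.K₀ M := ⟨f₀, hf₀, S.red0_bc.1 hred⟩
  have : CharP (LaurentSeries (kR S.R)) p :=
    charP_of_injective_ringHom (HahnSeries.C_injective (Γ := ℤ) (R := kR S.R)) p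
  have : PerfectRing (kR S.R) p := PerfectField.toPerfectRing p
  obtain ⟨t, ⟨h₀, hh₀, hred₀⟩, ht⟩ := pth_power p
    (HahnSeries.C : kR S.R →+* LaurentSeries (kR S.R)).fieldRange (resE S.R) (resF S.R S.K₀ M)
    (kerD (theta (kR S.R))) (jqModC (kR S.R))
    (by
      rintro _ ⟨a, rfl⟩
      obtain ⟨b, hb⟩ := surjective_frobenius (kR S.R) p a
      exact ⟨HahnSeries.C b, ⟨b, rfl⟩, by rw [← map_pow, ← hb, frobenius_def]⟩)
    (by rw [resE, RingHom.coe_fieldRange])
    (resE_le_resF S.R S.K₀ M)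
    (fun y => Sep_der_pow_p p (theta (kR S.R)) y)
    (fun c hc h => indep_of_derivation p (theta (kR S.R)) _ (theta_j_ne _) c hc h)
    (resF_fin S.R S.K₀ M) r hr hth
  exact ⟨S.bc h₀, S.mem_F.2 ⟨h₀, hh₀, rfl⟩, t, S.red0_bc.2 hred₀, ht⟩

end Setup

end

end Fermat.Agent.S33
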