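import Fermat.Agent.S33.Defs
import Fermat.Agent.Crux.Descent
import Fermat.Agent.S33.Calc.Ops
import Fermat.Agent.S33.Calc.Cyclo

/-!
# S33 / Good / Setup : the number field `K₀`, the DVR `R = A ∩ K₀`, the inertia element

`Setup p` packages: a valuation ring `A ∣ p` of `ℚ̄`, a number field `K₀ ⊆ ℚ̄` containing `ζ_p`, an
element `g` of the inertia group of `A` with `g K₀ ⊆ K₀`, `g ζ = ζ^a`, `a ≢ 1 mod p`.
-/

set_option autoImplicit false
set_option linter.unusedSectionVars false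

open AlgebraicCurve ModularCurve

namespace Fermat.Agent.S33

open Fermat.Agent.ES Fermat.Agent.SS Fermat.Agent.S33.Calc

noncomputable section

/-- see the header. -/
structure Setup (p : ℕ) where
  A : ValuationSubring Qb
  hA : A.LiesOverPrime p
  K₀ : IntermediateField ℚ Qb
  fin : FiniteDimensional ℚ K₀
  g : A.decompositionSubgroup ℚ
  hg : (resA A).comp (galA g) = resA A
  stable : ∀ x ∈ K₀, (g : GQ) x ∈ K₀
  ζ : Qb
  hζ : IsPrimitiveRoot ζ p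
  ζ_mem : ζ ∈ K₀
  a : ℕ
  ha : (g : GQ) ζ = ζ ^ a
  ha1 : ¬ (p : ℤ) ∣ (a : ℤ) - 1

namespace Setup

variable {p : ℕ} [hp : Fact p.Prime] (S : Setup p)

instance instNumberField : NumberField S.K₀ :=
  haveI := S.fin
  ⟨⟩

/-- `R = A ∩ K₀`. -/
abbrev R : Type := ↥(Crux.A0 S.K₀ S.A)

instance instDVR : IsDiscreteValuationRing S.R :=
  Crux.isDiscreteValuationRing_of_numberField _ (Crux.A0_ne_top S.K₀ S.A hp.out S.hA)

instance instPerfect : PerfectField (kR S.R) :=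
  Crux.perfectField_residueField _ p hp.out (Crux.residue_A0_natCast S.K₀ S.A S.hA)

instance instCharP : CharP (kR S.R) p := by
  have hV := Crux.residue_A0_natCast S.K₀ S.A S.hA
  obtain ⟨q, hq⟩ := CharP.exists (kR S.R)
  have h1 : q ∣ p := by
    rw [← CharP.cast_eq_zero_iff (kR S.R) q p, ← hV, map_natCast]
  rcases (Nat.dvd_prime hp.out).mp h1 with h | h
  · exact absurd h (CharP.char_ne_one (kR S.R) q)
  · rwa [h] at hq

/-- `R → ℚ̄`. -/
def ι : S.R →+* Qb := (algebraMap S.K₀ Qb).comp (Crux.A0 S.K₀ S.A).subtype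

theorem ι_injective : Function.Injective S.ι :=
  (algebraMap S.K₀ Qb).injective.comp Subtype.val_injective

theorem ι_mem_K₀ (x : S.R) : S.ι x ∈ S.K₀ := (x : S.K₀).2

theorem ι_mem_A (x : S.R) : S.ι x ∈ S.A := x.2

/-- elements of `A ∩ K₀`. -/
theorem exists_ι_eq {c : Qb} (h1 : c ∈ S.K₀) (h2 : c ∈ S.A) : ∃ x : S.R, S.ι x = c :=
  ⟨⟨⟨c, h1⟩, h2⟩, rfl⟩

/-- `R → A`. -/
def toA : S.R →+* S.A where
  toFun x := ⟨S.ι x, S.ι_mem_A x⟩
  map_one' := Subtype.ext (map_one S.ι)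
  map_mul' x y := Subtype.ext (map_mul S.ι x y)
  map_zero' := Subtype.ext (map_zero S.ι)
  map_add' x y := Subtype.ext (map_add S.ι x y)

theorem subtype_comp_toA : S.A.subtype.comp S.toA = S.ι := rfl

/-- `Crux.residue_comap_eq_zero_iff`. -/
theorem res_toA_eq_zero_iff (x : S.R) : resA S.A (S.toA x) = 0 ↔ rs S.R x = 0 :=
  (Crux.residue_comap_eq_zero_iff (algebraMap S.K₀ Qb) S.A x (S.toA x) rfl).symm

instance instIsLocalHom : IsLocalHom ((resA S.A).comp S.toA) :=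
  ⟨fun x hx => by
    by_contra hu
    have h1 : rs S.R x = 0 :=
      (IsLocalRing.residue_eq_zero_iff x).mpr ((IsLocalRing.mem_maximalIdeal x).mpr hu)
    have h2 := (S.res_toA_eq_zero_iff x).mpr h1
    rw [RingHom.comp_apply, h2] at hx
    exact not_isUnit_zero hx⟩

/-- `k₀ → k_A`. -/
def kι : kR S.R →+* kA S.A := IsLocalRing.ResidueField.lift ((resA S.A).comp S.toA)

theorem kι_rs (x : S.R) : S.kι (rs S.R x) = resA S.A (S.toA x) := rfl

theorem kι_comp_rs : S.kι.comp (rs S.R) = (resA S.A).comp S.toA := rfl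

/-- the action of `g` on `R`. -/
def σ₀ : S.R →+* S.R where
  toFun x := ⟨⟨(S.g : GQ) (S.ι x), S.stable _ (S.ι_mem_K₀ x)⟩, (galA S.g (S.toA x)).2⟩
  map_one' := by
    apply Subtype.ext; apply Subtype.ext
    show (S.g : GQ) (S.ι 1) = 1
    rw [map_one, map_one]
  map_mul' x y := by
    apply Subtype.ext; apply Subtype.ext
    show (S.g : GQ) (S.ι (x * y)) = (S.g : GQ) (S.ι x) * (S.g : GQ) (S.ι y)
    rw [map_mul, map_mul]
  map_zero' := by
    apply Subtype.ext; apply Subtype.ext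
    show (S.g : GQ) (S.ι 0) = 0
    rw [map_zero, map_zero]
  map_add' x y := by
    apply Subtype.ext; apply Subtype.ext
    show (S.g : GQ) (S.ι (x + y)) = (S.g : GQ) (S.ι x) + (S.g : GQ) (S.ι y)
    rw [map_add, map_add]

theorem ι_σ₀ (x : S.R) : S.ι (S.σ₀ x) = (S.g : GQ) (S.ι x) := rfl

theorem gal_comp_ι : (((S.g : GQ) : Qb →+* Qb)).comp S.ι = S.ι.comp S.σ₀ := rfl

/-- `g` is in the inertia group.  PROOF: `rs (σ₀ x - x) = 0 ↔ resA (toA (σ₀ x - x)) = 0`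
(`res_toA_eq_zero_iff`), and `toA (σ₀ x) = galA g (toA x)`, `S.hg`. -/
theorem rs_comp_σ₀ : (rs S.R).comp S.σ₀ = rs S.R := by
  ext x
  rw [RingHom.comp_apply, ← sub_eq_zero, ← map_sub, ← res_toA_eq_zero_iff, map_sub, map_sub,
    sub_eq_zero]
  have h1 : S.toA (S.σ₀ x) = galA S.g (S.toA x) := rfl
  rw [h1]
  exact congrArg (fun f => f (S.toA x)) S.hg

/-- a uniformiser -/
def ϖ : S.R := (IsDiscreteValuationRing.exists_irreducible S.R).choose

theorem hϖ : Irreducible S.ϖ := (IsDiscreteValuationRing.exists_irreducible S.R).choose_spec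

/-- `ζ_p ∈ R`. -/
def ζ₀ : S.R := ⟨⟨S.ζ, S.ζ_mem⟩, mem_of_pow_eq_one S.A hp.out.ne_zero S.hζ.pow_eq_one⟩

theorem ι_ζ₀ : S.ι S.ζ₀ = S.ζ := rfl

theorem hζ₀ : IsPrimitiveRoot S.ζ₀ p :=
  IsPrimitiveRoot.of_map_of_injective (f := S.ι) S.hζ S.ι_injective

theorem σ₀_ζ₀ : S.σ₀ S.ζ₀ = S.ζ₀ ^ S.a := by
  apply S.ι_injective
  rw [ι_σ₀, map_pow, ι_ζ₀, S.ha]

/-- `d = v(ζ_p - 1)`. -/
def d : ℕ := (exists_zeta_sub_one S.hζ₀ S.hϖ).choose

/-- `ζ_p - 1 = u ϖ^d`. -/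
def u : S.Rˣ := (exists_zeta_sub_one S.hζ₀ S.hϖ).choose_spec.choose

theorem d_pos : 0 < S.d := (exists_zeta_sub_one S.hζ₀ S.hϖ).choose_spec.choose_spec.1

theorem zeta_sub_one : S.ζ₀ - 1 = S.u * S.ϖ ^ S.d :=
  (exists_zeta_sub_one S.hζ₀ S.hϖ).choose_spec.choose_spec.2

/-- `p = v ϖ^((p-1) d)`. -/
def v : S.Rˣ := (exists_p_eq S.hζ₀ S.zeta_sub_one).choose

theorem p_eq : (p : S.R) = S.v * S.ϖ ^ ((p - 1) * S.d) :=
  (exists_p_eq S.hζ₀ S.zeta_sub_one).choose_spec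

/-- `σ₀ ϖ = ϖ t`. -/
def t : S.R := (exists_t S.hϖ S.σ₀ S.rs_comp_σ₀).choose

theorem σ₀_ϖ : S.σ₀ S.ϖ = S.ϖ * S.t := (exists_t S.hϖ S.σ₀ S.rs_comp_σ₀).choose_spec

theorem rs_t_pow : rs S.R S.t ^ (p * S.d) = (S.a : kR S.R) :=
  residue_pow_eq S.hζ₀ S.hϖ S.σ₀ S.rs_comp_σ₀ S.σ₀_ζ₀ S.σ₀_ϖ S.zeta_sub_one

theorem a_ne_one : (S.a : kR S.R) ≠ 1 := by
  intro h
  apply S.ha1
  rw [← CharP.intCast_eq_zero_iff (kR S.R) p]
  push_cast
  rw [h, sub_self]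

end Setup

end

end Fermat.Agent.S33
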